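import Mathlib
import Fermat.Prelude.Def_ModularCurve_X0ModL

/-!
Laurent series over `ℂ` converging absolutely on the punctured unit disc and their evaluation.
-/

set_option autoImplicit false

noncomputable section

open HahnSeries

namespace Fermat.Agent.ModFun

/-- coefficient of a product of Laurent series as a `tsum`. -/
theorem coeff_mul_eq_tsum {R : Type*} [CommRing R] [TopologicalSpace R] [T2Space R]
    (F G : LaurentSeries R) (n : ℤ) :
    (F * G).coeff n = ∑' i : ℤ, F.coeff i * G.coeff (n - i) := by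
  classical
  rw [HahnSeries.coeff_mul]
  rw [tsum_eq_sum (s := (Finset.antidiagonal F.isPWO_support G.isPWO_support n).image Prod.fst)]
  · rw [Finset.sum_image]
    · refine Finset.sum_congr rfl fun ij hij => ?_
      rw [Finset.mem_antidiagonal] at hij
      rw [← hij.2.2, add_sub_cancel_left]
    · intro a ha b hb hab
      simp only [Finset.mem_coe, Finset.mem_antidiagonal] at ha hb
      refine Prod.ext hab ?_
      have := ha.2.2.trans hb.2.2.symm
      rw [hab] at this
      exact add_left_cancel this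
  · intro i hi
    by_contra hne
    apply hi
    rw [Finset.mem_image]
    refine ⟨(i, n - i), ?_, rfl⟩
    rw [Finset.mem_antidiagonal]
    refine ⟨?_, ?_, by simp⟩
    · rw [HahnSeries.mem_support]
      exact left_ne_zero_of_mul hne
    · rw [HahnSeries.mem_support]
      exact right_ne_zero_of_mul hne

/-- punctured unit disc -/
def PDisc (z : ℂ) : Prop := 0 < ‖z‖ ∧ ‖z‖ < 1

theorem PDisc.ne_zero {z : ℂ} (hz : PDisc z) : z ≠ 0 := norm_pos_iff.mp hz.1

/-- reindexing `(n,i) ↦ (i, n-i)` -/
def convEquiv : ℤ × ℤ ≃ ℤ × ℤ where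
  toFun p := (p.2, p.1 - p.2)
  invFun p := (p.1 + p.2, p.1)
  left_inv p := by ext <;> simp
  right_inv p := by ext <;> simp

/-- Summability at `z`. -/
def ConvAt (F : LaurentSeries ℂ) (z : ℂ) : Prop :=
  Summable fun n : ℤ => ‖F.coeff n * z ^ n‖

def evf (F : LaurentSeries ℂ) (z : ℂ) : ℂ := ∑' n : ℤ, F.coeff n * z ^ n

theorem mul_coeff_zpow (F G : LaurentSeries ℂ) {z : ℂ} (hz : z ≠ 0) (n : ℤ) :
    (F * G).coeff n * z ^ n =
      ∑' i : ℤ, (F.coeff i * z ^ i) * (G.coeff (n - i) * z ^ (n - i)) := by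
  rw [coeff_mul_eq_tsum, ← tsum_mul_right]
  refine tsum_congr fun i => ?_
  have : z ^ n = z ^ i * z ^ (n - i) := by rw [← zpow_add₀ hz]; congr 1; ring
  rw [this]; ring

theorem summable_prod_aux {F G : LaurentSeries ℂ} {z : ℂ} (hF : ConvAt F z) (hG : ConvAt G z) :
    Summable fun p : ℤ × ℤ => ‖(F.coeff p.2 * z ^ p.2) * (G.coeff (p.1 - p.2) * z ^ (p.1 - p.2))‖ := by
  have h := Summable.mul_norm hF hG
  exact (convEquiv.summable_iff).mpr h

theorem ConvAt.mul {F G : LaurentSeries ℂ} {z : ℂ} (hz : z ≠ 0) (hF : ConvAt F z) (hG : ConvAt G z) :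
    ConvAt (F * G) z := by
  have h := summable_prod_aux hF hG
  have h2 := h.prod
  refine Summable.of_nonneg_of_le (fun _ => norm_nonneg _) (fun n => ?_) h2
  rw [mul_coeff_zpow F G hz n]
  exact norm_tsum_le_tsum_norm (h.prod_factor n)

theorem evf_mul {F G : LaurentSeries ℂ} {z : ℂ} (hz : z ≠ 0) (hF : ConvAt F z) (hG : ConvAt G z) :
    evf (F * G) z = evf F z * evf G z := by
  have h := summable_prod_aux hF hG
  unfold evf
  rw [tsum_mul_tsum_of_summable_norm hF hG]
  simp_rw [mul_coeff_zpow F G hz]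
  rw [← h.of_norm.tsum_prod]
  exact (convEquiv.tsum_eq fun p : ℤ × ℤ => (F.coeff p.1 * z ^ p.1) * (G.coeff p.2 * z ^ p.2))

theorem ConvAt.add {F G : LaurentSeries ℂ} {z : ℂ} (hF : ConvAt F z) (hG : ConvAt G z) :
    ConvAt (F + G) z := by
  refine Summable.of_nonneg_of_le (fun _ => norm_nonneg _) (fun n => ?_) (Summable.add hF hG)
  rw [HahnSeries.coeff_add, add_mul]
  exact norm_add_le _ _

theorem evf_add {F G : LaurentSeries ℂ} {z : ℂ} (hF : ConvAt F z) (hG : ConvAt G z) :
    evf (F + G) z = evf F z + evf G z := by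
  unfold evf
  rw [← hF.of_norm.tsum_add hG.of_norm]
  refine tsum_congr fun n => ?_
  rw [HahnSeries.coeff_add, add_mul]

theorem ConvAt.neg {F : LaurentSeries ℂ} {z : ℂ} (hF : ConvAt F z) : ConvAt (-F) z := by
  unfold ConvAt at hF ⊢
  simpa [HahnSeries.coeff_neg] using hF

theorem convAt_single (m : ℤ) (c : ℂ) (z : ℂ) : ConvAt (HahnSeries.single m c) z := by
  refine summable_of_ne_finset_zero (s := {m}) fun n hn => ?_
  rw [Finset.mem_singleton] at hn
  rw [HahnSeries.coeff_single_of_ne hn, zero_mul, norm_zero]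

theorem evf_single (m : ℤ) (c : ℂ) (z : ℂ) : evf (HahnSeries.single m c) z = c * z ^ m := by
  unfold evf
  rw [tsum_eq_single m]
  · rw [HahnSeries.coeff_single_same]
  · intro n hn
    rw [HahnSeries.coeff_single_of_ne hn, zero_mul]

theorem convAt_zero (z : ℂ) : ConvAt 0 z := by
  have := convAt_single 0 0 z
  simpa using this

theorem convAt_one (z : ℂ) : ConvAt 1 z := convAt_single 0 1 z

theorem evf_one (z : ℂ) : evf 1 z = 1 := by
  have := evf_single 0 1 z
  simpa using this

/-- Laurent series converging absolutely on the punctured unit disc. -/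
def convLaurent : Subring (LaurentSeries ℂ) where
  carrier := {F | ∀ z : ℂ, PDisc z → ConvAt F z}
  mul_mem' hF hG z hz := (hF z hz).mul hz.ne_zero (hG z hz)
  one_mem' z _ := convAt_one z
  add_mem' hF hG z hz := (hF z hz).add (hG z hz)
  zero_mem' z _ := convAt_zero z
  neg_mem' hF z hz := (hF z hz).neg

theorem mem_convLaurent {F : LaurentSeries ℂ} :
    F ∈ convLaurent ↔ ∀ z : ℂ, PDisc z → ConvAt F z := Iff.rfl

theorem single_mem_convLaurent (m : ℤ) (c : ℂ) : HahnSeries.single m c ∈ convLaurent :=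
  fun z _ => convAt_single m c z

/-- Evaluation at a point of the punctured disc. -/
def ev (z : ℂ) (hz : PDisc z) : convLaurent →+* ℂ where
  toFun F := evf F z
  map_one' := evf_one z
  map_mul' F G := evf_mul hz.ne_zero (F.2 z hz) (G.2 z hz)
  map_zero' := by
    show evf 0 z = 0
    simp [evf]
  map_add' F G := evf_add (F.2 z hz) (G.2 z hz)

@[simp] theorem ev_apply (z : ℂ) (hz : PDisc z) (F : convLaurent) : ev z hz F = evf F z := rfl

/-! ### power series -/

theorem convAt_ofPowerSeries_iff (G : PowerSeries ℂ) (z : ℂ) :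
    ConvAt (HahnSeries.ofPowerSeries ℤ ℂ G) z ↔ Summable fun n : ℕ => ‖PowerSeries.coeff n G * z ^ n‖ := by
  unfold ConvAt
  rw [← (Nat.cast_injective (R := ℤ)).summable_iff]
  · refine summable_congr fun n => ?_
    simp
  · intro n hn
    have hneg : n < 0 := by
      by_contra h
      push Not at h
      exact hn ⟨n.toNat, by simp [h]⟩
    rw [ModularCurve.ofPowerSeries_coeff_of_neg _ hneg, zero_mul, norm_zero]

theorem evf_ofPowerSeries (G : PowerSeries ℂ) (z : ℂ) :
    evf (HahnSeries.ofPowerSeries ℤ ℂ G) z = ∑' n : ℕ, PowerSeries.coeff n G * z ^ n := by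
  unfold evf
  rw [← (Nat.cast_injective (R := ℤ)).tsum_eq]
  · refine tsum_congr fun n => ?_
    simp
  · intro n hn
    rw [Function.mem_support] at hn
    by_contra h
    apply hn
    have hneg : n < 0 := by
      by_contra h'
      push Not at h'
      exact h ⟨n.toNat, by simp [h']⟩
    rw [ModularCurve.ofPowerSeries_coeff_of_neg _ hneg, zero_mul]

/-- every Laurent series is a shift of a power series -/
theorem exists_shift {R : Type*} [CommRing R] (F : LaurentSeries R) :
    ∃ (m : ℕ) (G : PowerSeries R),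
      F = HahnSeries.single (-(m : ℤ)) 1 * HahnSeries.ofPowerSeries ℤ R G := by
  refine ⟨(-F.order).toNat, PowerSeries.mk fun n => F.coeff (n - (-F.order).toNat : ℤ), ?_⟩
  ext k
  rw [HahnSeries.coeff_single_mul, one_mul, sub_neg_eq_add]
  rcases le_or_gt 0 (k + ((-F.order).toNat : ℤ)) with hk | hk
  · obtain ⟨a, ha⟩ := Int.eq_ofNat_of_zero_le hk
    rw [ha, HahnSeries.ofPowerSeries_apply_coeff, PowerSeries.coeff_mk]
    congr 1
    omega
  · rw [ModularCurve.ofPowerSeries_coeff_of_neg _ hk]
    apply HahnSeries.coeff_eq_zero_of_lt_order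
    omega

end Fermat.Agent.ModFun
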