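import Mathlib
import Fermat.Agent.ModFun.ConvLaurent

/-!
The power series of `E₄`, `Δ`, `j` converge and evaluate to the corresponding functions.
-/

set_option autoImplicit false

noncomputable section

open HahnSeries ModularCurve UpperHalfPlane Filter Topology
open scoped PowerSeries.WithPiTopology MatrixGroups ModularForm

namespace Fermat.Agent.ModFun

/-- Power series converging absolutely on the unit disc. -/
def PConv (G : PowerSeries ℂ) : Prop :=
  ∀ z : ℂ, ‖z‖ < 1 → Summable fun n : ℕ => ‖PowerSeries.coeff n G * z ^ n‖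

def pev (G : PowerSeries ℂ) (z : ℂ) : ℂ := ∑' n : ℕ, PowerSeries.coeff n G * z ^ n

theorem PConv.mem_convLaurent {G : PowerSeries ℂ} (hG : PConv G) :
    HahnSeries.ofPowerSeries ℤ ℂ G ∈ convLaurent :=
  fun z hz => (convAt_ofPowerSeries_iff G z).mpr (hG z hz.2)

theorem PConv.of_mem_convLaurent {G : PowerSeries ℂ}
    (hG : HahnSeries.ofPowerSeries ℤ ℂ G ∈ convLaurent) : PConv G := by
  intro z hz
  rcases eq_or_ne z 0 with rfl | hz0
  · refine summable_of_ne_finset_zero (s := {0}) fun n hn => ?_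
    rw [Finset.mem_singleton] at hn
    simp [hn]
  · exact (convAt_ofPowerSeries_iff G z).mp (hG z ⟨norm_pos_iff.mpr hz0, hz⟩)

theorem PConv.hasSum {G : PowerSeries ℂ} (hG : PConv G) {z : ℂ} (hz : ‖z‖ < 1) :
    HasSum (fun n : ℕ => PowerSeries.coeff n G * z ^ n) (pev G z) :=
  (hG z hz).of_norm.hasSum

theorem exists_pconv_of_differentiableOn {g : ℂ → ℂ}
    (hg : DifferentiableOn ℂ g (Metric.ball 0 1)) :
    ∃ G : PowerSeries ℂ, PConv G ∧ ∀ z, ‖z‖ < 1 → pev G z = g z := by
  have key : ∀ z : ℂ, ‖z‖ < 1 →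
      HasSum (fun n : ℕ => PowerSeries.coeff n
        (PowerSeries.mk fun n => ((n.factorial : ℂ)⁻¹ * iteratedDeriv n g 0)) * z ^ n) (g z) := by
    intro z hz
    have h := Complex.hasSum_taylorSeries_on_ball hg (z := z) (by simpa using hz)
    simp only [sub_zero, smul_eq_mul] at h
    have h2 : (fun n : ℕ => PowerSeries.coeff n
        (PowerSeries.mk fun n => ((n.factorial : ℂ)⁻¹ * iteratedDeriv n g 0)) * z ^ n) =
        fun n : ℕ => (n.factorial : ℂ)⁻¹ * (z ^ n * iteratedDeriv n g 0) := by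
      funext n
      rw [PowerSeries.coeff_mk]
      ring
    rw [h2]
    exact h
  refine ⟨_, fun z hz => (key z hz).summable.norm, fun z hz => (key z hz).tsum_eq⟩

theorem norm_q_lt_one (τ : ℍ) : ‖Function.Periodic.qParam 1 τ‖ < 1 :=
  Function.Periodic.norm_qParam_lt_one one_pos τ.im_pos

theorem pdisc_q (τ : ℍ) : PDisc (Function.Periodic.qParam 1 τ) :=
  ⟨norm_pos_iff.mpr (Function.Periodic.qParam_ne_zero _), norm_q_lt_one τ⟩

/-- uniqueness of coefficients -/
theorem PConv.eq_zero {G : PowerSeries ℂ} (hG : PConv G)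
    (h0 : ∀ τ : ℍ, pev G (Function.Periodic.qParam 1 τ) = 0) : G = 0 := by
  ext m
  have h1 := ModularFormClass.qExpansion_coeff_unique (Γ := 𝒮ℒ) (k := 0) (h := 1)
    (f := (0 : ModularForm 𝒮ℒ 0))
    (c := fun m => PowerSeries.coeff m G) one_pos (by simp) ?_ m
  · rw [h1]
    show (PowerSeries.coeff m) (qExpansion 1 (0 : ℍ → ℂ)) = _
    rw [UpperHalfPlane.qExpansion_zero]
  · intro τ
    have := hG.hasSum (norm_q_lt_one τ)
    rw [h0] at this
    simpa using this

theorem PConv.mul {G H : PowerSeries ℂ} (hG : PConv G) (hH : PConv H) : PConv (G * H) := by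
  apply PConv.of_mem_convLaurent
  rw [map_mul]
  exact convLaurent.mul_mem hG.mem_convLaurent hH.mem_convLaurent

theorem pconv_one : PConv 1 := by
  apply PConv.of_mem_convLaurent
  rw [map_one]
  exact convLaurent.one_mem

theorem PConv.pow {G : PowerSeries ℂ} (hG : PConv G) (n : ℕ) : PConv (G ^ n) := by
  induction n with
  | zero => rw [pow_zero]; exact pconv_one
  | succ n ih => rw [pow_succ]; exact ih.mul hG

theorem PConv.sub {G H : PowerSeries ℂ} (hG : PConv G) (hH : PConv H) : PConv (G - H) := by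
  apply PConv.of_mem_convLaurent
  rw [map_sub]
  exact convLaurent.sub_mem hG.mem_convLaurent hH.mem_convLaurent

theorem pev_mul {G H : PowerSeries ℂ} (hG : PConv G) (hH : PConv H) {z : ℂ} (hz : PDisc z) :
    pev (G * H) z = pev G z * pev H z := by
  have := evf_mul hz.ne_zero (hG.mem_convLaurent z hz) (hH.mem_convLaurent z hz)
  rwa [← map_mul, evf_ofPowerSeries, evf_ofPowerSeries, evf_ofPowerSeries] at this

theorem pev_one {z : ℂ} : pev 1 z = 1 := by
  have := evf_one z
  rwa [← map_one (HahnSeries.ofPowerSeries ℤ ℂ), evf_ofPowerSeries] at this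

theorem pev_pow {G : PowerSeries ℂ} (hG : PConv G) {z : ℂ} (hz : PDisc z) (n : ℕ) :
    pev (G ^ n) z = pev G z ^ n := by
  induction n with
  | zero => rw [pow_zero, pow_zero]; exact pev_one
  | succ n ih => rw [pow_succ, pow_succ, pev_mul (hG.pow n) hG hz, ih]

theorem pev_sub {G H : PowerSeries ℂ} (hG : PConv G) (hH : PConv H) {z : ℂ} (hz : ‖z‖ < 1) :
    pev (G - H) z = pev G z - pev H z := by
  have := ((hG.hasSum hz).sub (hH.hasSum hz)).tsum_eq
  rw [← this]
  refine tsum_congr fun n => ?_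
  rw [map_sub, sub_mul]

theorem PConv.eq_of_pev_eq {G H : PowerSeries ℂ} (hG : PConv G) (hH : PConv H)
    (h : ∀ z : ℂ, PDisc z → pev G z = pev H z) : G = H := by
  rw [← sub_eq_zero]
  refine (hG.sub hH).eq_zero fun τ => ?_
  rw [pev_sub hG hH (norm_q_lt_one τ), h _ (pdisc_q τ), sub_self]

/-! ### the product -/

theorem coeff_prod_bound (r : ℝ) (hr0 : 0 < r) (s : Finset ℕ) (n : ℕ) :
    ‖PowerSeries.coeff n (∏ i ∈ s, (1 - PowerSeries.X ^ (i + 1)) : PowerSeries ℂ)‖ * r ^ n ≤
      ∏ i ∈ s, (1 + r ^ (i + 1)) := by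
  classical
  induction s using Finset.induction_on generalizing n with
  | empty =>
    rw [Finset.prod_empty, Finset.prod_empty, PowerSeries.coeff_one]
    split_ifs with h
    · simp [h]
    · simp
  | insert a s ha ih =>
    rw [Finset.prod_insert ha, Finset.prod_insert ha, sub_mul, one_mul, map_sub]
    have h1 := ih n
    have hP : 0 ≤ ∏ i ∈ s, (1 + r ^ (i + 1)) := Finset.prod_nonneg fun i _ => by positivity
    rw [PowerSeries.coeff_X_pow_mul']
    split_ifs with h
    · have h2 := ih (n - (a + 1))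
      have hpow : r ^ n = r ^ (n - (a + 1)) * r ^ (a + 1) := by
        rw [← _root_.pow_add]; congr 1; omega
      calc _ ≤ (‖PowerSeries.coeff n (∏ i ∈ s, (1 - PowerSeries.X ^ (i + 1)) : PowerSeries ℂ)‖
              + ‖PowerSeries.coeff (n - (a + 1)) (∏ i ∈ s, (1 - PowerSeries.X ^ (i + 1)) : PowerSeries ℂ)‖)
              * r ^ n := by
            gcongr
            exact norm_sub_le _ _
        _ = ‖PowerSeries.coeff n (∏ i ∈ s, (1 - PowerSeries.X ^ (i + 1)) : PowerSeries ℂ)‖ * r ^ n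
            + (‖PowerSeries.coeff (n - (a + 1)) (∏ i ∈ s, (1 - PowerSeries.X ^ (i + 1)) : PowerSeries ℂ)‖
              * r ^ (n - (a + 1))) * r ^ (a + 1) := by rw [add_mul, hpow]; ring
        _ ≤ (∏ i ∈ s, (1 + r ^ (i + 1))) + (∏ i ∈ s, (1 + r ^ (i + 1))) * r ^ (a + 1) := by
            gcongr
        _ = _ := by ring
    · rw [sub_zero]
      refine h1.trans ?_
      have : (1 : ℝ) ≤ 1 + r ^ (a + 1) := by
        have : 0 < r ^ (a + 1) := by positivity
        linarith
      exact le_mul_of_one_le_left hP this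

theorem prod_one_add_le (r : ℝ) (hr0 : 0 < r) (hr1 : r < 1) (s : Finset ℕ) :
    ∏ i ∈ s, (1 + r ^ (i + 1)) ≤ Real.exp (∑' i : ℕ, r ^ (i + 1)) := by
  have hs : Summable fun i : ℕ => r ^ (i + 1) := by
    simpa [pow_succ] using (summable_geometric_of_lt_one hr0.le hr1).mul_right r
  calc ∏ i ∈ s, (1 + r ^ (i + 1)) ≤ ∏ i ∈ s, Real.exp (r ^ (i + 1)) := by
        refine Finset.prod_le_prod (fun i _ => by positivity) fun i _ => ?_
        rw [add_comm]
        exact Real.add_one_le_exp _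
    _ = Real.exp (∑ i ∈ s, r ^ (i + 1)) := (Real.exp_sum _ _).symm
    _ ≤ _ := by
        apply Real.exp_le_exp.mpr
        exact hs.sum_le_tsum s fun i _ => by positivity

theorem pev_finset_prod (s : Finset ℕ) (z : ℂ) :
    ∑' n : ℕ, PowerSeries.coeff n (∏ i ∈ s, (1 - PowerSeries.X ^ (i + 1)) : PowerSeries ℂ) * z ^ n =
      ∏ i ∈ s, (1 - z ^ (i + 1)) := by
  classical
  have h : (∏ i ∈ s, (1 - PowerSeries.X ^ (i + 1)) : PowerSeries ℂ) =
      ((∏ i ∈ s, (1 - Polynomial.X ^ (i + 1)) : Polynomial ℂ) : PowerSeries ℂ) := by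
    rw [← Polynomial.coeToPowerSeries.ringHom_apply, map_prod]
    simp
  rw [h]
  simp_rw [Polynomial.coeff_coe]
  have h2 : (∏ i ∈ s, (1 - z ^ (i + 1))) = Polynomial.eval z (∏ i ∈ s, (1 - Polynomial.X ^ (i + 1)) : Polynomial ℂ) := by
    rw [Polynomial.eval_prod]
    simp
  rw [h2, Polynomial.eval_eq_sum, Polynomial.sum_def]
  rw [tsum_eq_sum (s := (∏ i ∈ s, (1 - Polynomial.X ^ (i + 1)) : Polynomial ℂ).support)]
  intro n hn
  rw [Polynomial.notMem_support_iff.mp hn, zero_mul]

theorem norm_pentagonal_coeff_le (n : ℕ) :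
    ‖PowerSeries.coeff n (PowerSeries.pentagonalSeries ℂ)‖ ≤ 1 := by
  by_cases h : n ∈ Set.range pentagonal
  · obtain ⟨k, rfl⟩ := h
    rw [PowerSeries.coeff_pentagonalSeries_pentagonal]
    rcases Int.units_eq_one_or (Int.negOnePow k) with h | h <;> simp [h]
  · rw [PowerSeries.coeff_pentagonalSeries_eq_zero _ h]; simp

theorem pconv_pentagonal : PConv (PowerSeries.pentagonalSeries ℂ) := by
  intro z hz
  refine Summable.of_nonneg_of_le (fun _ => norm_nonneg _) (fun n => ?_)
    (summable_geometric_of_lt_one (norm_nonneg z) hz)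
  rw [norm_mul, norm_pow]
  exact mul_le_of_le_one_left (by positivity) (norm_pentagonal_coeff_le n)

theorem pev_pentagonal {z : ℂ} (hz : ‖z‖ < 1) :
    pev (PowerSeries.pentagonalSeries ℂ) z = ∏' n : ℕ, (1 - z ^ (n + 1)) := by
  obtain ⟨r, hr, hr1⟩ := exists_between hz
  have hr0 : 0 < r := (norm_nonneg z).trans_lt hr
  have hlim1 : Tendsto (fun s : Finset ℕ => ∏ i ∈ s, (1 - z ^ (i + 1))) atTop
      (𝓝 (∏' n : ℕ, (1 - z ^ (n + 1)))) :=
    (ModularForm.multipliable_one_sub_pow hz).hasProd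
  have hlim2 : Tendsto (fun s : Finset ℕ => ∑' n : ℕ,
      PowerSeries.coeff n (∏ i ∈ s, (1 - PowerSeries.X ^ (i + 1)) : PowerSeries ℂ) * z ^ n) atTop
      (𝓝 (pev (PowerSeries.pentagonalSeries ℂ) z)) := by
    refine tendsto_tsum_of_dominated_convergence
      (bound := fun n => Real.exp (∑' i : ℕ, r ^ (i + 1)) * (‖z‖ / r) ^ n) ?_ ?_ ?_
    · apply Summable.mul_left
      apply summable_geometric_of_lt_one (by positivity)
      rwa [div_lt_one hr0]
    · intro n
      apply tendsto_nhds_of_eventually_eq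
      filter_upwards [PowerSeries.coeff_prod_one_sub_X_pow_eventually_eq ℂ n] with s hs
      rw [hs]
    · refine Eventually.of_forall fun s n => ?_
      have h1 := (coeff_prod_bound r hr0 s n).trans (prod_one_add_le r hr0 hr1 s)
      rw [norm_mul, norm_pow, div_pow]
      have h2 : ‖PowerSeries.coeff n (∏ i ∈ s, (1 - PowerSeries.X ^ (i + 1)) : PowerSeries ℂ)‖ * ‖z‖ ^ n
          = (‖PowerSeries.coeff n (∏ i ∈ s, (1 - PowerSeries.X ^ (i + 1)) : PowerSeries ℂ)‖ * r ^ n)
            * (‖z‖ ^ n / r ^ n) := by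
        field_simp
      rw [h2]
      gcongr
  simp_rw [pev_finset_prod] at hlim2
  exact tendsto_nhds_unique hlim2 hlim1

end Fermat.Agent.ModFun
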