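import Mathlib
import Fermat.Agent.ModFun.JFun

/-!
Evaluation of the integral power series `eisenstein4`, `dedekindEtaUnit`, `jqModC`.
-/

set_option autoImplicit false

noncomputable section

open HahnSeries ModularCurve UpperHalfPlane Filter Topology
open scoped PowerSeries.WithPiTopology MatrixGroups ModularForm

namespace Fermat.Agent.ModFun

theorem etaProd_eq : etaProd = PowerSeries.pentagonalSeries ℤ :=
  PowerSeries.WithPiTopology.tprod_one_sub_X_pow ℤ

theorem map_pentagonal {R S : Type*} [CommRing R] [CommRing S] (f : R →+* S) :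
    (PowerSeries.pentagonalSeries R).map f = PowerSeries.pentagonalSeries S := by
  ext n
  rw [PowerSeries.coeff_map]
  by_cases h : n ∈ Set.range pentagonal
  · obtain ⟨k, rfl⟩ := h
    rw [PowerSeries.coeff_pentagonalSeries_pentagonal, PowerSeries.coeff_pentagonalSeries_pentagonal]
    rcases Int.units_eq_one_or (Int.negOnePow k) with h | h <;> simp [h]
  · rw [PowerSeries.coeff_pentagonalSeries_eq_zero _ h, PowerSeries.coeff_pentagonalSeries_eq_zero _ h,
      map_zero]

theorem map_etaProd : etaProd.map (Int.castRingHom ℂ) = PowerSeries.pentagonalSeries ℂ := by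
  rw [etaProd_eq, map_pentagonal]

theorem map_etaUnit : dedekindEtaUnit.map (Int.castRingHom ℂ) = PowerSeries.pentagonalSeries ℂ ^ 24 := by
  rw [dedekindEtaUnit, map_pow, map_etaProd]

theorem pconv_etaUnit : PConv (dedekindEtaUnit.map (Int.castRingHom ℂ)) := by
  rw [map_etaUnit]
  exact pconv_pentagonal.pow 24

theorem pev_etaUnit {z : ℂ} (hz : PDisc z) :
    pev (dedekindEtaUnit.map (Int.castRingHom ℂ)) z = (∏' n : ℕ, (1 - z ^ (n + 1))) ^ 24 := by
  rw [map_etaUnit, pev_pow pconv_pentagonal hz, pev_pentagonal hz.2]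

theorem tprod_ne_zero {z : ℂ} (hz : ‖z‖ < 1) : ∏' n : ℕ, (1 - z ^ (n + 1)) ≠ 0 := by
  have := tprod_one_add_ne_zero_of_summable (f := fun n : ℕ => - z ^ (n + 1)) ?_ ?_
  · simpa [sub_eq_add_neg] using this
  · intro i h
    have h1 : z ^ (i + 1) = 1 := by
      linear_combination -h
    have h2 : ‖z ^ (i + 1)‖ = 1 := by rw [h1]; simp
    rw [norm_pow] at h2
    have := pow_lt_one₀ (norm_nonneg z) hz (Nat.succ_ne_zero i)
    exact absurd h2 this.ne
  · simpa using (summable_nat_add_iff 1).mpr (summable_geometric_of_lt_one (norm_nonneg _) hz)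

theorem etaUnitInv_conv : PConv (dedekindEtaUnitInv.map (Int.castRingHom ℂ)) ∧
    ∀ z : ℂ, PDisc z → pev (dedekindEtaUnitInv.map (Int.castRingHom ℂ)) z =
      ((∏' n : ℕ, (1 - z ^ (n + 1))) ^ 24)⁻¹ := by
  obtain ⟨G, hG, hG2⟩ := exists_pconv_of_differentiableOn
    (g := fun z => ((∏' n : ℕ, (1 - z ^ (n + 1))) ^ 24)⁻¹)
    ((ModularForm.differentiableOn_tprod_one_sub_pow.fun_pow 24).fun_inv
      (fun z hz => pow_ne_zero _ (tprod_ne_zero (by simpa using hz))))
  have h1 : G * dedekindEtaUnit.map (Int.castRingHom ℂ) = 1 := by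
    refine (hG.mul pconv_etaUnit).eq_of_pev_eq pconv_one fun z hz => ?_
    rw [pev_mul hG pconv_etaUnit hz, pev_one, pev_etaUnit hz, hG2 z hz.2]
    exact inv_mul_cancel₀ (pow_ne_zero _ (tprod_ne_zero hz.2))
  have h2 : dedekindEtaUnit.map (Int.castRingHom ℂ) * dedekindEtaUnitInv.map (Int.castRingHom ℂ) = 1 := by
    rw [← map_mul, dedekindEtaUnit_mul_inv, map_one]
  have h3 : G = dedekindEtaUnitInv.map (Int.castRingHom ℂ) := by
    calc G = G * (dedekindEtaUnit.map (Int.castRingHom ℂ) * dedekindEtaUnitInv.map (Int.castRingHom ℂ)) := by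
          rw [h2, mul_one]
      _ = _ := by rw [← mul_assoc, h1, one_mul]
  rw [← h3]
  exact ⟨hG, fun z hz => hG2 z hz.2⟩

theorem pconv_of_tau {G : PowerSeries ℂ}
    (h : ∀ τ : ℍ, Summable fun n : ℕ => PowerSeries.coeff n G * (Function.Periodic.qParam 1 τ) ^ n) :
    PConv G := by
  intro z hz
  rcases eq_or_ne z 0 with rfl | hz0
  · refine summable_of_ne_finset_zero (s := {0}) fun n hn => ?_
    rw [Finset.mem_singleton] at hn
    simp [hn]
  · have him := Function.Periodic.im_invQParam_pos_of_norm_lt_one one_pos hz hz0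
    have := h ⟨_, him⟩
    have h2 : Function.Periodic.qParam 1 ((⟨_, him⟩ : ℍ) : ℂ) = z :=
      Function.Periodic.qParam_right_inv one_ne_zero hz0
    rw [h2] at this
    exact this.norm

theorem hasSum_E4 (τ : ℍ) : HasSum (fun n : ℕ =>
    PowerSeries.coeff n (eisenstein4.map (Int.castRingHom ℂ)) * (Function.Periodic.qParam 1 τ) ^ n)
      (ModularForm.E₄ τ) := by
  have h := ModularForm.hasSum_qExpansion (Γ := 𝒮ℒ) (f := ModularForm.E₄) (h := 1) one_pos
    one_mem_strictPeriods_SL τ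
  have h2 : ∀ n : ℕ, PowerSeries.coeff n (qExpansion 1 ModularForm.E₄) =
      PowerSeries.coeff n (eisenstein4.map (Int.castRingHom ℂ)) := by
    intro n
    rw [PowerSeries.coeff_map]
    have := EisensteinSeries.E_qExpansion_coeff (k := 4) (by norm_num) ⟨2, rfl⟩ n
    rw [show ModularForm.E₄ = ModularForm.E (k := 4) (by norm_num) from rfl, this]
    rw [eisenstein4, PowerSeries.coeff_mk]
    split_ifs with h
    · simp
    · norm_num [show bernoulli 4 = -1 / 30 by decide +kernel, ArithmeticFunction.sigma_apply]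
  simp_rw [h2] at h
  exact h

theorem pconv_E4 : PConv (eisenstein4.map (Int.castRingHom ℂ)) :=
  pconv_of_tau fun τ => (hasSum_E4 τ).summable

theorem pev_E4 (τ : ℍ) : pev (eisenstein4.map (Int.castRingHom ℂ)) (Function.Periodic.qParam 1 τ) =
    ModularForm.E₄ τ := (hasSum_E4 τ).tsum_eq

/-- The Laurent series of `Δ`. -/
def DeltaSer (R : Type*) [CommRing R] : LaurentSeries R :=
  HahnSeries.single (1 : ℤ) 1 * HahnSeries.ofPowerSeries ℤ R (dedekindEtaUnit.map (Int.castRingHom R))

/-- The Laurent series of `1/Δ`. -/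
def DeltaInvSer (R : Type*) [CommRing R] : LaurentSeries R :=
  HahnSeries.single (-1 : ℤ) 1 *
    HahnSeries.ofPowerSeries ℤ R (dedekindEtaUnitInv.map (Int.castRingHom R))

theorem DeltaSer_mul_inv (R : Type*) [CommRing R] : DeltaSer R * DeltaInvSer R = 1 := by
  rw [DeltaSer, DeltaInvSer, mul_mul_mul_comm, ← map_mul, ← map_mul, dedekindEtaUnit_mul_inv,
    HahnSeries.single_mul_single]
  simp

theorem coeffMap_DeltaSer {R S : Type*} [CommRing R] [CommRing S] (f : R →+* S) :
    coeffMap f (DeltaSer R) = DeltaSer S := by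
  rw [DeltaSer, map_mul, coeffMap_single, map_one, coeffMap_ofPowerSeries,
    ← RingHom.comp_apply (PowerSeries.map f) (PowerSeries.map (Int.castRingHom R)),
    ← PowerSeries.map_comp, RingHom.ext_int (f.comp (Int.castRingHom R)) (Int.castRingHom S)]
  rfl

theorem coeffMap_DeltaInvSer {R S : Type*} [CommRing R] [CommRing S] (f : R →+* S) :
    coeffMap f (DeltaInvSer R) = DeltaInvSer S := by
  rw [DeltaInvSer, map_mul, coeffMap_single, map_one, coeffMap_ofPowerSeries,
    ← RingHom.comp_apply (PowerSeries.map f) (PowerSeries.map (Int.castRingHom R)),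
    ← PowerSeries.map_comp, RingHom.ext_int (f.comp (Int.castRingHom R)) (Int.castRingHom S)]
  rfl

theorem DeltaSer_mem : DeltaSer ℂ ∈ convLaurent :=
  convLaurent.mul_mem (single_mem_convLaurent _ _) pconv_etaUnit.mem_convLaurent

theorem DeltaInvSer_mem : DeltaInvSer ℂ ∈ convLaurent :=
  convLaurent.mul_mem (single_mem_convLaurent _ _) etaUnitInv_conv.1.mem_convLaurent

theorem jqModC_mem_convLaurent : jqModC ℂ ∈ convLaurent := by
  unfold jqModC jNum
  rw [map_mul, map_pow, map_mul, map_pow]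
  exact convLaurent.mul_mem (single_mem_convLaurent _ _)
    (convLaurent.mul_mem (convLaurent.pow_mem pconv_E4.mem_convLaurent 3)
      etaUnitInv_conv.1.mem_convLaurent)

theorem eta_q_eq (n : ℕ) (τ : ℍ) :
    ModularForm.eta_q n τ = (Function.Periodic.qParam 1 τ) ^ (n + 1) := rfl

theorem discriminant_eq (τ : ℍ) : ModularForm.discriminant τ =
    Function.Periodic.qParam 1 τ * (∏' n : ℕ, (1 - (Function.Periodic.qParam 1 τ) ^ (n + 1))) ^ 24 := by
  rw [ModularForm.discriminant_eq_q_prod]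
  congr 1
  rw [← Multipliable.tprod_pow (ModularForm.multipliable_one_sub_pow (norm_q_lt_one τ))]

theorem evf_DeltaSer (τ : ℍ) :
    evf (DeltaSer ℂ) (Function.Periodic.qParam 1 τ) = ModularForm.discriminant τ := by
  rw [DeltaSer, evf_mul (pdisc_q τ).ne_zero (convAt_single _ _ _)
    (pconv_etaUnit.mem_convLaurent _ (pdisc_q τ)), evf_single, evf_ofPowerSeries, discriminant_eq]
  rw [zpow_one, one_mul]
  congr 1
  exact pev_etaUnit (pdisc_q τ)

theorem evf_DeltaInvSer (τ : ℍ) :
    evf (DeltaInvSer ℂ) (Function.Periodic.qParam 1 τ) = (ModularForm.discriminant τ)⁻¹ := by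
  have h := evf_mul (pdisc_q τ).ne_zero (DeltaSer_mem _ (pdisc_q τ)) (DeltaInvSer_mem _ (pdisc_q τ))
  rw [DeltaSer_mul_inv, evf_one, evf_DeltaSer] at h
  exact (eq_inv_of_mul_eq_one_right h.symm)

/-- the analytic `j` function -/
def jfun (τ : ℍ) : ℂ := ModularForm.E₄ τ ^ 3 / ModularForm.discriminant τ

theorem evf_jqModC (τ : ℍ) :
    evf (jqModC ℂ) (Function.Periodic.qParam 1 τ) = jfun τ := by
  have hj : jqModC ℂ =
      (HahnSeries.ofPowerSeries ℤ ℂ (eisenstein4.map (Int.castRingHom ℂ))) ^ 3 * DeltaInvSer ℂ := by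
    rw [jqModC, jNum, DeltaInvSer, map_mul, map_pow, map_mul, map_pow]
    ring
  rw [hj]
  have hm := pconv_E4.mem_convLaurent
  rw [evf_mul (pdisc_q τ).ne_zero (convLaurent.pow_mem hm 3 _ (pdisc_q τ))
    (DeltaInvSer_mem _ (pdisc_q τ)), evf_DeltaInvSer, jfun, div_eq_mul_inv]
  congr 1
  have : evf ((HahnSeries.ofPowerSeries ℤ ℂ (eisenstein4.map (Int.castRingHom ℂ))) ^ 3)
      (Function.Periodic.qParam 1 τ) =
      (evf (HahnSeries.ofPowerSeries ℤ ℂ (eisenstein4.map (Int.castRingHom ℂ)))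
        (Function.Periodic.qParam 1 τ)) ^ 3 :=
    map_pow (ev _ (pdisc_q τ)) (⟨_, hm⟩ : convLaurent) 3
  rw [this, evf_ofPowerSeries]
  congr 1
  exact pev_E4 τ

end Fermat.Agent.ModFun
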