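import Mathlib
import Fermat.Agent.ModFun.JFun2

/-!
Level one: a convergent Laurent series whose evaluation is `SL₂(ℤ)`-invariant is a polynomial in `j`.
-/

set_option autoImplicit false

noncomputable section

open HahnSeries ModularCurve UpperHalfPlane Filter Topology
open scoped PowerSeries.WithPiTopology MatrixGroups ModularForm Manifold

namespace Fermat.Agent.ModFun

theorem disc_smul (γ : SL(2, ℤ)) (τ : ℍ) :
    ModularForm.discriminant (γ • τ) = denom γ τ ^ (12 : ℤ) * ModularForm.discriminant τ := by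
  have h := SlashInvariantForm.slash_action_eqn'' (Γ := 𝒮ℒ) (CuspForm.discriminant)
    (γ := (Matrix.SpecialLinearGroup.mapGL ℝ γ)) ⟨γ, rfl⟩ τ
  exact h

theorem E4_smul (γ : SL(2, ℤ)) (τ : ℍ) :
    ModularForm.E₄ (γ • τ) = denom γ τ ^ (4 : ℤ) * ModularForm.E₄ τ := by
  have h := SlashInvariantForm.slash_action_eqn'' (Γ := 𝒮ℒ) (ModularForm.E₄)
    (γ := (Matrix.SpecialLinearGroup.mapGL ℝ γ)) ⟨γ, rfl⟩ τ
  exact h

theorem jfun_smul (γ : SL(2, ℤ)) (τ : ℍ) : jfun (γ • τ) = jfun τ := by
  rw [jfun, jfun, disc_smul, E4_smul, mul_pow, ← zpow_natCast, ← zpow_mul]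
  have h : denom (γ : GL (Fin 2) ℝ) τ ≠ 0 := denom_ne_zero _ _
  have h2 : denom (γ : GL (Fin 2) ℝ) τ ^ (12 : ℤ) ≠ 0 := zpow_ne_zero _ h
  norm_num
  rw [mul_div_mul_left]
  exact_mod_cast h2

theorem differentiableOn_pev {G : PowerSeries ℂ} (hG : PConv G) :
    DifferentiableOn ℂ (pev G) (Metric.ball 0 1) := by
  intro z hz
  have hz' : ‖z‖ < 1 := by simpa using hz
  obtain ⟨r, hr, hr1⟩ := exists_between hz'
  have hr0 : 0 < r := (norm_nonneg z).trans_lt hr
  have hd : DifferentiableOn ℂ (pev G) (Metric.ball 0 r) := by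
    refine Complex.differentiableOn_tsum_of_summable_norm
      (u := fun n : ℕ => ‖PowerSeries.coeff n G * (r : ℂ) ^ n‖) ?_ ?_ Metric.isOpen_ball ?_
    · exact hG r (by simpa [abs_of_pos hr0] using hr1)
    · intro n
      fun_prop
    · intro n w hw
      rw [norm_mul, norm_mul, norm_pow, norm_pow]
      have : ‖w‖ ≤ ‖(r : ℂ)‖ := by
        simp only [Complex.norm_real, Real.norm_eq_abs, abs_of_pos hr0]
        simpa using (le_of_lt (by simpa using hw : ‖w‖ < r))
      gcongr
  exact (hd.differentiableAt (Metric.isOpen_ball.mem_nhds (by simpa using hr))).differentiableWithinAt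

theorem mdiff_pev {G : PowerSeries ℂ} (hG : PConv G) :
    MDiff (fun τ : ℍ => pev G (Function.Periodic.qParam 1 τ)) := by
  rw [UpperHalfPlane.mdifferentiable_iff]
  have h1 : DifferentiableOn ℂ (fun z : ℂ => pev G (Function.Periodic.qParam 1 z)) {z | 0 < z.im} := by
    refine (differentiableOn_pev hG).comp (t := Metric.ball 0 1) ?_ ?_
    · fun_prop
    · intro z hz
      simpa using Function.Periodic.norm_qParam_lt_one one_pos hz
  refine h1.congr fun z hz => ?_
  simp [ofComplex_apply_of_im_pos hz]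

theorem q_T (τ : ℍ) : Function.Periodic.qParam 1 ((ModularGroup.T • τ : ℍ) : ℂ) =
    Function.Periodic.qParam 1 τ := by
  rw [modular_T_smul, UpperHalfPlane.coe_vadd]
  simp only [Function.Periodic.qParam]
  rw [Complex.exp_eq_exp_iff_exists_int]
  refine ⟨1, ?_⟩
  push_cast
  ring

/-- constant from invariance -/
theorem pev_const_of_S {G : PowerSeries ℂ} (hG : PConv G)
    (hS : ∀ τ : ℍ, pev G (Function.Periodic.qParam 1 ((ModularGroup.S • τ : ℍ) : ℂ)) =
      pev G (Function.Periodic.qParam 1 τ)) :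
    ∃ c : ℂ, ∀ τ : ℍ, pev G (Function.Periodic.qParam 1 τ) = c := by
  set f : ℍ → ℂ := fun τ => pev G (Function.Periodic.qParam 1 τ) with hf
  have h1 : f ∣[(0 : ℤ)] ModularGroup.S = f := by
    ext τ
    rw [ModularForm.SL_slash_apply]
    simp only [zpow_zero, neg_zero, mul_one]
    exact hS τ
  have h2 : f ∣[(0 : ℤ)] ModularGroup.T = f := by
    ext τ
    rw [ModularForm.SL_slash_apply]
    simp only [zpow_zero, neg_zero, mul_one, hf]
    rw [q_T]
  have h3 := fun γ : SL(2, ℤ) => SlashInvariantForm.slash_action_generators_SL2Z h1 h2 γ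
  let F : ModularForm 𝒮ℒ 0 :=
    { toFun := f
      slash_action_eq' := by
        rintro A ⟨A, rfl⟩
        exact h3 A
      holo' := mdiff_pev hG
      bdd_at_cusps' := by
        intro c hc
        rw [Subgroup.IsArithmetic.isCusp_iff_isCusp_SL2Z] at hc
        rw [OnePoint.isBoundedAt_iff_forall_SL2Z hc]
        intro γ _
        rw [h3]
        refine isBoundedAtImInfty_of_hasSum_qExpansion (h := 1)
          (c := fun n => PowerSeries.coeff n G) one_pos fun τ => ?_
        exact hG.hasSum (norm_q_lt_one τ) }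
  obtain ⟨c, hc⟩ := ModularFormClass.levelOne_weight_zero_const F
  exact ⟨c, fun τ => congrFun hc τ⟩

theorem evf_zero (z : ℂ) : evf 0 z = 0 := by simp [evf]

theorem pconv_C (c : ℂ) : PConv (PowerSeries.C c) := by
  apply PConv.of_mem_convLaurent
  rw [HahnSeries.ofPowerSeries_C]
  exact single_mem_convLaurent 0 c

theorem pev_C (c z : ℂ) : pev (PowerSeries.C c) z = c := by
  have := evf_ofPowerSeries (PowerSeries.C c) z
  rw [HahnSeries.ofPowerSeries_C, HahnSeries.C_apply, evf_single] at this
  simpa [pev] using this.symm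

theorem eq_C_of_S {G : PowerSeries ℂ} (hG : PConv G)
    (hS : ∀ τ : ℍ, pev G (Function.Periodic.qParam 1 ((ModularGroup.S • τ : ℍ) : ℂ)) =
      pev G (Function.Periodic.qParam 1 τ)) :
    ∃ c : ℂ, G = PowerSeries.C c := by
  obtain ⟨c, hc⟩ := pev_const_of_S hG hS
  refine ⟨c, ?_⟩
  rw [← sub_eq_zero]
  refine (hG.sub (pconv_C c)).eq_zero fun τ => ?_
  rw [pev_sub hG (pconv_C c) (norm_q_lt_one τ), hc, pev_C, sub_self]

/-- evaluation of a convergent Laurent series at `q = e^{2πiτ}`. -/
def evq (τ : ℍ) : convLaurent →+* ℂ := ev (Function.Periodic.qParam 1 τ) (pdisc_q τ)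

theorem evq_apply (τ : ℍ) (F : convLaurent) :
    evq τ F = evf F (Function.Periodic.qParam 1 τ) := rfl

/-- The element `j` of the ring of convergent Laurent series. -/
def jConv : convLaurent := ⟨jqModC ℂ, jqModC_mem_convLaurent⟩

theorem evq_jConv (τ : ℍ) : evq τ jConv = jfun τ := evf_jqModC τ

/-- `P ↦ P(j)`. -/
def jev (A : Type*) [CommRing A] : Polynomial A →+* LaurentSeries A :=
  Polynomial.eval₂RingHom (HahnSeries.C) (jqModC A)

theorem jev_C {A : Type*} [CommRing A] (a : A) : jev A (Polynomial.C a) = HahnSeries.C a := by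
  simp [jev]

theorem jev_X {A : Type*} [CommRing A] : jev A Polynomial.X = jqModC A := by
  simp [jev]

theorem coeffMap_C {A B : Type*} [CommRing A] [CommRing B] (f : A →+* B) (a : A) :
    coeffMap f (HahnSeries.C a) = HahnSeries.C (f a) := by
  rw [HahnSeries.C_apply, coeffMap_single, HahnSeries.C_apply]

theorem coeffMap_jev {A B : Type*} [CommRing A] [CommRing B] (f : A →+* B) (P : Polynomial A) :
    coeffMap f (jev A P) = jev B (P.map f) := by
  simp only [jev, Polynomial.coe_eval₂RingHom, Polynomial.hom_eval₂, Polynomial.eval₂_map]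
  rw [coeffMap_jqModC]
  congr 1
  ext a
  simp

theorem exists_poly_aux {A : Type*} [CommRing A] (φ : A →+* ℂ) (hφ : Function.Injective φ)
    (m : ℕ) : ∀ (F : LaurentSeries A), (∀ k < -(m : ℤ), F.coeff k = 0) →
    ∀ (hF : coeffMap φ F ∈ convLaurent),
    (∀ τ : ℍ, evq (ModularGroup.S • τ) ⟨coeffMap φ F, hF⟩ = evq τ ⟨coeffMap φ F, hF⟩) →
    ∃ P : Polynomial A, jev A P = F := by
  induction m with
  | zero =>
    intro F hm hF hS
    set G : PowerSeries A := PowerSeries.mk fun n => F.coeff n with hG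
    have hFG : F = HahnSeries.ofPowerSeries ℤ A G := by
      ext k
      rcases le_or_gt 0 k with hk | hk
      · lift k to ℕ using hk
        rw [HahnSeries.ofPowerSeries_apply_coeff, hG, PowerSeries.coeff_mk]
      · rw [ofPowerSeries_coeff_of_neg _ hk]
        exact hm k (by simpa using hk)
    have hconv : PConv (G.map φ) := by
      apply PConv.of_mem_convLaurent
      rw [← coeffMap_ofPowerSeries, ← hFG]
      exact hF
    obtain ⟨c, hc⟩ := eq_C_of_S hconv (fun τ => by
      have := hS τ
      simp only [evq_apply] at this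
      rw [hFG, coeffMap_ofPowerSeries, evf_ofPowerSeries, evf_ofPowerSeries] at this
      exact this)
    refine ⟨Polynomial.C (F.coeff 0), ?_⟩
    rw [jev_C, hFG, ← HahnSeries.ofPowerSeries_C]
    congr 1
    ext n
    apply hφ
    have hn := congrArg (PowerSeries.coeff n) hc
    have h0 := congrArg (PowerSeries.coeff 0) hc
    rw [PowerSeries.coeff_map, PowerSeries.coeff_C] at hn h0
    rw [hn]
    rw [← hFG, PowerSeries.coeff_C]
    split_ifs with h
    · simp only [if_true] at h0
      rw [← h0]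
      simp [hG]
    · rw [map_zero]
  | succ m ih =>
    intro F hm hF hS
    set c := F.coeff (-((m + 1 : ℕ) : ℤ)) with hc
    have hcm : coeffMap φ (HahnSeries.C c * jqModC A ^ (m + 1)) =
        HahnSeries.C (φ c) * jqModC ℂ ^ (m + 1) := by
      rw [map_mul, map_pow, coeffMap_jqModC, coeffMap_C]
    have hmem : HahnSeries.C (φ c) * jqModC ℂ ^ (m + 1) ∈ convLaurent :=
      convLaurent.mul_mem (single_mem_convLaurent 0 _)
        (convLaurent.pow_mem jqModC_mem_convLaurent _)
    have hF' : coeffMap φ (F - HahnSeries.C c * jqModC A ^ (m + 1)) ∈ convLaurent := by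
      rw [map_sub, hcm]
      exact convLaurent.sub_mem hF hmem
    have heq : (⟨_, hF'⟩ : convLaurent) = ⟨coeffMap φ F, hF⟩ -
        ⟨_, single_mem_convLaurent 0 (φ c)⟩ * jConv ^ (m + 1) := by
      apply Subtype.ext
      simp only [map_sub, hcm]
      rfl
    obtain ⟨P, hP⟩ := ih (F - HahnSeries.C c * jqModC A ^ (m + 1)) (by
      intro k hk
      rw [HahnSeries.coeff_sub, HahnSeries.C_apply, HahnSeries.coeff_single_mul, sub_zero]
      rcases eq_or_lt_of_le (show k ≤ -((m + 1 : ℕ) : ℤ) by push_cast; omega) with h | h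
      · rw [h, coeff_jqModC_pow_self, mul_one, hc, sub_self]
      · rw [hm k h, coeff_jqModC_pow_of_lt A h, mul_zero, sub_zero]) hF' (by
      intro τ
      rw [heq]
      simp only [map_sub, map_mul, map_pow]
      rw [hS, evq_jConv, evq_jConv, jfun_smul]
      congr 2
      simp only [evq_apply, evf_single, zpow_zero])
    refine ⟨P + Polynomial.C c * Polynomial.X ^ (m + 1), ?_⟩
    rw [map_add, map_mul, map_pow, hP, jev_C, jev_X, sub_add_cancel]

theorem exists_poly {A : Type*} [CommRing A] (φ : A →+* ℂ) (hφ : Function.Injective φ)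
    (F : LaurentSeries A) (hF : coeffMap φ F ∈ convLaurent)
    (hS : ∀ τ : ℍ, evq (ModularGroup.S • τ) ⟨coeffMap φ F, hF⟩ = evq τ ⟨coeffMap φ F, hF⟩) :
    ∃ P : Polynomial A, jev A P = F := by
  refine exists_poly_aux φ hφ (-F.order).toNat F (fun k hk => ?_) hF hS
  apply HahnSeries.coeff_eq_zero_of_lt_order
  omega

end Fermat.Agent.ModFun
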