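import Mathlib
import Fermat.Agent.ModFun.LevelOne

/-!
Twisting a Laurent series: `F(t) ↦ F(ct)`.
-/

set_option autoImplicit false

noncomputable section

open HahnSeries ModularCurve UpperHalfPlane Filter Topology
open scoped PowerSeries.WithPiTopology MatrixGroups ModularForm Manifold

namespace Fermat.Agent.ModFun

section Twist

variable {A : Type*} [CommRing A]

theorem twist_support (c : Aˣ) (F : LaurentSeries A) :
    (Function.support fun n : ℤ => ((c ^ n : Aˣ) : A) * F.coeff n) = F.support := by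
  ext n
  simp [HahnSeries.mem_support, Units.mul_right_eq_zero]

/-- the underlying function of `twist` -/
def twistFun (c : Aˣ) (F : LaurentSeries A) : LaurentSeries A where
  coeff n := ((c ^ n : Aˣ) : A) * F.coeff n
  isPWO_support' := by
    rw [twist_support]
    exact F.isPWO_support

theorem twistFun_coeff (c : Aˣ) (F : LaurentSeries A) (n : ℤ) :
    (twistFun c F).coeff n = ((c ^ n : Aˣ) : A) * F.coeff n := rfl

theorem support_twistFun (c : Aˣ) (F : LaurentSeries A) :
    (twistFun c F).support = F.support := twist_support c F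

/-- `F(t) ↦ F(ct)` -/
def twist (c : Aˣ) : LaurentSeries A →+* LaurentSeries A where
  toFun := twistFun c
  map_one' := by
    ext n
    rw [twistFun_coeff, HahnSeries.coeff_one]
    split_ifs with h
    · simp [h]
    · simp
  map_mul' F G := by
    ext n
    rw [twistFun_coeff, HahnSeries.coeff_mul, HahnSeries.coeff_mul, Finset.mul_sum]
    have hset : Finset.antidiagonal (twistFun c F).isPWO_support (twistFun c G).isPWO_support n =
        Finset.antidiagonal F.isPWO_support G.isPWO_support n := by
      ext x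
      simp only [Finset.mem_antidiagonal, support_twistFun]
    rw [hset]
    refine Finset.sum_congr rfl fun ij hij => ?_
    rw [Finset.mem_antidiagonal] at hij
    rw [twistFun_coeff, twistFun_coeff, ← hij.2.2, zpow_add]
    push_cast
    ring
  map_zero' := by
    ext n
    rw [twistFun_coeff]
    simp
  map_add' F G := by
    ext n
    rw [twistFun_coeff, HahnSeries.coeff_add, HahnSeries.coeff_add, twistFun_coeff, twistFun_coeff]
    ring

theorem twist_coeff (c : Aˣ) (F : LaurentSeries A) (n : ℤ) :
    (twist c F).coeff n = ((c ^ n : Aˣ) : A) * F.coeff n := rfl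

theorem twist_twist (c d : Aˣ) (F : LaurentSeries A) : twist c (twist d F) = twist (c * d) F := by
  ext n
  simp only [twist_coeff, mul_zpow]
  push_cast
  ring

theorem twist_one (F : LaurentSeries A) : twist 1 F = F := by
  ext n
  simp [twist_coeff]

theorem twist_qExpand (c : Aˣ) (N : ℕ) [NeZero N] (hc : c ^ N = 1) (F : LaurentSeries A) :
    twist c (qExpand A N F) = qExpand A N F := by
  ext n
  rw [twist_coeff]
  by_cases h : (N : ℤ) ∣ n
  · obtain ⟨m, rfl⟩ := h
    rw [zpow_mul, zpow_natCast, hc, one_zpow, Units.val_one, one_mul]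
  · rw [qExpand_coeff_of_not_dvd N F h, mul_zero]

theorem twist_C (c : Aˣ) (a : A) : twist c (HahnSeries.C a) = HahnSeries.C a := by
  ext n
  rw [twist_coeff, HahnSeries.C_apply, HahnSeries.coeff_single]
  split_ifs with h
  · simp [h]
  · simp

theorem coeffMap_twist {B : Type*} [CommRing B] (f : A →+* B) (c : Aˣ) (F : LaurentSeries A) :
    coeffMap f (twist c F) = twist (Units.map (f : A →* B) c) (coeffMap f F) := by
  ext n
  rw [coeffMap_coeff, twist_coeff, twist_coeff, map_mul, coeffMap_coeff, ← map_zpow]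
  rfl

/-- descent along `t^p = q`. -/
theorem exists_qExpand_of_twist [IsDomain A] (c : Aˣ) (N : ℕ) [NeZero N]
    (hc : IsPrimitiveRoot c N) (F : LaurentSeries A) (hF : twist c F = F) :
    ∃ G : LaurentSeries A, qExpand A N G = F := by
  have hN : (0 : ℤ) < N := by exact_mod_cast Nat.pos_of_ne_zero (NeZero.ne N)
  have h0 : ∀ n : ℤ, ¬ (N : ℤ) ∣ n → F.coeff n = 0 := by
    intro n hn
    have h := congrArg (fun G => HahnSeries.coeff G n) hF
    simp only [twist_coeff] at h
    by_contra hne
    apply hn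
    rw [← hc.zpow_eq_one_iff_dvd]
    ext
    rw [Units.val_one]
    exact mul_right_cancel₀ hne (h.trans (one_mul _).symm)
  refine ⟨⟨fun n => F.coeff ((N : ℤ) * n), ?_⟩, ?_⟩
  · have hpwo := F.isPWO_support
    refine (BddBelow.isWF ?_).isPWO
    obtain ⟨b, hb⟩ : BddBelow F.support := by
      rcases Set.eq_empty_or_nonempty F.support with h | h
      · rw [h]; exact bddBelow_empty
      · exact ⟨hpwo.isWF.min h, fun x hx => hpwo.isWF.min_le h hx⟩
    refine ⟨-|b|, fun n hn => ?_⟩
    have h1 : b ≤ (N : ℤ) * n := hb hn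
    by_contra hlt
    push Not at hlt
    have h2 : (N : ℤ) * n ≤ n := by nlinarith [abs_nonneg b]
    have h3 : -|b| ≤ b := neg_abs_le b
    linarith
  · ext n
    by_cases h : (N : ℤ) ∣ n
    · obtain ⟨m, rfl⟩ := h
      rw [qExpand_coeff_mul]
    · rw [qExpand_coeff_of_not_dvd N _ h, h0 n h]

end Twist

/-! ### convergence -/

theorem convAt_twist (c : ℂˣ) (F : LaurentSeries ℂ) (z : ℂ) (h : ConvAt F (c * z)) :
    ConvAt (twist c F) z := by
  unfold ConvAt at h ⊢
  refine h.congr fun n => ?_
  rw [twist_coeff, mul_zpow]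
  push_cast
  congr 1
  ring

theorem evf_twist (c : ℂˣ) (F : LaurentSeries ℂ) (z : ℂ) :
    evf (twist c F) z = evf F (c * z) := by
  unfold evf
  refine tsum_congr fun n => ?_
  rw [twist_coeff, mul_zpow]
  push_cast
  ring

theorem twist_mem_convLaurent (c : ℂˣ) (hc : ‖(c : ℂ)‖ = 1) {F : LaurentSeries ℂ}
    (hF : F ∈ convLaurent) : twist c F ∈ convLaurent := by
  intro z hz
  refine convAt_twist c F z (hF _ ?_)
  unfold PDisc
  rw [norm_mul, hc, one_mul]
  exact hz

theorem convAt_qExpand (N : ℕ) [NeZero N] (F : LaurentSeries ℂ) (z : ℂ) (h : ConvAt F (z ^ N)) :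
    ConvAt (qExpand ℂ N F) z := by
  unfold ConvAt at h ⊢
  have hinj : Function.Injective fun n : ℤ => (N : ℤ) * n :=
    mul_right_injective₀ (by exact_mod_cast NeZero.ne N)
  rw [← hinj.summable_iff]
  · refine h.congr fun n => ?_
    simp only [Function.comp_apply, qExpand_coeff_mul, zpow_mul, zpow_natCast]
  · intro n hn
    rw [qExpand_coeff_of_not_dvd N F, zero_mul, norm_zero]
    rintro ⟨m, rfl⟩
    exact hn ⟨m, rfl⟩

theorem evf_qExpand (N : ℕ) [NeZero N] (F : LaurentSeries ℂ) (z : ℂ) :
    evf (qExpand ℂ N F) z = evf F (z ^ N) := by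
  unfold evf
  have hinj : Function.Injective fun n : ℤ => (N : ℤ) * n :=
    mul_right_injective₀ (by exact_mod_cast NeZero.ne N)
  rw [← hinj.tsum_eq]
  · refine tsum_congr fun n => ?_
    simp only [qExpand_coeff_mul, zpow_mul, zpow_natCast]
  · intro n hn
    by_contra h
    apply hn
    show (qExpand ℂ N F).coeff n * z ^ n = 0
    rw [qExpand_coeff_of_not_dvd N F, zero_mul]
    rintro ⟨m, rfl⟩
    exact h ⟨m, rfl⟩

theorem pdisc_pow {z : ℂ} (hz : PDisc z) (N : ℕ) [NeZero N] : PDisc (z ^ N) := by
  unfold PDisc at *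
  rw [norm_pow]
  exact ⟨pow_pos hz.1 _, pow_lt_one₀ hz.1.le hz.2 (NeZero.ne N)⟩

theorem qExpand_mem_convLaurent (N : ℕ) [NeZero N] {F : LaurentSeries ℂ}
    (hF : F ∈ convLaurent) : qExpand ℂ N F ∈ convLaurent :=
  fun z hz => convAt_qExpand N F z (hF _ (pdisc_pow hz N))

end Fermat.Agent.ModFun
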