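import Mathlib
import Fermat.Agent.ModFun.Twist

/-!
The modular polynomial of prime level `p` with coefficients in `ℤ[ζ_p]`.
-/

set_option autoImplicit false

noncomputable section

open HahnSeries ModularCurve UpperHalfPlane Filter Topology
open scoped PowerSeries.WithPiTopology MatrixGroups ModularForm Manifold

namespace Fermat.Agent.ModFun

variable (p : ℕ) [hp : Fact p.Prime]

/-- `ℤ[ζ_p]` -/
abbrev Rz := AdjoinRoot (Polynomial.cyclotomic p ℤ)

def zr : Rz p := AdjoinRoot.root _

omit hp in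
theorem zr_pow : zr p ^ p = 1 := by
  obtain ⟨Q, hQ⟩ := Polynomial.cyclotomic.dvd_X_pow_sub_one p ℤ
  have := congrArg (AdjoinRoot.mk (Polynomial.cyclotomic p ℤ)) hQ
  simpa [sub_eq_zero, zr] using this

def zu : (Rz p)ˣ := Units.ofPowEqOne (zr p) p (zr_pow p) hp.out.ne_zero

theorem zu_pow : zu p ^ p = 1 := by
  ext
  rw [Units.val_pow_eq_pow_val]
  exact zr_pow p

theorem zr_lift_aux {k : Type*} [CommRing k] [IsDomain k] (z : k) (hz : IsPrimitiveRoot z p) :
    Polynomial.eval₂ (Int.castRingHom k) z (Polynomial.cyclotomic p ℤ) = 0 := by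
  have := hz.isRoot_cyclotomic hp.out.pos
  rw [Polynomial.IsRoot.def, ← Polynomial.map_cyclotomic_int, Polynomial.eval_map] at this
  exact this

def liftz {k : Type*} [CommRing k] [IsDomain k] (z : k) (hz : IsPrimitiveRoot z p) : Rz p →+* k :=
  AdjoinRoot.lift (Int.castRingHom k) z (zr_lift_aux p z hz)

theorem liftz_zr {k : Type*} [CommRing k] [IsDomain k] (z : k) (hz : IsPrimitiveRoot z p) :
    liftz p z hz (zr p) = z := AdjoinRoot.lift_root _

/-- `e^{2πi/p}` -/
def zc : ℂ := Complex.exp (2 * Real.pi * Complex.I / p)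

theorem zc_prim : IsPrimitiveRoot (zc p) p := Complex.isPrimitiveRoot_exp p hp.out.ne_zero

def phi : Rz p →+* ℂ := liftz p (zc p) (zc_prim p)

theorem phi_zr : phi p (zr p) = zc p := liftz_zr _ _ _

theorem phi_injective : Function.Injective (phi p) := by
  rw [injective_iff_map_eq_zero]
  intro a ha
  induction a using AdjoinRoot.induction_on with
  | ih P =>
    have h1 : Polynomial.aeval (zc p) P = 0 := by
      have : phi p (AdjoinRoot.mk _ P) = Polynomial.eval₂ (Int.castRingHom ℂ) (zc p) P :=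
        AdjoinRoot.lift_mk (zr_lift_aux p (zc p) (zc_prim p)) P
      rw [this] at ha
      rw [Polynomial.aeval_def]
      exact ha
    have h2 : minpoly ℤ (zc p) ∣ P :=
      minpoly.isIntegrallyClosed_dvd ((zc_prim p).isIntegral hp.out.pos) h1
    rw [← Polynomial.cyclotomic_eq_minpoly (zc_prim p) hp.out.pos] at h2
    rwa [AdjoinRoot.mk_eq_zero]

instance : IsDomain (Rz p) := (phi_injective p).isDomain _

theorem zr_prim : IsPrimitiveRoot (zr p) p :=
  IsPrimitiveRoot.of_map_of_injective (f := phi p) (by rw [phi_zr]; exact zc_prim p) (phi_injective p)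

theorem zu_prim : IsPrimitiveRoot (zu p) p := by
  rw [← IsPrimitiveRoot.coe_units_iff]
  exact zr_prim p

instance neZero_p : NeZero p := ⟨hp.out.ne_zero⟩

/-- the family `j(t^{p²}), j(ζ^b t)` -/
def xfam (A : Type*) [CommRing A] (u : Aˣ) : Option (ZMod p) → LaurentSeries A
  | none => qExpand A (p * p) (jqModC A)
  | some b => twist (u ^ b.val) (jqModC A)

/-- the family `p^{12} Δ(t^{p²})/Δ(t^p), Δ(ζ^b t)/Δ(t^p)` -/
def gfam (A : Type*) [CommRing A] (u : Aˣ) : Option (ZMod p) → LaurentSeries A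
  | none => HahnSeries.C ((p : A) ^ 12) * qExpand A (p * p) (DeltaSer A) * qExpand A p (DeltaInvSer A)
  | some b => twist (u ^ b.val) (DeltaSer A) * qExpand A p (DeltaInvSer A)

theorem coeffMap_xfam {A B : Type*} [CommRing A] [CommRing B] (f : A →+* B) (u : Aˣ)
    (i : Option (ZMod p)) :
    coeffMap f (xfam p A u i) = xfam p B (Units.map (f : A →* B) u) i := by
  cases i with
  | none => simp only [xfam, coeffMap_qExpand, coeffMap_jqModC]
  | some b => simp only [xfam, coeffMap_twist, coeffMap_jqModC, map_pow]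

theorem coeffMap_gfam {A B : Type*} [CommRing A] [CommRing B] (f : A →+* B) (u : Aˣ)
    (i : Option (ZMod p)) :
    coeffMap f (gfam p A u i) = gfam p B (Units.map (f : A →* B) u) i := by
  cases i with
  | none => simp only [gfam, map_mul, coeffMap_qExpand, coeffMap_DeltaSer, coeffMap_DeltaInvSer,
      map_pow, map_natCast]
  | some b => simp only [gfam, map_mul, coeffMap_twist, coeffMap_qExpand, coeffMap_DeltaSer,
      coeffMap_DeltaInvSer, map_pow]

/-- `∞ ↦ ∞, b ↦ b + 1` -/
def tperm : Option (ZMod p) ≃ Option (ZMod p) := Equiv.optionCongr (Equiv.addRight 1)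

theorem pow_val_add_one {G : Type*} [Monoid G] (u : G) (hu : u ^ p = 1) (b : ZMod p) :
    u ^ (b + 1).val = u * u ^ b.val := by
  rw [← pow_succ']
  have h : ((b + 1).val : ZMod p) = ((b.val + 1 : ℕ) : ZMod p) := by
    push_cast
    simp
  rw [ZMod.natCast_eq_natCast_iff] at h
  rw [pow_eq_pow_mod _ hu, pow_eq_pow_mod (b.val + 1) hu]
  congr 1

theorem twist_xfam {A : Type*} [CommRing A] (u : Aˣ) (hu : u ^ p = 1) (i : Option (ZMod p)) :
    twist u (xfam p A u i) = xfam p A u (tperm p i) := by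
  cases i with
  | none =>
    show twist u (qExpand A (p * p) (jqModC A)) = qExpand A (p * p) (jqModC A)
    rw [twist_qExpand]
    rw [pow_mul, hu, one_pow]
  | some b =>
    show twist u (twist (u ^ b.val) (jqModC A)) = twist (u ^ (b + 1).val) (jqModC A)
    rw [twist_twist, pow_val_add_one p u hu]

theorem twist_gfam {A : Type*} [CommRing A] (u : Aˣ) (hu : u ^ p = 1) (i : Option (ZMod p)) :
    twist u (gfam p A u i) = gfam p A u (tperm p i) := by
  cases i with
  | none =>
    show twist u (HahnSeries.C ((p : A) ^ 12) * qExpand A (p * p) (DeltaSer A) *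
      qExpand A p (DeltaInvSer A)) = HahnSeries.C ((p : A) ^ 12) * qExpand A (p * p) (DeltaSer A) *
      qExpand A p (DeltaInvSer A)
    rw [map_mul, map_mul, twist_C, twist_qExpand, twist_qExpand _ _ hu]
    rw [pow_mul, hu, one_pow]
  | some b =>
    show twist u (twist (u ^ b.val) (DeltaSer A) * qExpand A p (DeltaInvSer A)) =
      twist (u ^ (b + 1).val) (DeltaSer A) * qExpand A p (DeltaInvSer A)
    rw [map_mul, twist_twist, pow_val_add_one p u hu, twist_qExpand _ _ hu]

/-! ### points of the upper half plane -/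

/-- `pτ` -/
def pmul (τ : ℍ) : ℍ := ⟨(p : ℂ) * τ, by
  have := hp.out.pos
  have h := τ.im_pos
  simp only [Complex.mul_im, Complex.natCast_re, Complex.natCast_im, zero_mul, add_zero]
  positivity⟩

/-- `(τ + b)/p` -/
def pdiv (b : ℕ) (τ : ℍ) : ℍ := ⟨((τ : ℂ) + b) / p, by
  have := hp.out.pos
  have h := τ.im_pos
  rw [Complex.div_natCast_im]
  simp only [Complex.add_im, Complex.natCast_im, add_zero]
  positivity⟩

theorem coe_pmul (τ : ℍ) : (pmul p τ : ℂ) = p * τ := rfl

theorem coe_pdiv (b : ℕ) (τ : ℍ) : (pdiv p b τ : ℂ) = (τ + b) / p := rfl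

theorem q_pdiv (b : ℕ) (τ : ℍ) : Function.Periodic.qParam 1 (pdiv p b τ) =
    zc p ^ b * Function.Periodic.qParam 1 (pdiv p 0 τ) := by
  have hp0 : (p : ℂ) ≠ 0 := by exact_mod_cast hp.out.ne_zero
  rw [zc, Function.Periodic.qParam, Function.Periodic.qParam, ← Complex.exp_nat_mul,
    ← Complex.exp_add, coe_pdiv, coe_pdiv]
  congr 1
  push_cast
  field_simp
  ring

theorem q_pdiv_pow (τ : ℍ) : (Function.Periodic.qParam 1 (pdiv p 0 τ)) ^ p =
    Function.Periodic.qParam 1 τ := by
  have hp0 : (p : ℂ) ≠ 0 := by exact_mod_cast hp.out.ne_zero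
  rw [Function.Periodic.qParam, Function.Periodic.qParam, ← Complex.exp_nat_mul, coe_pdiv]
  congr 1
  push_cast
  field_simp
  ring

theorem q_pdiv_pow_sq (τ : ℍ) : (Function.Periodic.qParam 1 (pdiv p 0 τ)) ^ (p * p) =
    Function.Periodic.qParam 1 (pmul p τ) := by
  rw [pow_mul, q_pdiv_pow, Function.Periodic.qParam, Function.Periodic.qParam,
    ← Complex.exp_nat_mul, coe_pmul]
  congr 1
  push_cast
  ring

/-- `-b⁻¹` swap -/
def sfun : Option (ZMod p) → Option (ZMod p)
  | none => some 0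
  | some b => if b = 0 then none else some (-b⁻¹)

theorem sfun_invol : Function.Involutive (sfun p) := by
  intro i
  cases i with
  | none => simp [sfun]
  | some b =>
    by_cases hb : b = 0
    · simp [sfun, hb]
    · have h1 : -b⁻¹ ≠ 0 := neg_ne_zero.mpr (inv_ne_zero hb)
      simp only [sfun, hb, if_false, h1]
      rw [inv_neg, inv_inv, neg_neg]

def sperm : Option (ZMod p) ≃ Option (ZMod p) := (sfun_invol p).toPerm

theorem sperm_apply (i : Option (ZMod p)) : sperm p i = sfun p i := rfl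

/-- the points `pτ`, `(τ+b)/p`. -/
def pt : Option (ZMod p) → ℍ → ℍ
  | none, τ => pmul p τ
  | some b, τ => pdiv p b.val τ

/-- the weights -/
def wt : Option (ZMod p) → ℂ
  | none => (p : ℂ) ^ 12
  | some _ => 1

theorem denom_S' (τ : ℍ) : denom (ModularGroup.S : GL (Fin 2) ℝ) τ = τ := by
  exact ModularGroup.denom_S τ

theorem coe_S_smul (τ : ℍ) : ((ModularGroup.S • τ : ℍ) : ℂ) = -(τ : ℂ)⁻¹ := by
  rw [modular_S_smul, coe_mk, neg_inv, inv_neg]
  

/-- the matrix `(b, -m; p, -b')` -/
def gmat (b b' m : ℤ) (h : -(b * b') + m * p = 1) : SL(2, ℤ) :=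
  ⟨!![b, -m; (p : ℤ), -b'], by rw [Matrix.det_fin_two_of]; linarith⟩

omit hp in
theorem denom_gmat (b b' m : ℤ) (h : -(b * b') + m * p = 1) (τ : ℍ) :
    denom (gmat p b b' m h : GL (Fin 2) ℝ) τ = p * τ - b' := by
  rw [ModularGroup.denom_apply]
  simp [gmat, sub_eq_add_neg]

omit hp in
theorem coe_gmat_smul (b b' m : ℤ) (h : -(b * b') + m * p = 1) (τ : ℍ) :
    ((gmat p b b' m h • τ : ℍ) : ℂ) = (b * τ - m) / (p * τ - b') := by
  rw [UpperHalfPlane.coe_specialLinearGroup_apply]
  simp [gmat, sub_eq_add_neg]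

theorem exists_gamma (i : Option (ZMod p)) (τ : ℍ) :
    ∃ γ : SL(2, ℤ), pt p i (ModularGroup.S • τ) = γ • pt p (sperm p i) τ ∧
      wt p i * denom γ (pt p (sperm p i) τ) ^ (12 : ℤ) = wt p (sperm p i) * (τ : ℂ) ^ (12 : ℤ) := by
  have hp0 : (p : ℂ) ≠ 0 := by exact_mod_cast hp.out.ne_zero
  have hτ : (τ : ℂ) ≠ 0 := τ.ne_zero
  cases i with
  | none =>
    refine ⟨ModularGroup.S, ?_, ?_⟩
    · apply UpperHalfPlane.ext
      rw [sperm_apply]
      simp only [pt, sfun, ZMod.val_zero]
      rw [coe_pmul, coe_S_smul, coe_S_smul, coe_pdiv, Nat.cast_zero, add_zero, inv_div]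
      ring
    · rw [denom_S', sperm_apply]
      simp only [pt, sfun, ZMod.val_zero, wt, coe_pdiv]
      norm_cast
      field_simp
      push_cast
      ring
  | some b =>
    by_cases hb : b = 0
    · subst hb
      refine ⟨ModularGroup.S, ?_, ?_⟩
      · apply UpperHalfPlane.ext
        rw [sperm_apply]
        simp only [pt, sfun, ZMod.val_zero, if_true]
        rw [coe_pdiv, coe_S_smul, coe_S_smul, coe_pmul]
        push_cast
        field_simp
        ring
      · rw [denom_S', sperm_apply]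
        simp only [pt, sfun, if_true, wt, coe_pmul]
        rw [mul_zpow]
        norm_cast
        ring
    · set b' : ZMod p := -b⁻¹ with hb'
      have hbb : ((b.val * b'.val + 1 : ℕ) : ZMod p) = 0 := by
        push_cast
        rw [ZMod.natCast_val, ZMod.natCast_val, ZMod.cast_id, ZMod.cast_id, hb']
        field_simp
        ring
      rw [ZMod.natCast_eq_zero_iff] at hbb
      obtain ⟨m, hm⟩ := hbb
      have hdet : -((b.val : ℤ) * (b'.val : ℤ)) + (m : ℤ) * p = 1 := by
        have : ((b.val * b'.val + 1 : ℕ) : ℤ) = ((p * m : ℕ) : ℤ) := by rw [hm]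
        push_cast at this
        linarith
      have hm' : ((b.val : ℂ) * (b'.val : ℂ) + 1) = p * m := by exact_mod_cast hm
      refine ⟨gmat p b.val b'.val m hdet, ?_, ?_⟩
      · apply UpperHalfPlane.ext
        rw [sperm_apply]
        simp only [pt, sfun, hb, if_false]
        rw [coe_gmat_smul, coe_pdiv, coe_pdiv, coe_S_smul, ← hb']
        push_cast
        have h1 : (p : ℂ) * (((τ : ℂ) + b'.val) / p) - b'.val = τ := by
          field_simp
          ring
        rw [h1]
        field_simp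
        linear_combination -hm'
      · rw [denom_gmat, sperm_apply]
        simp only [pt, sfun, hb, if_false, wt, coe_pdiv, ← hb']
        congr 2
        push_cast
        field_simp
        ring

/-! ### evaluation -/

theorem norm_zc : ‖zc p‖ = 1 := (zc_prim p).norm'_eq_one hp.out.ne_zero

/-- series over `ℤ[ζ]` which converge -/
def Bz : Subring (LaurentSeries (Rz p)) := convLaurent.comap (coeffMap (phi p))

def toConv : Bz p →+* convLaurent :=
  ((coeffMap (phi p)).comp (Bz p).subtype).codRestrict convLaurent (fun F => F.2)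

theorem toConv_coe (F : Bz p) : (toConv p F : LaurentSeries ℂ) = coeffMap (phi p) F := rfl

/-- evaluation at `t = e^{2πiτ/p}`. -/
def Et (τ : ℍ) : Bz p →+* ℂ := (evq (pdiv p 0 τ)).comp (toConv p)

theorem Et_apply (τ : ℍ) (F : Bz p) : Et p τ F =
    evf (coeffMap (phi p) F) (Function.Periodic.qParam 1 (pdiv p 0 τ)) := rfl

theorem Et_qExpand (τ : ℍ) (F : Bz p) (G : LaurentSeries (Rz p)) (hG : qExpand _ p G = F) :
    Et p τ F = evf (coeffMap (phi p) G) (Function.Periodic.qParam 1 τ) := by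
  rw [Et_apply, ← hG, coeffMap_qExpand, evf_qExpand, q_pdiv_pow]

def uc : ℂˣ := Units.map (phi p : Rz p →* ℂ) (zu p)

theorem coe_uc : ((uc p : ℂˣ) : ℂ) = zc p := phi_zr p

theorem norm_uc_pow (n : ℕ) : ‖((uc p ^ n : ℂˣ) : ℂ)‖ = 1 := by
  rw [Units.val_pow_eq_pow_val, coe_uc, norm_pow, norm_zc, one_pow]

theorem xfam_mem_conv (i : Option (ZMod p)) : xfam p ℂ (uc p) i ∈ convLaurent := by
  cases i with
  | none => exact qExpand_mem_convLaurent _ jqModC_mem_convLaurent
  | some b => exact twist_mem_convLaurent _ (norm_uc_pow p _) jqModC_mem_convLaurent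

theorem gfam_mem_conv (i : Option (ZMod p)) : gfam p ℂ (uc p) i ∈ convLaurent := by
  cases i with
  | none =>
    exact convLaurent.mul_mem (convLaurent.mul_mem (single_mem_convLaurent 0 _)
      (qExpand_mem_convLaurent _ DeltaSer_mem)) (qExpand_mem_convLaurent _ DeltaInvSer_mem)
  | some b =>
    exact convLaurent.mul_mem (twist_mem_convLaurent _ (norm_uc_pow p _) DeltaSer_mem)
      (qExpand_mem_convLaurent _ DeltaInvSer_mem)

theorem xfam_mem (i : Option (ZMod p)) : xfam p (Rz p) (zu p) i ∈ Bz p := by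
  show coeffMap (phi p) (xfam p (Rz p) (zu p) i) ∈ convLaurent
  rw [coeffMap_xfam]
  exact xfam_mem_conv p i

theorem gfam_mem (i : Option (ZMod p)) : gfam p (Rz p) (zu p) i ∈ Bz p := by
  show coeffMap (phi p) (gfam p (Rz p) (zu p) i) ∈ convLaurent
  rw [coeffMap_gfam]
  exact gfam_mem_conv p i

def xB (i : Option (ZMod p)) : Bz p := ⟨_, xfam_mem p i⟩

def gB (i : Option (ZMod p)) : Bz p := ⟨_, gfam_mem p i⟩

theorem Et_xB (i : Option (ZMod p)) (τ : ℍ) : Et p τ (xB p i) = jfun (pt p i τ) := by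
  rw [Et_apply]
  show evf (coeffMap (phi p) (xfam p (Rz p) (zu p) i)) _ = _
  rw [coeffMap_xfam]
  cases i with
  | none =>
    show evf (qExpand ℂ (p * p) (jqModC ℂ)) _ = _
    rw [evf_qExpand, q_pdiv_pow_sq, evf_jqModC]
    rfl
  | some b =>
    show evf (twist (uc p ^ b.val) (jqModC ℂ)) _ = _
    rw [evf_twist, Units.val_pow_eq_pow_val, coe_uc, ← q_pdiv, evf_jqModC]
    rfl

theorem Et_gB (i : Option (ZMod p)) (τ : ℍ) : Et p τ (gB p i) =
    wt p i * ModularForm.discriminant (pt p i τ) / ModularForm.discriminant τ := by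
  rw [Et_apply]
  show evf (coeffMap (phi p) (gfam p (Rz p) (zu p) i)) _ = _
  rw [coeffMap_gfam]
  have hq := pdisc_q (pdiv p 0 τ)
  cases i with
  | none =>
    show evf (HahnSeries.C ((p : ℂ) ^ 12) * qExpand ℂ (p * p) (DeltaSer ℂ) *
      qExpand ℂ p (DeltaInvSer ℂ)) _ = _
    rw [HahnSeries.C_apply, evf_mul hq.ne_zero
      (convLaurent.mul_mem (single_mem_convLaurent 0 _)
        (qExpand_mem_convLaurent _ DeltaSer_mem) _ hq)
      (qExpand_mem_convLaurent _ DeltaInvSer_mem _ hq),
      evf_mul hq.ne_zero (single_mem_convLaurent 0 _ _ hq)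
        (qExpand_mem_convLaurent _ DeltaSer_mem _ hq), evf_single, zpow_zero,
      mul_one, evf_qExpand, evf_qExpand, q_pdiv_pow_sq, q_pdiv_pow, evf_DeltaSer, evf_DeltaInvSer]
    rfl
  | some b =>
    show evf (twist (uc p ^ b.val) (DeltaSer ℂ) * qExpand ℂ p (DeltaInvSer ℂ)) _ = _
    rw [evf_mul hq.ne_zero
      (twist_mem_convLaurent _ (norm_uc_pow p _) DeltaSer_mem _ hq)
      (qExpand_mem_convLaurent _ DeltaInvSer_mem _ hq), evf_twist, Units.val_pow_eq_pow_val, coe_uc,
      ← q_pdiv, evf_DeltaSer, evf_qExpand, q_pdiv_pow, evf_DeltaInvSer]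
    simp only [wt, one_mul]
    rfl

theorem Et_S_xB (i : Option (ZMod p)) (τ : ℍ) :
    Et p (ModularGroup.S • τ) (xB p i) = Et p τ (xB p (sperm p i)) := by
  obtain ⟨γ, h1, -⟩ := exists_gamma p i τ
  rw [Et_xB, Et_xB, h1, jfun_smul]

theorem Et_S_gB (i : Option (ZMod p)) (τ : ℍ) :
    Et p (ModularGroup.S • τ) (gB p i) = Et p τ (gB p (sperm p i)) := by
  obtain ⟨γ, h1, h2⟩ := exists_gamma p i τ
  rw [Et_gB, Et_gB, h1, disc_smul, disc_smul, denom_S', ← mul_assoc, h2]
  have hτ : (τ : ℂ) ^ (12 : ℤ) ≠ 0 := zpow_ne_zero _ τ.ne_zero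
  rw [mul_comm (wt p (sperm p i)), mul_assoc, mul_div_mul_left _ _ hτ]

end Fermat.Agent.ModFun
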