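import Mathlib
import Fermat.Agent.ModFun.ModPoly

/-!
The modular polynomial of prime level `p`, descent to `A[j]`.
-/

set_option autoImplicit false

noncomputable section

open HahnSeries ModularCurve UpperHalfPlane Filter Topology
open scoped PowerSeries.WithPiTopology MatrixGroups ModularForm Manifold

namespace Fermat.Agent.ModFun

variable (p : ℕ) [hp : Fact p.Prime]

/-- Descent for a single element. -/
theorem exists_jev_of_invariant (f : Bz p)
    (hT : twist (zu p) (f : LaurentSeries (Rz p)) = f)
    (hS : ∀ τ : ℍ, Et p (ModularGroup.S • τ) f = Et p τ f) :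
    ∃ P : Polynomial (Rz p), qExpand (Rz p) p (jev (Rz p) P) = f := by
  obtain ⟨G, hG⟩ := exists_qExpand_of_twist (zu p) p (zu_prim p) _ hT
  have hGconv : coeffMap (phi p) G ∈ convLaurent := by
    intro z hz
    -- choose a `p`-th root of `z`
    obtain ⟨w, hw⟩ := IsAlgClosed.exists_pow_nat_eq z hp.out.pos
    have hw1 : PDisc w := by
      unfold PDisc at hz ⊢
      rw [← hw, norm_pow] at hz
      refine ⟨?_, ?_⟩
      · rw [norm_pos_iff]
        rintro rfl
        simp [hp.out.ne_zero] at hz
      · by_contra h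
        push Not at h
        have := one_le_pow₀ h (n := p)
        linarith [hz.2]
    have h2 : ConvAt (coeffMap (phi p) (f : LaurentSeries (Rz p))) w := f.2 w hw1
    rw [← hG, coeffMap_qExpand] at h2
    unfold ConvAt at h2 ⊢
    have hinj : Function.Injective fun n : ℤ => (p : ℤ) * n :=
      mul_right_injective₀ (by exact_mod_cast NeZero.ne p)
    have h3 := h2.comp_injective hinj
    refine h3.congr fun n => ?_
    simp only [Function.comp_apply, qExpand_coeff_mul, zpow_mul, zpow_natCast, hw]
  obtain ⟨P, hP⟩ := exists_poly (phi p) (phi_injective p) G hGconv (fun τ => by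
    have := hS τ
    rw [Et_qExpand p _ f G hG, Et_qExpand p _ f G hG] at this
    exact this)
  exact ⟨P, by rw [hP, hG]⟩

section GenPoly

variable {I : Type*} [Fintype I] [DecidableEq I]

/-- `∏ (X - x_i)` -/
def prodPoly {B : Type*} [CommRing B] (x : I → B) : Polynomial B :=
  ∏ i, (Polynomial.X - Polynomial.C (x i))

/-- `∑ g_i ∏_{k ≠ i} (X - x_k)` -/
def sumPoly {B : Type*} [CommRing B] (x g : I → B) : Polynomial B :=
  ∑ i, Polynomial.C (g i) * ∏ k ∈ Finset.univ.erase i, (Polynomial.X - Polynomial.C (x k))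

omit [DecidableEq I] in
theorem map_prodPoly {B C : Type*} [CommRing B] [CommRing C] (f : B →+* C) (x : I → B) :
    (prodPoly x).map f = prodPoly (fun i => f (x i)) := by
  simp [prodPoly, Polynomial.map_prod]

theorem map_sumPoly {B C : Type*} [CommRing B] [CommRing C] (f : B →+* C) (x g : I → B) :
    (sumPoly x g).map f = sumPoly (fun i => f (x i)) (fun i => f (g i)) := by
  simp [sumPoly, Polynomial.map_prod, Polynomial.map_sum]

omit [DecidableEq I] in
theorem prodPoly_perm {B : Type*} [CommRing B] (x : I → B) (σ : I ≃ I) :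
    prodPoly (fun i => x (σ i)) = prodPoly x :=
  Equiv.prod_comp σ (fun i => Polynomial.X - Polynomial.C (x i))

theorem sumPoly_perm {B : Type*} [CommRing B] (x g : I → B) (σ : I ≃ I) :
    sumPoly (fun i => x (σ i)) (fun i => g (σ i)) = sumPoly x g := by
  unfold sumPoly
  rw [← Equiv.sum_comp σ (fun i => Polynomial.C (g i) *
    ∏ k ∈ Finset.univ.erase i, (Polynomial.X - Polynomial.C (x k)))]
  refine Finset.sum_congr rfl fun i _ => ?_
  congr 1
  refine Finset.prod_bij (fun k _ => σ k) ?_ ?_ ?_ ?_
  · intro k hk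
    simpa using hk
  · intro a _ b _ h
    exact σ.injective h
  · intro b hb
    exact ⟨σ.symm b, by simpa [Equiv.symm_apply_eq] using hb, by simp⟩
  · intro k _
    rfl

omit [DecidableEq I] in
theorem prodPoly_monic {B : Type*} [CommRing B] (x : I → B) : (prodPoly x).Monic :=
  Polynomial.monic_prod_X_sub_C _ _

omit [DecidableEq I] in
theorem prodPoly_natDegree {B : Type*} [CommRing B] [Nontrivial B] (x : I → B) :
    (prodPoly x).natDegree = Fintype.card I := by
  rw [prodPoly, Polynomial.natDegree_finsetProd_X_sub_C_eq_card]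
  rfl

omit [DecidableEq I] in
theorem prodPoly_eval {B : Type*} [CommRing B] (x : I → B) (i : I) :
    (prodPoly x).eval (x i) = 0 := by
  rw [prodPoly, Polynomial.eval_prod]
  exact Finset.prod_eq_zero (Finset.mem_univ i) (by simp)

theorem sumPoly_eval {B : Type*} [CommRing B] (x g : I → B) (i : I) :
    (sumPoly x g).eval (x i) = g i * ∏ k ∈ Finset.univ.erase i, (x i - x k) := by
  rw [sumPoly, Polynomial.eval_finsetSum, Finset.sum_eq_single i]
  · simp [Polynomial.eval_prod]
  · intro j _ hj
    rw [Polynomial.eval_mul, Polynomial.eval_prod]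
    rw [Finset.prod_eq_zero (i := i) (by simpa using hj.symm) (by simp), mul_zero]
  · intro h
    exact absurd (Finset.mem_univ i) h

end GenPoly

theorem exists_lift_aux (Q : Polynomial (Bz p))
    (hT : Q.map ((twist (zu p)).comp (Bz p).subtype) = Q.map (Bz p).subtype)
    (hS : ∀ τ : ℍ, Q.map (Et p (ModularGroup.S • τ)) = Q.map (Et p τ)) :
    ∃ P : Polynomial (Polynomial (Rz p)),
      P.map ((qExpand (Rz p) p).comp (jev (Rz p))) = Q.map (Bz p).subtype := by
  rw [← Polynomial.mem_lifts, Polynomial.lifts_iff_coeff_lifts]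
  intro n
  rw [Polynomial.coeff_map]
  obtain ⟨P, hP⟩ := exists_jev_of_invariant p (Q.coeff n) (by
    have := congrArg (fun R => Polynomial.coeff R n) hT
    simpa [Polynomial.coeff_map] using this) (fun τ => by
    have := congrArg (fun R => Polynomial.coeff R n) (hS τ)
    simpa [Polynomial.coeff_map] using this)
  exact ⟨P, hP⟩

theorem exists_Phi_aux : ∃ P : Polynomial (Polynomial (Rz p)),
    P.map ((qExpand (Rz p) p).comp (jev (Rz p))) = prodPoly (xfam p (Rz p) (zu p)) := by
  obtain ⟨P, hP⟩ := exists_lift_aux p (prodPoly (xB p)) (by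
      rw [map_prodPoly, map_prodPoly, ← prodPoly_perm (fun i => (Bz p).subtype (xB p i)) (tperm p)]
      congr 1
      funext i
      exact twist_xfam p (zu p) (zu_pow p) i) (fun τ => by
      rw [map_prodPoly, map_prodPoly, ← prodPoly_perm (fun i => Et p τ (xB p i)) (sperm p)]
      congr 1
      funext i
      exact Et_S_xB p i τ)
  refine ⟨P, ?_⟩
  rw [hP, map_prodPoly]
  rfl

theorem exists_U_aux : ∃ P : Polynomial (Polynomial (Rz p)),
    P.map ((qExpand (Rz p) p).comp (jev (Rz p))) = prodPoly (gfam p (Rz p) (zu p)) := by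
  obtain ⟨P, hP⟩ := exists_lift_aux p (prodPoly (gB p)) (by
      rw [map_prodPoly, map_prodPoly, ← prodPoly_perm (fun i => (Bz p).subtype (gB p i)) (tperm p)]
      congr 1
      funext i
      exact twist_gfam p (zu p) (zu_pow p) i) (fun τ => by
      rw [map_prodPoly, map_prodPoly, ← prodPoly_perm (fun i => Et p τ (gB p i)) (sperm p)]
      congr 1
      funext i
      exact Et_S_gB p i τ)
  refine ⟨P, ?_⟩
  rw [hP, map_prodPoly]
  rfl

theorem exists_W_aux : ∃ P : Polynomial (Polynomial (Rz p)),
    P.map ((qExpand (Rz p) p).comp (jev (Rz p))) =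
      sumPoly (xfam p (Rz p) (zu p)) (gfam p (Rz p) (zu p)) := by
  obtain ⟨P, hP⟩ := exists_lift_aux p (sumPoly (xB p) (gB p)) (by
      rw [map_sumPoly, map_sumPoly, ← sumPoly_perm (fun i => (Bz p).subtype (xB p i))
        (fun i => (Bz p).subtype (gB p i)) (tperm p)]
      congr 1
      · funext i
        exact twist_xfam p (zu p) (zu_pow p) i
      · funext i
        exact twist_gfam p (zu p) (zu_pow p) i) (fun τ => by
      rw [map_sumPoly, map_sumPoly, ← sumPoly_perm (fun i => Et p τ (xB p i))
        (fun i => Et p τ (gB p i)) (sperm p)]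
      congr 1
      · funext i
        exact Et_S_xB p i τ
      · funext i
        exact Et_S_gB p i τ)
  refine ⟨P, ?_⟩
  rw [hP, map_sumPoly]
  rfl

section Field

variable {k : Type*} [CommRing k] [IsDomain k] (z : kˣ) (hz : IsPrimitiveRoot z p)

omit [IsDomain k] in
theorem transport_aux (P : Polynomial (Polynomial (Rz p))) (f : Rz p →+* k) :
    (P.map (Polynomial.mapRingHom f)).map ((qExpand k p).comp (jev k)) =
      (P.map ((qExpand (Rz p) p).comp (jev (Rz p)))).map (coeffMap f) := by
  rw [Polynomial.map_map, Polynomial.map_map]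
  congr 1
  apply RingHom.ext
  intro Q
  simp only [RingHom.comp_apply, Polynomial.coe_mapRingHom]
  rw [coeffMap_qExpand, coeffMap_jev]

include hz in
theorem liftz_zu : Units.map (liftz p (z : k) ((IsPrimitiveRoot.coe_units_iff).mpr hz) : Rz p →* k)
    (zu p) = z := by
  ext
  exact liftz_zr p (z : k) ((IsPrimitiveRoot.coe_units_iff).mpr hz)

include hz in
theorem exists_Phi : ∃ P : Polynomial (Polynomial k),
    P.map ((qExpand k p).comp (jev k)) = prodPoly (xfam p k z) := by
  obtain ⟨P, hP⟩ := exists_Phi_aux p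
  refine ⟨P.map (Polynomial.mapRingHom (liftz p (z : k) ((IsPrimitiveRoot.coe_units_iff).mpr hz))), ?_⟩
  rw [transport_aux, hP, map_prodPoly]
  congr 1
  funext i
  rw [coeffMap_xfam, liftz_zu]
  exact hz

include hz in
theorem exists_U : ∃ P : Polynomial (Polynomial k),
    P.map ((qExpand k p).comp (jev k)) = prodPoly (gfam p k z) := by
  obtain ⟨P, hP⟩ := exists_U_aux p
  refine ⟨P.map (Polynomial.mapRingHom (liftz p (z : k) ((IsPrimitiveRoot.coe_units_iff).mpr hz))), ?_⟩
  rw [transport_aux, hP, map_prodPoly]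
  congr 1
  funext i
  rw [coeffMap_gfam, liftz_zu]
  exact hz

include hz in
theorem exists_W : ∃ P : Polynomial (Polynomial k),
    P.map ((qExpand k p).comp (jev k)) = sumPoly (xfam p k z) (gfam p k z) := by
  obtain ⟨P, hP⟩ := exists_W_aux p
  refine ⟨P.map (Polynomial.mapRingHom (liftz p (z : k) ((IsPrimitiveRoot.coe_units_iff).mpr hz))), ?_⟩
  rw [transport_aux, hP, map_sumPoly]
  congr 1
  · funext i
    rw [coeffMap_xfam, liftz_zu]
    exact hz
  · funext i
    rw [coeffMap_gfam, liftz_zu]
    exact hz

end Field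

end Fermat.Agent.ModFun
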