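import Mathlib
import Fermat.Agent.ModFun.ModPoly2

/-!
`j(q^p) ∉ k(j(q))` when `p` is invertible in `k`.
-/

set_option autoImplicit false

noncomputable section

open HahnSeries ModularCurve

namespace Fermat.Agent.ModFun

section Basic

variable (k : Type*) [Field k]

/-- `j(q^N)` (and `0` for `N = 0`). -/
def Jd (N : ℕ) : LaurentSeries k :=
  if h : N = 0 then 0 else @qExpand k _ N ⟨h⟩ (jqModC k)

theorem Jd_eq (N : ℕ) [NeZero N] : Jd k N = qExpand k N (jqModC k) := by
  unfold Jd
  rw [dif_neg (NeZero.ne N)]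

theorem Jd_one : Jd k 1 = jqModC k := by
  rw [Jd_eq, qExpand_one_apply]

theorem qExpand_Jd (M N : ℕ) [NeZero M] : qExpand k M (Jd k N) = Jd k (M * N) := by
  rcases eq_or_ne N 0 with rfl | hN
  · simp [Jd]
  · have : NeZero N := ⟨hN⟩
    have : NeZero (M * N) := ⟨Nat.mul_ne_zero (NeZero.ne M) hN⟩
    rw [Jd_eq, Jd_eq, qExpand_qExpand]

theorem Jd_coeff_self (N : ℕ) [NeZero N] : (Jd k N).coeff (-(N : ℤ)) = 1 := by
  rw [Jd_eq, show -(N : ℤ) = (N : ℤ) * (-1) by ring, qExpand_coeff_mul, coeff_jqModC_neg_one]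

theorem Jd_coeff_of_lt (N : ℕ) [NeZero N] {m : ℤ} (hm : m < -(N : ℤ)) : (Jd k N).coeff m = 0 := by
  rw [Jd_eq]
  by_cases h : (N : ℤ) ∣ m
  · obtain ⟨n, rfl⟩ := h
    rw [qExpand_coeff_mul]
    apply coeff_jqModC_of_lt
    have hN : (0 : ℤ) < N := by exact_mod_cast Nat.pos_of_ne_zero (NeZero.ne N)
    nlinarith
  · exact qExpand_coeff_of_not_dvd N _ h

theorem jev_coeff_of_lt (P : Polynomial k) {m : ℤ} (hm : m < -(P.natDegree : ℤ)) :
    (jev k P).coeff m = 0 := by
  rw [jev, Polynomial.coe_eval₂RingHom, Polynomial.eval₂_eq_sum_range, HahnSeries.coeff_sum]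
  refine Finset.sum_eq_zero fun i hi => ?_
  rw [Finset.mem_range] at hi
  rw [HahnSeries.C_apply, HahnSeries.coeff_single_mul, sub_zero,
    coeff_jqModC_pow_of_lt k (b := i) (m := m) (by omega), mul_zero]

theorem jev_coeff_natDegree (P : Polynomial k) :
    (jev k P).coeff (-(P.natDegree : ℤ)) = P.leadingCoeff := by
  rw [jev, Polynomial.coe_eval₂RingHom, Polynomial.eval₂_eq_sum_range, HahnSeries.coeff_sum,
    Finset.sum_range_succ, Finset.sum_eq_zero, zero_add]
  · rw [HahnSeries.C_apply, HahnSeries.coeff_single_mul, sub_zero, coeff_jqModC_pow_self, mul_one]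
    rfl
  · intro i hi
    rw [Finset.mem_range] at hi
    rw [HahnSeries.C_apply, HahnSeries.coeff_single_mul, sub_zero,
      coeff_jqModC_pow_of_lt k (b := i) (by omega), mul_zero]

theorem jev_injective : Function.Injective (jev k) := by
  rw [injective_iff_map_eq_zero]
  intro P hP
  have h := jev_coeff_natDegree k P
  rw [hP, HahnSeries.coeff_zero] at h
  exact Polynomial.leadingCoeff_eq_zero.mp h.symm

theorem C_eq_algebraMap (c : k) : HahnSeries.C c = algebraMap k (LaurentSeries k) c := by
  rw [algebraMap_laurentSeries_eq_single, HahnSeries.C_apply]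

theorem jev_eq_aeval (P : Polynomial k) : jev k P = Polynomial.aeval (jqModC k) P := by
  rw [jev, Polynomial.coe_eval₂RingHom, Polynomial.aeval_def]
  congr 1
  apply RingHom.ext
  intro c
  exact C_eq_algebraMap k c

end Basic

section Fam

variable (p : ℕ) [hp : Fact p.Prime] {k : Type*} [Field k] (z : kˣ) (hz : IsPrimitiveRoot z p)

theorem xfam_none : xfam p k z none = Jd k (p * p) := by
  rw [Jd_eq]
  rfl

theorem xfam_some_coeff_neg_one (b : ZMod p) :
    (xfam p k z (some b)).coeff (-1) = (((z ^ b.val)⁻¹ : kˣ) : k) := by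
  show (twist (z ^ b.val) (jqModC k)).coeff (-1) = _
  rw [twist_coeff, coeff_jqModC_neg_one, mul_one, zpow_neg_one]

theorem xfam_some_coeff_of_lt (b : ZMod p) {m : ℤ} (hm : m < -1) :
    (xfam p k z (some b)).coeff m = 0 := by
  show (twist (z ^ b.val) (jqModC k)).coeff m = _
  rw [twist_coeff, coeff_jqModC_of_lt k hm, mul_zero]

include hz in
theorem xfam_injective : Function.Injective (xfam p k z) := by
  have hp2 := hp.out.two_le
  have key : ∀ b : ZMod p, xfam p k z none ≠ xfam p k z (some b) := by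
    intro b h
    have h1 := congrArg (fun F => HahnSeries.coeff F (-((p * p : ℕ) : ℤ))) h
    simp only [xfam_none, Jd_coeff_self] at h1
    rw [xfam_some_coeff_of_lt] at h1
    · exact one_ne_zero h1
    · push_cast
      nlinarith
  intro i j hij
  cases i with
  | none =>
    cases j with
    | none => rfl
    | some b => exact absurd hij (key b)
  | some a =>
    cases j with
    | none => exact absurd hij.symm (key a)
    | some b =>
      have h1 := congrArg (fun F => HahnSeries.coeff F (-1)) hij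
      simp only [xfam_some_coeff_neg_one] at h1
      have h2 : z ^ a.val = z ^ b.val := inv_injective (Units.ext h1)
      have h3 := hz.pow_inj (ZMod.val_lt a) (ZMod.val_lt b) h2
      rw [ZMod.val_injective p h3]

end Fam

section PropA

variable (p : ℕ) [hp : Fact p.Prime] {k : Type*} [Field k] (z : kˣ) (hz : IsPrimitiveRoot z p)

variable (k) in
/-- `p^{12} Δ(q^p)/Δ(q)` -/
def uSer : LaurentSeries k :=
  HahnSeries.C ((p : k) ^ 12) * qExpand k p (DeltaSer k) * DeltaInvSer k

theorem gfam_none : gfam p k z none = qExpand k p (uSer p k) := by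
  rw [uSer, map_mul, map_mul, qExpand_C, qExpand_qExpand]
  rfl

theorem DeltaSer_coeff_of_lt (R : Type*) [CommRing R] {m : ℤ} (hm : m < 1) :
    (DeltaSer R).coeff m = 0 := by
  rw [DeltaSer, HahnSeries.coeff_single_mul, one_mul]
  exact ofPowerSeries_coeff_of_neg _ (by omega)

theorem DeltaSer_coeff_one (R : Type*) [CommRing R] : (DeltaSer R).coeff 1 = 1 := by
  rw [DeltaSer, HahnSeries.coeff_single_mul, one_mul, sub_self,
    show (0 : ℤ) = ((0 : ℕ) : ℤ) from rfl, HahnSeries.ofPowerSeries_apply_coeff,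
    PowerSeries.coeff_map, PowerSeries.coeff_zero_eq_constantCoeff, constantCoeff_dedekindEtaUnit,
    map_one]

theorem DeltaSer_ne_zero : DeltaSer k ≠ 0 := fun h => by
  have := DeltaSer_coeff_one k
  rw [h] at this
  simp at this

theorem DeltaSer_order : (DeltaSer k).order = 1 := by
  apply le_antisymm
  · apply HahnSeries.order_le_of_coeff_ne_zero
    rw [DeltaSer_coeff_one]
    exact one_ne_zero
  · by_contra h
    push Not at h
    exact DeltaSer_ne_zero (HahnSeries.coeff_order_eq_zero.mp (DeltaSer_coeff_of_lt k h))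

theorem order_qExpand (N : ℕ) [NeZero N] (F : LaurentSeries k) :
    (qExpand k N F).order = N * F.order := by
  rcases eq_or_ne F 0 with rfl | hF
  · simp
  have hN : (0 : ℤ) < N := by exact_mod_cast Nat.pos_of_ne_zero (NeZero.ne N)
  apply le_antisymm
  · apply HahnSeries.order_le_of_coeff_ne_zero
    rw [qExpand_coeff_mul]
    exact mt HahnSeries.coeff_order_eq_zero.mp hF
  · by_contra h
    push Not at h
    have hne : qExpand k N F ≠ 0 := fun h0 => hF (qExpand_injective N (by rw [h0, map_zero]))
    have h1 := mt HahnSeries.coeff_order_eq_zero.mp hne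
    by_cases hd : (N : ℤ) ∣ (qExpand k N F).order
    · obtain ⟨m, hm⟩ := hd
      rw [hm] at h
      have hmF : m < F.order := lt_of_mul_lt_mul_left h hN.le
      rw [hm, qExpand_coeff_mul] at h1
      exact h1 (HahnSeries.coeff_eq_zero_of_lt_order hmF)
    · exact h1 (qExpand_coeff_of_not_dvd N F hd)

theorem DeltaInvSer_eq : DeltaInvSer k = (DeltaSer k)⁻¹ :=
  eq_inv_of_mul_eq_one_right (DeltaSer_mul_inv k)

theorem uSer_ne_zero (hpk : (p : k) ≠ 0) : uSer p k ≠ 0 := by
  rw [uSer]
  refine mul_ne_zero (mul_ne_zero ?_ ?_) ?_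
  · rw [HahnSeries.C_apply]
    simpa using hpk
  · intro h
    exact DeltaSer_ne_zero (qExpand_injective p (by rw [h, map_zero]))
  · rw [DeltaInvSer_eq]
    exact inv_ne_zero DeltaSer_ne_zero

theorem uSer_order (hpk : (p : k) ≠ 0) : (uSer p k).order = p - 1 := by
  have h0 := uSer_ne_zero p hpk
  have h1 : uSer p k * DeltaSer k = HahnSeries.C ((p : k) ^ 12) * qExpand k p (DeltaSer k) := by
    rw [uSer, mul_assoc, mul_comm (DeltaInvSer k), DeltaSer_mul_inv, mul_one]
  have h2 := congrArg HahnSeries.order h1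
  have hC : (HahnSeries.C ((p : k) ^ 12) : LaurentSeries k) ≠ 0 := by
    rw [HahnSeries.C_apply]
    simpa using hpk
  have hq : qExpand k p (DeltaSer k) ≠ 0 := fun h =>
    DeltaSer_ne_zero (qExpand_injective p (by rw [h, map_zero]))
  rw [HahnSeries.order_mul h0 DeltaSer_ne_zero, HahnSeries.order_mul hC hq, order_qExpand,
    DeltaSer_order, HahnSeries.C_apply, HahnSeries.order_single (by simpa using hpk)] at h2
  linarith

/-- an element of `k(j)` integral over `k[j]` is in `k[j]` -/
theorem mem_range_jev_of_integral {u : LaurentSeries k}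
    (hu : u ∈ IntermediateField.adjoin k {jqModC k}) (hint : (jev k).IsIntegralElem u) :
    ∃ P, jev k P = u := by
  let _ := (jev k).toAlgebra
  let Fr := FractionRing (Polynomial k)
  let L : Fr →ₐ[Polynomial k] LaurentSeries k :=
    IsFractionRing.liftAlgHom (g := Algebra.ofId (Polynomial k) (LaurentSeries k)) (jev_injective k)
  rw [IntermediateField.mem_adjoin_simple_iff] at hu
  obtain ⟨r, s, rfl⟩ := hu
  have hx : L (algebraMap (Polynomial k) Fr r / algebraMap (Polynomial k) Fr s) =
      Polynomial.aeval (jqModC k) r / Polynomial.aeval (jqModC k) s := by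
    rw [map_div₀, AlgHom.commutes, AlgHom.commutes, ← jev_eq_aeval, ← jev_eq_aeval]
    rfl
  have hint2 : IsIntegral (Polynomial k)
      (algebraMap (Polynomial k) Fr r / algebraMap (Polynomial k) Fr s) := by
    rw [← isIntegral_algHom_iff L (L : Fr →+* LaurentSeries k).injective, hx]
    exact hint
  obtain ⟨P, hP⟩ := IsIntegrallyClosed.isIntegral_iff.mp hint2
  refine ⟨P, ?_⟩
  rw [← hx, ← hP, AlgHom.commutes]
  rfl

theorem jev_mem (K : IntermediateField k (LaurentSeries k)) (hK : jqModC k ∈ K)
    (P : Polynomial k) : jev k P ∈ K := by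
  rw [jev_eq_aeval]
  exact Algebra.adjoin_le (S := K.toSubalgebra) (by simpa using hK)
    (Polynomial.aeval_mem_adjoin_singleton k _)

theorem eval₂_jev_mem (K : IntermediateField k (LaurentSeries k)) (hK : jqModC k ∈ K)
    {y : LaurentSeries k} (hy : y ∈ K)
    (P : Polynomial (Polynomial k)) : P.eval₂ (jev k) y ∈ K := by
  rw [Polynomial.eval₂_eq_sum_range]
  exact sum_mem fun i _ => mul_mem (jev_mem K hK _) (pow_mem hy i)

theorem derivative_prodPoly {I B : Type*} [Fintype I] [DecidableEq I] [CommRing B] (x : I → B) :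
    Polynomial.derivative (prodPoly x) = sumPoly x (fun _ => 1) := by
  rw [prodPoly, Polynomial.derivative_prod_finset, sumPoly]
  refine Finset.sum_congr rfl fun i _ => ?_
  simp

theorem qExpand_eval₂ (P : Polynomial (Polynomial k)) (y : LaurentSeries k) :
    qExpand k p (P.eval₂ (jev k) y) =
      (P.map ((qExpand k p).comp (jev k))).eval (qExpand k p y) := by
  rw [Polynomial.hom_eval₂, Polynomial.eval_map]

include hz in
theorem uSer_isIntegral : (jev k).IsIntegralElem (uSer p k) := by
  obtain ⟨U, hU⟩ := exists_U p z hz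
  refine ⟨U, ?_, ?_⟩
  · apply Polynomial.monic_of_injective
      (f := (qExpand k p).comp (jev k)) ((qExpand_injective p).comp (jev_injective k))
    rw [hU]
    exact prodPoly_monic _
  · apply qExpand_injective p
    rw [map_zero, qExpand_eval₂, hU, ← gfam_none p z, prodPoly_eval]

include hz in
theorem uSer_mem (K : IntermediateField k (LaurentSeries k)) (hK : jqModC k ∈ K)
    (hp : Jd k p ∈ K) : uSer p k ∈ K := by
  obtain ⟨Φ, hΦ⟩ := exists_Phi p z hz
  obtain ⟨W, hW⟩ := exists_W p z hz
  have hx : qExpand k p (Jd k p) = xfam p k z none := by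
    rw [qExpand_Jd, xfam_none]
  have hw : qExpand k p (W.eval₂ (jev k) (Jd k p)) =
      gfam p k z none * ∏ i ∈ Finset.univ.erase none, (xfam p k z none - xfam p k z i) := by
    rw [qExpand_eval₂, hW, hx, sumPoly_eval]
  have hv : qExpand k p ((Polynomial.derivative Φ).eval₂ (jev k) (Jd k p)) =
      ∏ i ∈ Finset.univ.erase none, (xfam p k z none - xfam p k z i) := by
    rw [qExpand_eval₂, ← Polynomial.derivative_map, hΦ, hx, derivative_prodPoly, sumPoly_eval,
      one_mul]
  have hv0 : (Polynomial.derivative Φ).eval₂ (jev k) (Jd k p) ≠ 0 := by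
    intro h
    rw [h, map_zero] at hv
    have := hv.symm
    rw [Finset.prod_eq_zero_iff] at this
    obtain ⟨i, hi, h0⟩ := this
    rw [sub_eq_zero] at h0
    exact (Finset.ne_of_mem_erase hi) (xfam_injective p z hz h0).symm
  have huv : W.eval₂ (jev k) (Jd k p) =
      uSer p k * (Polynomial.derivative Φ).eval₂ (jev k) (Jd k p) := by
    apply qExpand_injective p
    rw [map_mul, hw, hv, gfam_none]
  have : uSer p k = W.eval₂ (jev k) (Jd k p) / (Polynomial.derivative Φ).eval₂ (jev k) (Jd k p) := by
    rw [huv, mul_div_cancel_right₀ _ hv0]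
  rw [this]
  exact div_mem (eval₂_jev_mem K hK hp _) (eval₂_jev_mem K hK hp _)

include hz in
/-- Proposition A -/
theorem Jd_prime_notMem (hpk : (p : k) ≠ 0) :
    Jd k p ∉ IntermediateField.adjoin k {jqModC k} := by
  intro h
  have hK : jqModC k ∈ IntermediateField.adjoin k {jqModC k} :=
    IntermediateField.mem_adjoin_simple_self k _
  obtain ⟨P, hP⟩ := mem_range_jev_of_integral (uSer_mem p z hz _ hK h) (uSer_isIntegral p z hz)
  have h0 := uSer_ne_zero p hpk
  have hP0 : P ≠ 0 := by
    rintro rfl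
    rw [map_zero] at hP
    exact h0 hP.symm
  have h1 := jev_coeff_natDegree k P
  rw [hP, HahnSeries.coeff_eq_zero_of_lt_order] at h1
  · exact hP0 (Polynomial.leadingCoeff_eq_zero.mp h1.symm)
  · rw [uSer_order p hpk]
    have := hp.out.two_le
    omega

end PropA

end Fermat.Agent.ModFun
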