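import Mathlib
import Fermat.Agent.ModFun.Tower1

/-!
Field theory for the degrees of the modular function fields.
-/

set_option autoImplicit false

noncomputable section

open HahnSeries ModularCurve IntermediateField

namespace Fermat.Agent.ModFun

/-! ### general lemmas -/

section General

theorem prodPoly_dvd_roots {K Ω : Type*} [Field K] [Field Ω] [Algebra K Ω]
    {I : Type*} [Fintype I] (x : I → Ω)
    {f m : Polynomial K} (hf : f.map (algebraMap K Ω) = prodPoly x) (hm : m ∣ f) {w : Ω}
    (hw : Polynomial.aeval w m = 0) : ∃ i, x i = w := by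
  obtain ⟨c, rfl⟩ := hm
  have : (prodPoly x).eval w = 0 := by
    rw [← hf, Polynomial.eval_map, ← Polynomial.aeval_def, map_mul, hw, zero_mul]
  rw [prodPoly, Polynomial.eval_prod, Finset.prod_eq_zero_iff] at this
  obtain ⟨i, -, hi⟩ := this
  refine ⟨i, ?_⟩
  simp only [Polynomial.eval_sub, Polynomial.eval_X, Polynomial.eval_C, sub_eq_zero] at hi
  exact hi.symm

/-- roots of a divisor of a product of distinct linear factors -/
theorem card_roots_of_dvd {K Ω : Type*} [Field K] [Field Ω] [Algebra K Ω]
    {I : Type*} [Fintype I] (x : I → Ω) (hx : Function.Injective x)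
    {f m : Polynomial K} (hf : f.map (algebraMap K Ω) = prodPoly x) (hm : m ∣ f) :
    (m.map (algebraMap K Ω)).roots.Nodup ∧
      Multiset.card (m.map (algebraMap K Ω)).roots = m.natDegree := by
  have hf0 : prodPoly x ≠ 0 := (prodPoly_monic x).ne_zero
  have hd : m.map (algebraMap K Ω) ∣ prodPoly x := by
    rw [← hf]
    exact Polynomial.map_dvd _ hm
  constructor
  · refine Multiset.nodup_of_le (Polynomial.roots.le_of_dvd hf0 hd) ?_
    have : prodPoly x = ((Finset.univ.val.map x).map
        fun a => Polynomial.X - Polynomial.C a).prod := by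
      rw [Multiset.map_map]
      rfl
    rw [this, Polynomial.roots_multiset_prod_X_sub_C]
    exact Multiset.Nodup.map hx Finset.univ.nodup
  · have hs : (prodPoly x).Splits := Polynomial.Splits.prod fun i _ => Polynomial.Splits.X_sub_C _
    rw [← (hs.of_dvd hf0 hd).natDegree_eq_card_roots, Polynomial.natDegree_map]

theorem mem_of_common_root {K Ω : Type*} [Field K] [Field Ω] [Algebra K Ω]
    {I I' : Type*} [Fintype I] [Fintype I']
    (x : I → Ω) (y : I' → Ω) (hx : Function.Injective x) (f g : Polynomial K)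
    (hf : f.map (algebraMap K Ω) = prodPoly x) (hg : g.map (algebraMap K Ω) = prodPoly y)
    (i0 : I) (i0' : I') (h0 : x i0 = y i0') (huniq : ∀ i i', x i = y i' → i = i0) :
    x i0 ∈ (algebraMap K Ω).range := by
  have hfr : Polynomial.aeval (x i0) f = 0 := by
    rw [Polynomial.aeval_def, ← Polynomial.eval_map, hf, prodPoly_eval]
  have hgr : Polynomial.aeval (x i0) g = 0 := by
    rw [Polynomial.aeval_def, ← Polynomial.eval_map, hg, h0, prodPoly_eval]
  have hm1 := minpoly.dvd K (x i0) hfr
  have hm2 := minpoly.dvd K (x i0) hgr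
  have hfmon : f.Monic := by
    apply Polynomial.monic_of_injective (algebraMap K Ω).injective
    rw [hf]
    exact prodPoly_monic x
  have hint : IsIntegral K (x i0) := ⟨f, hfmon, hfr⟩
  obtain ⟨hnd, hcard⟩ := card_roots_of_dvd x hx hf hm1
  rw [← minpoly.natDegree_eq_one_iff]
  apply le_antisymm
  · rw [← hcard]
    have hsub : ∀ w ∈ ((minpoly K (x i0)).map (algebraMap K Ω)).roots, w = x i0 := by
      intro w hw
      have hw' := Polynomial.isRoot_of_mem_roots hw
      rw [Polynomial.IsRoot.def, Polynomial.eval_map, ← Polynomial.aeval_def] at hw'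
      obtain ⟨i, hi⟩ := prodPoly_dvd_roots x hf hm1 hw'
      obtain ⟨i', hi'⟩ := prodPoly_dvd_roots y hg hm2 hw'
      rw [← hi, huniq i i' (hi.trans hi'.symm)]
    classical
    rw [Multiset.eq_replicate_card.mpr hsub] at hnd
    rw [Multiset.nodup_iff_count_le_one] at hnd
    have := hnd (x i0)
    rwa [Multiset.count_replicate_self] at this
  · exact minpoly.natDegree_pos hint

theorem relfinrank_adjoin {k Ω : Type*} [Field k] [Field Ω] [Algebra k Ω]
    (A : IntermediateField k Ω) (x : Ω) (hx : IsIntegral A x) :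
    relfinrank A (A ⊔ k⟮x⟯) = (minpoly A x).natDegree := by
  have h : A ⊔ k⟮x⟯ = (adjoin A ({x} : Set Ω)).restrictScalars k :=
    (restrictScalars_adjoin_eq_sup k A ({x} : Set Ω)).symm
  rw [relfinrank_eq_finrank_of_le (le_sup_left : A ≤ A ⊔ k⟮x⟯), ← adjoin.finrank hx]
  have h2 : extendScalars (le_sup_left : A ≤ A ⊔ k⟮x⟯) = adjoin A ({x} : Set Ω) := by
    apply restrictScalars_injective k
    rw [← h]
    rfl
  rw [h2]

/-- if `[B:A]` is finite then every element of `B` is integral over `A`, with degree dividing. -/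
theorem integral_of_relfinrank_pos {k Ω : Type*} [Field k] [Field Ω] [Algebra k Ω]
    {A B : IntermediateField k Ω} (hAB : A ≤ B) (h : relfinrank A B ≠ 0) {x : Ω} (hx : x ∈ B) :
    IsIntegral A x := by
  rw [relfinrank_eq_finrank_of_le hAB] at h
  have hfin : FiniteDimensional A (extendScalars hAB) := Module.finite_of_finrank_pos (Nat.pos_of_ne_zero h)
  have : IsIntegral A (⟨x, hx⟩ : extendScalars hAB) := IsIntegral.of_finite A _
  exact this.map (extendScalars hAB).val

theorem natDegree_minpoly_dvd {k Ω : Type*} [Field k] [Field Ω] [Algebra k Ω]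
    {A B : IntermediateField k Ω} (hAB : A ≤ B) (h : relfinrank A B ≠ 0) {x : Ω} (hx : x ∈ B) :
    (minpoly A x).natDegree ∣ relfinrank A B := by
  rw [← relfinrank_adjoin A x (integral_of_relfinrank_pos hAB h hx)]
  have hle : A ⊔ k⟮x⟯ ≤ B := sup_le hAB (by simpa using hx)
  exact ⟨_, (relfinrank_mul_relfinrank le_sup_left hle).symm⟩

end General

/-! ### the fields `E_N` -/

section EN

variable (k : Type*) [Field k]

theorem Jd_mem {N d : ℕ} (hN : N ≠ 0) (hd : d ∣ N) : Jd k d ∈ modularFunctionFieldFullC k N := by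
  have : NeZero d := ⟨fun h => hN (by rw [h, zero_dvd_iff] at hd; exact hd)⟩
  rw [Jd_eq]
  exact jqModCd_mem_full k N hd

theorem EN_le {N : ℕ} (A : IntermediateField k (LaurentSeries k))
    (h : ∀ d, d ∣ N → Jd k d ∈ A) : modularFunctionFieldFullC k N ≤ A := by
  rw [modularFunctionFieldFullC, adjoin_le_iff]
  rintro x ⟨d, hd, hdN, rfl⟩
  rw [← Jd_eq]
  exact h d hdN

theorem EN_one : modularFunctionFieldFullC k 1 = k⟮Jd k 1⟯ := by
  apply le_antisymm
  · apply EN_le
    intro d hd
    rw [Nat.dvd_one.mp hd]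
    exact mem_adjoin_simple_self k _
  · rw [adjoin_simple_le_iff]
    exact Jd_mem k one_ne_zero dvd_rfl

/-- the field `k(J_{pd} : d ∣ N)`. -/
def EM (p N : ℕ) [NeZero p] : IntermediateField k (LaurentSeries k) :=
  (modularFunctionFieldFullC k N).map (qExpandAlgHomC k p)

theorem EM_le_EN {p N : ℕ} [NeZero p] (hN : N ≠ 0) :
    EM k p N ≤ modularFunctionFieldFullC k (N * p) := by
  rw [EM, map_le_iff_le_comap]
  apply EN_le
  intro d hd
  show qExpandAlgHomC k p (Jd k d) ∈ modularFunctionFieldFullC k (N * p)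
  rw [qExpandAlgHomC_apply, qExpand_Jd]
  exact Jd_mem k (Nat.mul_ne_zero hN (NeZero.ne p)) (by rw [mul_comm N p]; exact mul_dvd_mul_left p hd)

theorem Jd_mem_EM_iff {p N : ℕ} [NeZero p] (M : ℕ) :
    Jd k (p * M) ∈ EM k p N ↔ Jd k M ∈ modularFunctionFieldFullC k N := by
  rw [EM, ← qExpand_Jd]
  constructor
  · rintro ⟨y, hy, h⟩
    rwa [← qExpand_injective p h]
  · intro h
    exact ⟨_, h, rfl⟩

theorem map_adjoin_Jd (p M : ℕ) [NeZero p] :
    (k⟮Jd k M⟯).map (qExpandAlgHomC k p) = k⟮Jd k (p * M)⟯ := by
  rw [adjoin_map, Set.image_singleton, qExpandAlgHomC_apply, qExpand_Jd]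

end EN

/-! ### the polynomial -/

section Poly

variable (p : ℕ) [hp : Fact p.Prime] {k : Type*} [Field k] (z : kˣ) (hz : IsPrimitiveRoot z p)

/-- the roots `j(q^{M p²}), j(ζ^b q^M)`. -/
def rootsM (M : ℕ) [NeZero M] (i : Option (ZMod p)) : LaurentSeries k := qExpand k M (xfam p k z i)

theorem rootsM_none (M : ℕ) [NeZero M] : rootsM p z M none = Jd k (M * (p * p)) := by
  rw [rootsM, xfam_none, qExpand_Jd]

theorem xfam_some_zero : xfam p k z (some 0) = Jd k 1 := by
  show twist (z ^ (0 : ZMod p).val) (jqModC k) = _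
  rw [ZMod.val_zero, pow_zero, twist_one, Jd_one]

theorem rootsM_some_zero (M : ℕ) [NeZero M] : rootsM p z M (some 0) = Jd k M := by
  rw [rootsM, xfam_some_zero, qExpand_Jd, mul_one]

include hz in
theorem rootsM_injective (M : ℕ) [NeZero M] : Function.Injective (rootsM p z M) :=
  (qExpand_injective M).comp (xfam_injective p z hz)

theorem qExpand_qExpand_jev (M : ℕ) [NeZero M] (Q : Polynomial k) :
    qExpand k M (qExpand k p (jev k Q)) = Polynomial.aeval (Jd k (M * p)) Q := by
  have h : ((qExpand k M).comp ((qExpand k p).comp (jev k))) =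
      (Polynomial.aeval (Jd k (M * p)) : Polynomial k →ₐ[k] _).toRingHom := by
    apply Polynomial.ringHom_ext
    · intro a
      rw [RingHom.comp_apply, RingHom.comp_apply, jev_C, qExpand_C, qExpand_C, C_eq_algebraMap]
      simp
    · simp only [RingHom.comp_apply, jev_X]
      rw [← Jd_one, qExpand_Jd, qExpand_Jd, mul_one]
      simp
  exact congrArg (fun f => f Q) h

include hz in
theorem exists_lift_Phi (M : ℕ) [NeZero M] (A : IntermediateField k (LaurentSeries k))
    (hA : Jd k (M * p) ∈ A) :
    ∃ f : Polynomial A, f.map (algebraMap A (LaurentSeries k)) = prodPoly (rootsM p z M) := by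
  obtain ⟨P, hP⟩ := exists_Phi p z hz
  have h : prodPoly (rootsM p z M) =
      P.map ((qExpand k M).comp ((qExpand k p).comp (jev k))) := by
    rw [← Polynomial.map_map, hP, map_prodPoly]
    rfl
  rw [h, ← Polynomial.mem_lifts, Polynomial.lifts_iff_coeff_lifts]
  intro n
  rw [Polynomial.coeff_map, RingHom.comp_apply, RingHom.comp_apply, qExpand_qExpand_jev]
  have : Polynomial.aeval (Jd k (M * p)) (P.coeff n) ∈ A :=
    Algebra.adjoin_le (S := A.toSubalgebra) (by simpa using hA)
      (Polynomial.aeval_mem_adjoin_singleton k _)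
  exact ⟨⟨_, this⟩, rfl⟩

end Poly

/-! ### the lemma (★) -/

section Star

variable {k : Type*} [Field k]

theorem rootsM_some_order (p : ℕ) [hp : Fact p.Prime] (z : kˣ) (M : ℕ) [NeZero M] (b : ZMod p) :
    (rootsM p z M (some b)).order = -(M : ℤ) := by
  rw [rootsM, order_qExpand]
  have : (xfam p k z (some b)).order = -1 := by
    have hne : xfam p k z (some b) ≠ 0 := by
      intro h
      have h1 := xfam_some_coeff_neg_one p z b
      rw [h, HahnSeries.coeff_zero] at h1
      exact (Units.ne_zero _) h1.symm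
    apply le_antisymm
    · apply HahnSeries.order_le_of_coeff_ne_zero
      rw [xfam_some_coeff_neg_one]
      exact Units.ne_zero _
    · by_contra h
      push Not at h
      exact hne (HahnSeries.coeff_order_eq_zero.mp (xfam_some_coeff_of_lt p z b h))
  rw [this]
  ring

theorem Jd_ne_zero (N : ℕ) [NeZero N] : Jd k N ≠ 0 := fun h => by
  have := Jd_coeff_self k N
  rw [h] at this
  simp at this

theorem Jd_order (N : ℕ) [NeZero N] : (Jd k N).order = -(N : ℤ) := by
  apply le_antisymm
  · apply HahnSeries.order_le_of_coeff_ne_zero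
    rw [Jd_coeff_self]
    exact one_ne_zero
  · by_contra h
    push Not at h
    exact Jd_ne_zero N (HahnSeries.coeff_order_eq_zero.mp (Jd_coeff_of_lt k N h))

theorem star (p r : ℕ) [hp : Fact p.Prime] [hr : Fact r.Prime] (hpr : p ≠ r)
    (z : kˣ) (hz : IsPrimitiveRoot z p) (w : kˣ) (hw : IsPrimitiveRoot w r)
    (d : ℕ) [NeZero d] (A : IntermediateField k (LaurentSeries k))
    (h1 : Jd k (d * p) ∈ A) (h2 : Jd k (d * r) ∈ A) : Jd k (d * p * r) ∈ A := by
  have hp2 := hp.out.two_le
  have hr2 := hr.out.two_le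
  have hd : 0 < d := Nat.pos_of_ne_zero (NeZero.ne d)
  have : NeZero (p * r) := ⟨Nat.mul_ne_zero hp.out.ne_zero hr.out.ne_zero⟩
  have : NeZero (d * (p * p)) := ⟨by positivity⟩
  have : NeZero (d * (r * r)) := ⟨by positivity⟩
  have : NeZero (d * (p * p) * (r * r)) := ⟨by positivity⟩
  set A' := A.map (qExpandAlgHomC k (p * r)) with hA'
  have h1' : Jd k (d * (p * p) * r) ∈ A' :=
    ⟨_, h1, by
      show qExpand k (p * r) (Jd k (d * p)) = _
      rw [qExpand_Jd]; congr 1; ring⟩
  have h2' : Jd k (d * (r * r) * p) ∈ A' :=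
    ⟨_, h2, by
      show qExpand k (p * r) (Jd k (d * r)) = _
      rw [qExpand_Jd]; congr 1; ring⟩
  obtain ⟨f, hf⟩ := exists_lift_Phi r w hw (d * (p * p)) A' h1'
  obtain ⟨g, hg⟩ := exists_lift_Phi p z hz (d * (r * r)) A' h2'
  have key := mem_of_common_root (K := A') (rootsM r w (d * (p * p))) (rootsM p z (d * (r * r)))
    (rootsM_injective r w hw _) f g hf hg none none (by
      rw [rootsM_none, rootsM_none]; congr 1; ring) (by
      intro i i' hii
      cases i with
      | none => rfl
      | some b =>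
        exfalso
        have ho := congrArg HahnSeries.order hii
        rw [rootsM_some_order] at ho
        cases i' with
        | none =>
          rw [rootsM_none, show d * (r * r) * (p * p) = d * (p * p) * (r * r) by ring, Jd_order] at ho
          have : d * (p * p) * (r * r) = d * (p * p) * 1 := by
            rw [mul_one]; exact_mod_cast (neg_injective ho).symm
          have h3 : r * r = 1 := Nat.eq_of_mul_eq_mul_left (by positivity) this
          nlinarith
        | some c =>
          rw [rootsM_some_order] at ho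
          have h3 : d * (p * p) = d * (r * r) := by exact_mod_cast neg_injective ho
          have h4 : p * p = r * r := Nat.eq_of_mul_eq_mul_left hd h3
          exact hpr (Nat.mul_self_inj.mp h4))
  obtain ⟨⟨y, hy⟩, hy2⟩ := key
  rw [rootsM_none] at hy2
  obtain ⟨y', hy', hy3⟩ := hy
  have h5 : qExpand k (p * r) y' = qExpand k (p * r) (Jd k (d * p * r)) := by
    rw [qExpand_Jd, show p * r * (d * p * r) = d * (p * p) * (r * r) by ring, ← hy2]
    exact hy3
  rw [← qExpand_injective _ h5]
  exact hy'

end Star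

end Fermat.Agent.ModFun
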