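import Mathlib
import Fermat.Agent.ModFun.Tower2

/-!
Degrees of the modular function fields.
-/

set_option autoImplicit false

noncomputable section

open HahnSeries ModularCurve IntermediateField

namespace Fermat.Agent.ModFun

section Twisting

variable (p : ℕ) [hp : Fact p.Prime] {k : Type*} [Field k] (z : kˣ) (hz : IsPrimitiveRoot z p)

theorem twist_root {A : IntermediateField k (LaurentSeries k)} 
    (hA : ∀ a ∈ A, ∃ b, qExpand k p b = a) (c : kˣ) (hc : c ^ p = 1) (m : Polynomial A)
    (x : LaurentSeries k) (hx : Polynomial.aeval x m = 0) :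
    Polynomial.aeval (twist c x) m = 0 := by
  have h : (twist c).comp (algebraMap A (LaurentSeries k)) = algebraMap A (LaurentSeries k) := by
    ext1 a
    obtain ⟨b, hb⟩ := hA a a.2
    show twist c (a : LaurentSeries k) = a
    rw [← hb, twist_qExpand c p hc]
  have h2 := congrArg (twist c) hx
  rw [Polynomial.aeval_def, Polynomial.hom_eval₂, h, map_zero] at h2
  exact h2

theorem twist_xfam_some (b c : ZMod p) (hz : IsPrimitiveRoot z p) :
    ∃ u : kˣ, u ^ p = 1 ∧ twist u (xfam p k z (some b)) = xfam p k z (some c) := by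
  refine ⟨z ^ c.val * (z ^ b.val)⁻¹, ?_, ?_⟩
  · rw [mul_pow, inv_pow, ← pow_mul, ← pow_mul, mul_comm c.val, mul_comm b.val, pow_mul, pow_mul,
      hz.pow_eq_one]
    simp
  · show twist _ (twist (z ^ b.val) (jqModC k)) = twist (z ^ c.val) (jqModC k)
    rw [twist_twist]
    congr 1
    rw [inv_mul_cancel_right]

theorem xfam_eq_rootsM_one (i : Option (ZMod p)) : rootsM p z 1 i = xfam p k z i := by
  rw [rootsM, qExpand_one_apply]

include hz in
theorem le_natDegree_minpoly {A : IntermediateField k (LaurentSeries k)}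
    (hA : ∀ a ∈ A, ∃ b, qExpand k p b = a) (hint : IsIntegral A (Jd k 1)) :
    p ≤ (minpoly A (Jd k 1)).natDegree := by
  classical
  set m := minpoly A (Jd k 1) with hm
  have hroot : ∀ b : ZMod p, Polynomial.aeval (xfam p k z (some b)) m = 0 := by
    intro b
    obtain ⟨u, hu, hub⟩ := twist_xfam_some p z 0 b hz
    rw [← hub]
    apply twist_root p hA u hu
    rw [xfam_some_zero]
    exact minpoly.aeval _ _
  have hm0 : m.map (algebraMap A (LaurentSeries k)) ≠ 0 :=
    (Polynomial.map_ne_zero_iff (algebraMap A (LaurentSeries k)).injective).mpr (minpoly.ne_zero hint)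
  have hinj : Function.Injective fun b : ZMod p => xfam p k z (some b) :=
    (xfam_injective p z hz).comp (Option.some_injective _)
  have hcard : (Finset.univ.image fun b : ZMod p => xfam p k z (some b)).card = p := by
    rw [Finset.card_image_of_injective _ hinj, Finset.card_univ, ZMod.card]
  have hsub : (Finset.univ.image fun b : ZMod p => xfam p k z (some b)).val ≤
      (m.map (algebraMap A (LaurentSeries k))).roots := by
    rw [Finset.val_le_iff_val_subset]
    intro w hw
    simp only [Finset.mem_val, Finset.mem_image, Finset.mem_univ, true_and] at hw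
    obtain ⟨b, rfl⟩ := hw
    rw [Polynomial.mem_roots hm0, Polynomial.IsRoot.def, Polynomial.eval_map, ← Polynomial.aeval_def]
    exact hroot b
  calc p = Multiset.card (Finset.univ.image fun b : ZMod p => xfam p k z (some b)).val := by
        rw [← Finset.card_def, hcard]
    _ ≤ Multiset.card (m.map (algebraMap A (LaurentSeries k))).roots := Multiset.card_le_card hsub
    _ ≤ (m.map (algebraMap A (LaurentSeries k))).natDegree := Polynomial.card_roots' _
    _ = m.natDegree := Polynomial.natDegree_map _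

theorem integral_of_lift {A : IntermediateField k (LaurentSeries k)} {M : ℕ} [NeZero M]
    {f : Polynomial A} (hf : f.map (algebraMap A (LaurentSeries k)) = prodPoly (rootsM p z M))
    (i : Option (ZMod p)) : IsIntegral A (rootsM p z M i) ∧
      Polynomial.aeval (rootsM p z M i) f = 0 := by
  have hfmon : f.Monic := by
    apply Polynomial.monic_of_injective (algebraMap A (LaurentSeries k)).injective
    rw [hf]
    exact prodPoly_monic _
  have h0 : Polynomial.aeval (rootsM p z M i) f = 0 := by
    rw [Polynomial.aeval_def, ← Polynomial.eval_map, hf, prodPoly_eval]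
  exact ⟨⟨f, hfmon, h0⟩, h0⟩

theorem natDegree_lift {A : IntermediateField k (LaurentSeries k)} {M : ℕ} [NeZero M]
    {f : Polynomial A} (hf : f.map (algebraMap A (LaurentSeries k)) = prodPoly (rootsM p z M)) :
    f.natDegree = p + 1 ∧ f.Monic := by
  have hfmon : f.Monic := by
    apply Polynomial.monic_of_injective (algebraMap A (LaurentSeries k)).injective
    rw [hf]
    exact prodPoly_monic _
  refine ⟨?_, hfmon⟩
  rw [← Polynomial.natDegree_map (algebraMap A (LaurentSeries k)), hf, prodPoly_natDegree,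
    Fintype.card_option, ZMod.card]

include hz in
/-- Lemma B -/
theorem lemmaB {A : IntermediateField k (LaurentSeries k)}
    (hA : ∀ a ∈ A, ∃ b, qExpand k p b = a) (hp1 : Jd k p ∈ A) (hp2 : Jd k (p * p) ∉ A) :
    (minpoly A (Jd k (p * p))).natDegree = p + 1 ∧ (minpoly A (Jd k 1)).natDegree = p + 1 := by
  classical
  obtain ⟨f, hf⟩ := exists_lift_Phi p z hz 1 A (by rwa [one_mul])
  obtain ⟨hfdeg, hfmon⟩ := natDegree_lift p z hf
  have hnone : rootsM p z 1 none = Jd k (p * p) := by rw [rootsM_none, one_mul]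
  have hzero : rootsM p z 1 (some 0) = Jd k 1 := rootsM_some_zero p z 1
  obtain ⟨hint, haev⟩ := integral_of_lift p z hf none
  rw [hnone] at hint haev
  set m := minpoly A (Jd k (p * p)) with hm
  have hmf : m ∣ f := minpoly.dvd _ _ haev
  obtain ⟨hnd, hcard⟩ := card_roots_of_dvd (rootsM p z 1) (rootsM_injective p z hz 1) hf hmf
  have hm0 : m.map (algebraMap A (LaurentSeries k)) ≠ 0 :=
    (Polynomial.map_ne_zero_iff (algebraMap A (LaurentSeries k)).injective).mpr (minpoly.ne_zero hint)
  -- another root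
  have hdeg2 : m.natDegree ≠ 1 := by
    intro h
    rw [hm, minpoly.natDegree_eq_one_iff] at h
    obtain ⟨a, ha⟩ := h
    exact hp2 (ha ▸ a.2)
  have hdegpos : 0 < m.natDegree := minpoly.natDegree_pos hint
  have hex : ∃ b : ZMod p, Polynomial.aeval (xfam p k z (some b)) m = 0 := by
    by_contra hcon
    push Not at hcon
    have hall : ∀ w ∈ (m.map (algebraMap A (LaurentSeries k))).roots, w = Jd k (p * p) := by
      intro w hw
      rw [Polynomial.mem_roots hm0, Polynomial.IsRoot.def, Polynomial.eval_map,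
        ← Polynomial.aeval_def] at hw
      obtain ⟨i, hi⟩ := prodPoly_dvd_roots _ hf hmf hw
      cases i with
      | none => rw [← hi, hnone]
      | some b =>
        rw [xfam_eq_rootsM_one] at hi
        rw [← hi] at hw
        exact absurd hw (hcon b)
    rw [Multiset.eq_replicate_card.mpr hall] at hnd
    rw [Multiset.nodup_iff_count_le_one] at hnd
    have := hnd (Jd k (p * p))
    rw [Multiset.count_replicate_self, hcard] at this
    omega
  obtain ⟨b, hb⟩ := hex
  have hall : ∀ c : ZMod p, Polynomial.aeval (xfam p k z (some c)) m = 0 := by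
    intro c
    obtain ⟨u, hu, hub⟩ := twist_xfam_some p z b c hz
    rw [← hub]
    exact twist_root p hA u hu m _ hb
  have hall2 : ∀ i, Polynomial.aeval (xfam p k z i) m = 0 := by
    intro i
    cases i with
    | none =>
      rw [xfam_none]
      exact minpoly.aeval _ _
    | some c => exact hall c
  have hmdeg : m.natDegree = p + 1 := by
    apply le_antisymm
    · rw [← hfdeg]
      exact Polynomial.natDegree_le_of_dvd hmf hfmon.ne_zero
    · have hcardI : (Finset.univ.image fun i => xfam p k z i).card = p + 1 := by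
        rw [Finset.card_image_of_injective _ (xfam_injective p z hz), Finset.card_univ,
          Fintype.card_option, ZMod.card]
      have hsub : (Finset.univ.image fun i => xfam p k z i).val ≤
          (m.map (algebraMap A (LaurentSeries k))).roots := by
        rw [Finset.val_le_iff_val_subset]
        intro w hw
        simp only [Finset.mem_val, Finset.mem_image, Finset.mem_univ, true_and] at hw
        obtain ⟨i, rfl⟩ := hw
        rw [Polynomial.mem_roots hm0, Polynomial.IsRoot.def, Polynomial.eval_map,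
          ← Polynomial.aeval_def]
        exact hall2 i
      calc p + 1 = Multiset.card (Finset.univ.image fun i => xfam p k z i).val := by
            rw [← Finset.card_def, hcardI]
        _ ≤ Multiset.card (m.map (algebraMap A (LaurentSeries k))).roots :=
            Multiset.card_le_card hsub
        _ = m.natDegree := hcard
  refine ⟨hmdeg, ?_⟩
  have h1 : Polynomial.aeval (Jd k 1) m = 0 := by
    have := hall2 (some 0)
    rwa [xfam_some_zero] at this
  have h2 : m = minpoly A (Jd k 1) :=
    minpoly.eq_of_irreducible_of_monic (minpoly.irreducible hint) h1 (minpoly.monic hint)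
  rw [← h2, hmdeg]

end Twisting

/-! ### degrees -/

section Degrees

variable {k : Type*} [Field k]

/-- enough roots of unity for the primes dividing `N`. -/
def EnoughRoots (k : Type*) [Field k] (N : ℕ) : Prop :=
  ∀ p : ℕ, p.Prime → p ∣ N → ((p : k) ≠ 0 ∧ ∃ z : kˣ, IsPrimitiveRoot z p)

/-- `D(N) = [E_N : k(j)]`. -/
def degN (k : Type*) [Field k] (N : ℕ) : ℕ := relfinrank k⟮Jd k 1⟯ (modularFunctionFieldFullC k N)

theorem jle {N : ℕ} (hN : N ≠ 0) : k⟮Jd k 1⟯ ≤ modularFunctionFieldFullC k N := by
  rw [adjoin_simple_le_iff]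
  exact Jd_mem k hN (one_dvd N)

theorem EM_fixed (p N : ℕ) [NeZero p] : ∀ a ∈ EM k p N, ∃ b, qExpand k p b = a := by
  rintro a ⟨b, -, hb⟩
  exact ⟨b, hb⟩

/-- generation -/
theorem EN_generated (p : ℕ) [hp : Fact p.Prime] (a m : ℕ) (hm : m ≠ 0) (hpm : ¬ p ∣ m)
    (hroots : EnoughRoots k (p * m)) (A : IntermediateField k (LaurentSeries k))
    (hA : modularFunctionFieldFullC k (p ^ a * m) ≤ A) (hA2 : Jd k (p ^ (a + 1)) ∈ A) :
    modularFunctionFieldFullC k (p ^ a * m * p) ≤ A := by
  have hp0 : p ≠ 0 := hp.out.ne_zero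
  have hN : p ^ a * m ≠ 0 := Nat.mul_ne_zero (pow_ne_zero _ hp0) hm
  -- first the divisors `p^(a+1) m'`
  have key : ∀ m' : ℕ, m' ∣ m → Jd k (p ^ (a + 1) * m') ∈ A := by
    intro m'
    induction m' using Nat.strong_induction_on with
    | _ m' ih =>
      intro hm'
      rcases eq_or_ne m' 1 with rfl | h1
      · rwa [mul_one]
      · have hr := Nat.minFac_prime h1
        set r := m'.minFac with hr_def
        obtain ⟨c, hc⟩ := Nat.minFac_dvd m'
        rw [← hr_def] at hc
        have hm'0 : m' ≠ 0 := fun h => hm (by rw [h, zero_dvd_iff] at hm'; exact hm')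
        have hc0 : c ≠ 0 := by
          rintro rfl
          rw [mul_zero] at hc
          exact hm'0 hc
        have hrm : r ∣ m := (Nat.minFac_dvd m').trans hm'
        have hcm : c ∣ m := (Dvd.intro_left r hc.symm).trans hm'
        have hpr : p ≠ r := by
          rintro h
          exact hpm (h ▸ hrm)
        have : Fact r.Prime := ⟨hr⟩
        obtain ⟨-, z, hz⟩ := hroots p hp.out (dvd_mul_right p m)
        obtain ⟨-, w, hw⟩ := hroots r hr (hrm.mul_left p)
        have : NeZero (p ^ a * c) := ⟨Nat.mul_ne_zero (pow_ne_zero _ hp0) hc0⟩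
        have hlt : c < m' := by
          rw [hc]
          have := hr.two_le
          have := Nat.pos_of_ne_zero hc0
          nlinarith
        have h2 := ih c hlt hcm
        have h3 : Jd k (p ^ a * c * r) ∈ A := by
          apply hA
          apply Jd_mem k hN
          rw [mul_assoc, mul_comm c r, ← hc]
          exact mul_dvd_mul_left _ hm'
        have h4 : Jd k (p ^ a * c * p) ∈ A := by
          rw [show p ^ a * c * p = p ^ (a + 1) * c by ring]
          exact h2
        have h5 := star p r hpr z hz w hw (p ^ a * c) A h4 h3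
        rw [show p ^ a * c * p * r = p ^ (a + 1) * m' by rw [hc]; ring] at h5
        exact h5
  apply EN_le
  intro d hd
  by_cases hdN : d ∣ p ^ a * m
  · exact hA (Jd_mem k hN hdN)
  · -- d = p^(a+1) * m'
    have h1 : d ∣ p ^ (a + 1) * m := by
      rwa [show p ^ (a + 1) * m = p ^ a * m * p by ring]
    obtain ⟨x, y, hx, hy, hxy⟩ := exists_dvd_and_dvd_of_dvd_mul h1
    obtain ⟨b, hb, rfl⟩ := (Nat.dvd_prime_pow hp.out).mp hx
    have hb2 : b = a + 1 := by
      by_contra hne
      apply hdN
      rw [hxy]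
      exact mul_dvd_mul (pow_dvd_pow p (by omega)) hy
    rw [hxy, hb2]
    exact key y hy

theorem relfinrank_map (p : ℕ) [NeZero p] (A B : IntermediateField k (LaurentSeries k)) :
    relfinrank (A.map (qExpandAlgHomC k p)) (B.map (qExpandAlgHomC k p)) = relfinrank A B :=
  relfinrank_map_map (A := A) (B := B) (qExpandAlgHomC k p)

theorem relfinrank_J1_Jp (p : ℕ) [hp : Fact p.Prime] (hpk : (p : k) ≠ 0) (z : kˣ)
    (hz : IsPrimitiveRoot z p) :
    relfinrank k⟮Jd k 1⟯ (k⟮Jd k 1⟯ ⊔ k⟮Jd k p⟯) = p + 1 ∧
    relfinrank k⟮Jd k p⟯ (k⟮Jd k 1⟯ ⊔ k⟮Jd k p⟯) = p + 1 := by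
  have hA : ∀ a ∈ k⟮Jd k p⟯, ∃ b, qExpand k p b = a := by
    intro a ha
    rw [show Jd k p = Jd k (p * 1) by rw [mul_one], ← map_adjoin_Jd] at ha
    obtain ⟨b, -, hb⟩ := ha
    exact ⟨b, hb⟩
  have hp1 : Jd k p ∈ k⟮Jd k p⟯ := mem_adjoin_simple_self k _
  have hp2 : Jd k (p * p) ∉ k⟮Jd k p⟯ := by
    intro h
    rw [show k⟮Jd k p⟯ = k⟮Jd k (p * 1)⟯ by rw [mul_one], ← map_adjoin_Jd] at h
    obtain ⟨b, hb, hb2⟩ := h
    rw [← qExpand_Jd] at hb2
    have : b = Jd k p := qExpand_injective p hb2
    rw [this, Jd_one] at hb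
    exact Jd_prime_notMem p z hz hpk hb
  obtain ⟨h1, h2⟩ := lemmaB p z hz hA hp1 hp2
  obtain ⟨f, hf⟩ := exists_lift_Phi p z hz 1 k⟮Jd k p⟯ (by rwa [one_mul])
  have hi1 := (integral_of_lift p z hf none).1
  have hi2 := (integral_of_lift p z hf (some 0)).1
  rw [rootsM_none, one_mul] at hi1
  rw [rootsM_some_zero] at hi2
  constructor
  · rw [← relfinrank_map p, IntermediateField.map_sup, map_adjoin_Jd, map_adjoin_Jd, mul_one,
      relfinrank_adjoin _ _ hi1, h1]
  · rw [sup_comm, relfinrank_adjoin _ _ hi2, h2]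

/-- induction step -/
theorem degN_step (p : ℕ) [hp : Fact p.Prime] (a m : ℕ) (hm : m ≠ 0) (hpm : ¬ p ∣ m)
    (hroots : EnoughRoots k (p * m)) (hpos : degN k (p ^ a * m) ≠ 0) :
    degN k (p ^ (a + 1) * m) = degN k (p ^ a * m) * (if a = 0 then p + 1 else p) := by
  have hp0 : p ≠ 0 := hp.out.ne_zero
  have hp2 := hp.out.two_le
  set N := p ^ a * m with hN_def
  have hN : N ≠ 0 := Nat.mul_ne_zero (pow_ne_zero _ hp0) hm
  have hNp : N * p ≠ 0 := Nat.mul_ne_zero hN hp0
  have hNp' : p ^ (a + 1) * m = N * p := by rw [hN_def]; ring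
  rw [hNp']
  obtain ⟨hpk, z, hz⟩ := hroots p hp.out (dvd_mul_right p m)
  have hJ1 : k⟮Jd k 1⟯ ≤ modularFunctionFieldFullC k N := jle hN
  have hEN : modularFunctionFieldFullC k N ≤ modularFunctionFieldFullC k (N * p) :=
    EN_le k _ fun d hd => Jd_mem k hNp (hd.mul_right p)
  have hJp : Jd k p ∈ modularFunctionFieldFullC k (N * p) := Jd_mem k hNp (dvd_mul_left p N)
  have hJ1' : Jd k 1 ∈ modularFunctionFieldFullC k (N * p) := Jd_mem k hNp (one_dvd _)
  have hB : k⟮Jd k 1⟯ ⊔ k⟮Jd k p⟯ ≤ modularFunctionFieldFullC k (N * p) :=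
    sup_le (by simpa using hJ1') (by simpa using hJp)
  set A' := EM k p N with hA'
  have hA'fix := EM_fixed (k := k) p N
  -- `D(Np) = D(N) * y`
  have hy : degN k (N * p) = degN k N *
      relfinrank (modularFunctionFieldFullC k N) (modularFunctionFieldFullC k (N * p)) :=
    (relfinrank_mul_relfinrank hJ1 hEN).symm
  -- `D(Np) = D(N) * x`
  obtain ⟨hT1, hT2⟩ := relfinrank_J1_Jp (k := k) p hpk z hz
  have hx : degN k (N * p) = degN k N * relfinrank A' (modularFunctionFieldFullC k (N * p)) := by
    have e1 : degN k (N * p) = relfinrank k⟮Jd k p⟯ (modularFunctionFieldFullC k (N * p)) := by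
      rw [degN, ← relfinrank_mul_relfinrank (le_sup_left : k⟮Jd k 1⟯ ≤ k⟮Jd k 1⟯ ⊔ k⟮Jd k p⟯) hB,
        ← relfinrank_mul_relfinrank (le_sup_right : k⟮Jd k p⟯ ≤ k⟮Jd k 1⟯ ⊔ k⟮Jd k p⟯) hB,
        hT1, hT2]
    have e2 : k⟮Jd k p⟯ = (k⟮Jd k 1⟯).map (qExpandAlgHomC k p) := by
      rw [map_adjoin_Jd, mul_one]
    have e3 : degN k N = relfinrank k⟮Jd k p⟯ A' := by
      rw [e2, hA', EM, relfinrank_map, degN]
    have e4 : k⟮Jd k p⟯ ≤ A' := by
      rw [e2, hA', EM]
      exact map_mono _ hJ1
    rw [e1, e3, relfinrank_mul_relfinrank e4 (EM_le_EN k hN)]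
  have hxy : relfinrank (modularFunctionFieldFullC k N) (modularFunctionFieldFullC k (N * p)) =
      relfinrank A' (modularFunctionFieldFullC k (N * p)) :=
    Nat.eq_of_mul_eq_mul_left (Nat.pos_of_ne_zero hpos) (hy.symm.trans hx)
  -- generation
  have hgen : modularFunctionFieldFullC k (N * p) =
      modularFunctionFieldFullC k N ⊔ k⟮Jd k (p ^ (a + 1))⟯ := by
    apply le_antisymm
    · exact EN_generated p a m hm hpm hroots _ le_sup_left
        (le_sup_right (a := modularFunctionFieldFullC k N) (mem_adjoin_simple_self k _))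
    · refine sup_le hEN ?_
      rw [adjoin_simple_le_iff]
      apply Jd_mem k hNp
      rw [← hNp']
      exact dvd_mul_right _ _
  -- y as a degree over `A'`
  have : NeZero (p ^ a) := ⟨pow_ne_zero _ hp0⟩
  have hJA' : Jd k (p ^ a * p) ∈ A' := by
    rw [mul_comm (p ^ a) p, hA', Jd_mem_EM_iff]
    exact Jd_mem k hN (dvd_mul_right _ _)
  obtain ⟨f, hf⟩ := exists_lift_Phi p z hz (p ^ a) A' hJA'
  obtain ⟨hint, haev⟩ := integral_of_lift p z hf none
  obtain ⟨hfdeg, hfmon⟩ := natDegree_lift p z hf
  rw [rootsM_none] at hint haev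
  have hy2 : relfinrank (modularFunctionFieldFullC k N) (modularFunctionFieldFullC k (N * p)) =
      (minpoly A' (Jd k (p ^ a * (p * p)))).natDegree := by
    rw [hgen, ← relfinrank_map p, IntermediateField.map_sup, map_adjoin_Jd]
    rw [show p * p ^ (a + 1) = p ^ a * (p * p) by ring]
    exact relfinrank_adjoin _ _ hint
  have hypos : (minpoly A' (Jd k (p ^ a * (p * p)))).natDegree ≠ 0 := (minpoly.natDegree_pos hint).ne'
  rw [hy, hy2]
  congr 1
  have hx0 : relfinrank A' (modularFunctionFieldFullC k (N * p)) ≠ 0 := by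
    rw [← hxy, hy2]
    exact hypos
  have hlow : p ≤ (minpoly A' (Jd k 1)).natDegree :=
    le_natDegree_minpoly p z hz hA'fix (integral_of_relfinrank_pos (EM_le_EN k hN) hx0 hJ1')
  have hdvd : (minpoly A' (Jd k 1)).natDegree ∣ relfinrank A' (modularFunctionFieldFullC k (N * p)) :=
    natDegree_minpoly_dvd (EM_le_EN k hN) hx0 hJ1'
  have hlow2 : p ≤ (minpoly A' (Jd k (p ^ a * (p * p)))).natDegree := by
    rw [← hy2, hxy]
    exact hlow.trans (Nat.le_of_dvd (Nat.pos_of_ne_zero hx0) hdvd)
  by_cases ha : a = 0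
  · rw [if_pos ha]
    subst ha
    simp only [pow_zero, one_mul] at hlow2 hint hypos hfdeg ⊢
    by_cases hmem : Jd k (p * p) ∈ A'
    · exfalso
      have : (minpoly A' (Jd k (p * p))).natDegree = 1 := by
        rw [minpoly.natDegree_eq_one_iff]
        exact ⟨⟨_, hmem⟩, rfl⟩
      omega
    · have hp1 : Jd k p ∈ A' := by
        simpa using hJA'
      exact (lemmaB p z hz hA'fix hp1 hmem).1
  · rw [if_neg ha]
    apply le_antisymm _ hlow2
    -- another root in `A'`
    have hr : Jd k (p ^ a) ∈ A' := by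
      obtain ⟨b, rfl⟩ := Nat.exists_eq_succ_of_ne_zero ha
      rw [Nat.succ_eq_add_one, pow_succ, mul_comm (p ^ b) p, hA', Jd_mem_EM_iff]
      apply Jd_mem k hN
      exact (pow_dvd_pow p (Nat.le_succ b)).mul_right m
    have hroot : Polynomial.aeval (Jd k (p ^ a)) f = 0 := by
      have := (integral_of_lift p z hf (some 0)).2
      rwa [rootsM_some_zero] at this
    have hroot' : f.IsRoot (⟨_, hr⟩ : A') := by
      rw [Polynomial.IsRoot.def]
      apply (algebraMap A' (LaurentSeries k)).injective
      rw [map_zero, ← Polynomial.eval₂_at_apply]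
      exact hroot
    obtain ⟨g, hg⟩ := Polynomial.dvd_iff_isRoot.mpr hroot'
    have hne : Jd k (p ^ a * (p * p)) ≠ Jd k (p ^ a) := by
      intro h
      have h2 := (rootsM_injective p z hz (p ^ a)) (a₁ := none) (a₂ := some 0)
        (by rw [rootsM_none, rootsM_some_zero, h])
      exact absurd h2 (by simp)
    have hg0 : Polynomial.aeval (Jd k (p ^ a * (p * p))) g = 0 := by
      rw [hg, map_mul] at haev
      rcases mul_eq_zero.mp haev with h | h
      · exfalso
        apply hne
        simp only [map_sub, Polynomial.aeval_X, Polynomial.aeval_C, sub_eq_zero] at h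
        exact h
      · exact h
    have hgne : g ≠ 0 := by
      rintro rfl
      rw [mul_zero] at hg
      exact hfmon.ne_zero hg
    have hgdeg : g.natDegree = p := by
      have := congrArg Polynomial.natDegree hg
      rw [Polynomial.natDegree_mul (Polynomial.X_sub_C_ne_zero _) hgne, hfdeg,
        Polynomial.natDegree_X_sub_C] at this
      omega
    calc (minpoly A' (Jd k (p ^ a * (p * p)))).natDegree ≤ g.natDegree :=
          Polynomial.natDegree_le_of_dvd (minpoly.dvd _ _ hg0) hgne
      _ = p := hgdeg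

end Degrees

end Fermat.Agent.ModFun
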