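import Mathlib
import Fermat.Agent.ModFun.Tower3
import Fermat.Agent.Gamma0Comb.Index

/-!
`[k(j(q^d) : d ∣ N) : k(j(q))] = ψ(N)` for fields with enough roots of unity.
-/

set_option autoImplicit false

noncomputable section

open HahnSeries ModularCurve IntermediateField

namespace Fermat.Agent.ModFun

variable {k : Type*} [Field k]

theorem degN_one : degN k 1 = 1 := by
  rw [degN, EN_one, relfinrank_self]

theorem EnoughRoots.mono {M N : ℕ} (h : EnoughRoots k N) (hMN : M ∣ N) : EnoughRoots k M :=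
  fun p hp hpM => h p hp (hpM.trans hMN)

theorem dedekindPsi_pos {N : ℕ} (hN : N ≠ 0) : dedekindPsi N ≠ 0 := by
  have h : N / 1 ≤ dedekindPsi N := by
    unfold dedekindPsi
    exact Finset.single_le_sum (f := fun d => N / d) (fun _ _ => Nat.zero_le _)
      (by simp [hN])
  rw [Nat.div_one] at h
  omega

theorem dedekindPsi_step (p : ℕ) (hp : p.Prime) (a m : ℕ) (hpm : ¬ p ∣ m) :
    dedekindPsi (p ^ (a + 1) * m) = dedekindPsi (p ^ a * m) * (if a = 0 then p + 1 else p) := by
  have hc : ∀ n, (p ^ n).Coprime m := fun n =>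
    Nat.Coprime.pow_left n ((Nat.Prime.coprime_iff_not_dvd hp).mpr hpm)
  rw [Gamma0Comb.dedekindPsi_mul (hc _), Gamma0Comb.dedekindPsi_mul (hc _),
    Gamma0Comb.dedekindPsi_prime_pow hp]
  split_ifs with h
  · subst h
    rw [pow_zero, dedekindPsi_one]
    ring
  · obtain ⟨b, rfl⟩ := Nat.exists_eq_succ_of_ne_zero h
    rw [Nat.succ_eq_add_one, Gamma0Comb.dedekindPsi_prime_pow hp]
    ring

theorem degN_eq (N : ℕ) (hN : N ≠ 0) (h : EnoughRoots k N) : degN k N = dedekindPsi N := by
  induction N using induction_on_primes with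
  | zero => exact absurd rfl hN
  | one => rw [degN_one, dedekindPsi_one]
  | prime_mul p n hp ih =>
    have hn : n ≠ 0 := by
      rintro rfl
      exact hN (mul_zero p)
    have ihn := ih hn (h.mono (dvd_mul_left n p))
    obtain ⟨a, m, hpm, hnm⟩ := Nat.exists_eq_pow_mul_and_not_dvd hn p hp.ne_one
    have : Fact p.Prime := ⟨hp⟩
    have hm : m ≠ 0 := by
      rintro rfl
      exact hpm (dvd_zero p)
    rw [show p * n = p ^ (a + 1) * m by rw [hnm]; ring]
    rw [dedekindPsi_step p hp a m hpm, degN_step p a m hm hpm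
      (h.mono (mul_dvd_mul_left p (by rw [hnm]; exact dvd_mul_left m _)))
      (by rw [← hnm, ihn]; exact dedekindPsi_pos hn), ← hnm, ihn]

/-- separably closed fields have enough roots of unity -/
theorem enoughRoots_of_sepClosed (k : Type*) [Field k] [IsSepClosed k] {N : ℕ}
    (hN : (N : k) ≠ 0) : EnoughRoots k N := by
  intro p hp hpN
  have hpk : (p : k) ≠ 0 := by
    intro h
    apply hN
    obtain ⟨c, rfl⟩ := hpN
    rw [Nat.cast_mul, h, zero_mul]
  refine ⟨hpk, ?_⟩
  have : NeZero p := ⟨hp.ne_zero⟩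
  have : NeZero (p : k) := ⟨hpk⟩
  obtain ⟨ζ, hζ⟩ := HasEnoughRootsOfUnity.exists_primitiveRoot k p
  exact ⟨hζ.isUnit hp.ne_zero |>.unit, IsPrimitiveRoot.coe_units_iff.mp hζ⟩

/-- The degree theorem. -/
theorem relfinrank_modularFunctionField (k : Type*) [Field k] [IsSepClosed k] (N : ℕ)
    (hN : (N : k) ≠ 0) :
    relfinrank k⟮jqModC k⟯ (modularFunctionFieldFullC k N) = dedekindPsi N := by
  have h := degN_eq (k := k) N (by rintro rfl; simp at hN) (enoughRoots_of_sepClosed k hN)
  rwa [degN, Jd_one] at h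

end Fermat.Agent.ModFun
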