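import Mathlib

/-!
General lemmas on intermediate fields and linear independence.
-/

set_option autoImplicit false

noncomputable section

open IntermediateField

namespace Fermat.Agent.ModFun

variable {k Ω : Type*} [Field k] [Field Ω] [Algebra k Ω]

theorem finite_of_relfinrank {A B : IntermediateField k Ω} (hAB : A ≤ B) (hdeg : relfinrank A B ≠ 0) :
    FiniteDimensional A (extendScalars hAB) := by
  rw [relfinrank_eq_finrank_of_le hAB] at hdeg
  exact Module.finite_of_finrank_pos (Nat.pos_of_ne_zero hdeg)

theorem span_closure_eq {A B : IntermediateField k Ω} (hAB : A ≤ B) (S : Set Ω)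
    (hB : B = adjoin k S) (hdeg : relfinrank A B ≠ 0) :
    Submodule.span A (Submonoid.closure S : Set Ω) =
      Subalgebra.toSubmodule (extendScalars hAB).toSubalgebra := by
  subst hB
  have h1 : extendScalars hAB = adjoin A S := extendScalars_adjoin (S := S) hAB
  have hfin := finite_of_relfinrank hAB hdeg
  have h2 : (adjoin A S).toSubalgebra = Algebra.adjoin A S := by
    apply adjoin_toSubalgebra_of_isAlgebraic
    intro x hx
    have hx' : x ∈ extendScalars hAB := subset_adjoin k S hx
    have : IsIntegral A (⟨x, hx'⟩ : extendScalars hAB) := IsIntegral.of_finite A _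
    exact (this.map (extendScalars hAB).val).isAlgebraic
  rw [h1, h2, Algebra.adjoin_eq_span]

theorem exists_basis_of_closure {A B : IntermediateField k Ω} (hAB : A ≤ B) (S : Set Ω)
    (hB : B = adjoin k S) (hdeg : relfinrank A B ≠ 0) :
    ∃ y : Fin (relfinrank A B) → Ω, (∀ i, y i ∈ Submonoid.closure S) ∧ LinearIndependent A y := by
  obtain ⟨b, hb1, hb2, hb3⟩ := exists_linearIndependent A (Submonoid.closure S : Set Ω)
  rw [span_closure_eq hAB S hB hdeg] at hb2
  have hfin := finite_of_relfinrank hAB hdeg
  have hbs : ∀ x ∈ b, x ∈ extendScalars hAB := by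
    intro x hx
    have : x ∈ Submodule.span A b := Submodule.subset_span hx
    rw [hb2] at this
    exact this
  have hli : LinearIndependent A (fun x : b => (⟨x, hbs x x.2⟩ : extendScalars hAB)) := by
    apply LinearIndependent.of_comp (extendScalars hAB).val.toLinearMap
    exact hb3
  have hbf : Finite b := hli.finite
  have := Fintype.ofFinite b
  have hcard : Fintype.card b = relfinrank A B := by
    have h1 := finrank_span_eq_card hb3
    rw [Subtype.range_coe, hb2] at h1
    rw [← h1, relfinrank_eq_finrank_of_le hAB]
    rfl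
  let e : Fin (relfinrank A B) ≃ b := (Fintype.equivFinOfCardEq hcard).symm
  exact ⟨fun i => e i, fun i => hb1 (e i).2, hb3.comp _ e.injective⟩

theorem card_le_relfinrank {A B : IntermediateField k Ω} (hAB : A ≤ B) (hdeg : relfinrank A B ≠ 0)
    {ι : Type*} [Fintype ι] (y : ι → Ω) (hy : ∀ i, y i ∈ B) (hli : LinearIndependent A y) :
    Fintype.card ι ≤ relfinrank A B := by
  have hfin := finite_of_relfinrank hAB hdeg
  have hli' : LinearIndependent A (fun i => (⟨y i, hy i⟩ : extendScalars hAB)) := by
    apply LinearIndependent.of_comp (extendScalars hAB).val.toLinearMap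
    exact hli
  rw [relfinrank_eq_finrank_of_le hAB]
  exact hli'.fintype_card_le_finrank

/-- if every independent family in `B` has at most `n` elements and `y` has `n` elements, `y` spans -/
theorem mem_span_of_card {A B : IntermediateField k Ω} (n : ℕ)
    (hn : ∀ z : Fin (n + 1) → Ω, (∀ i, z i ∈ B) → ¬ LinearIndependent A z)
    (y : Fin n → Ω) (hy : ∀ i, y i ∈ B) (hli : LinearIndependent A y) {x : Ω} (hx : x ∈ B) :
    x ∈ Submodule.span A (Set.range y) := by
  by_contra hcon
  apply hn (Fin.cons x y)
  · intro i
    refine Fin.cases ?_ ?_ i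
    · exact hx
    · intro j
      simpa using hy j
  · exact linearIndependent_finCons.mpr ⟨hli, hcon⟩

theorem relfinrank_eq_of_card {A B : IntermediateField k Ω} (hAB : A ≤ B) (n : ℕ)
    (hn : ∀ z : Fin (n + 1) → Ω, (∀ i, z i ∈ B) → ¬ LinearIndependent A z)
    (y : Fin n → Ω) (hy : ∀ i, y i ∈ B) (hli : LinearIndependent A y) :
    relfinrank A B = n := by
  let y' : Fin n → extendScalars hAB := fun i => ⟨y i, hy i⟩
  have hli' : LinearIndependent A y' := by
    apply LinearIndependent.of_comp (extendScalars hAB).val.toLinearMap
    exact hli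
  have hspan : ⊤ ≤ Submodule.span A (Set.range y') := by
    rintro ⟨x, hx⟩ -
    have h := mem_span_of_card n hn y hy hli hx
    have hmap : Submodule.map (extendScalars hAB).val.toLinearMap (Submodule.span A (Set.range y')) =
        Submodule.span A (Set.range y) := by
      rw [Submodule.map_span, ← Set.range_comp]
      rfl
    rw [← hmap] at h
    obtain ⟨w, hw, hwx⟩ := h
    have : w = ⟨x, hx⟩ := Subtype.ext hwx
    rwa [← this]
  rw [relfinrank_eq_finrank_of_le hAB, Module.finrank_eq_card_basis (Module.Basis.mk hli' hspan),
    Fintype.card_fin]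

end Fermat.Agent.ModFun
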