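import Mathlib
import Fermat.Agent.ModFun.Degree
import Fermat.Agent.ModFun.GenField

/-!
Base change: linear independence over `k(j)` is preserved under `k ⊂ L`.
-/

set_option autoImplicit false

noncomputable section

open HahnSeries ModularCurve IntermediateField
open scoped IntermediateField.algebraAdjoinAdjoin

namespace Fermat.Agent.ModFun

section Coord

variable {k L : Type*} [Field k] [Field L] [Algebra k L]

/-- coefficientwise application of a functional -/
def coordMap (π : L →ₗ[k] k) : LaurentSeries L →+ LaurentSeries k where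
  toFun w := w.map π.toAddMonoidHom
  map_zero' := by ext n; simp
  map_add' x y := by ext n; simp

theorem coordMap_coeff (π : L →ₗ[k] k) (w : LaurentSeries L) (n : ℤ) :
    (coordMap π w).coeff n = π (w.coeff n) := rfl

theorem coordMap_mul (π : L →ₗ[k] k) (v : LaurentSeries k) (w : LaurentSeries L) :
    coordMap π (coeffMap (algebraMap k L) v * w) = v * coordMap π w := by
  ext n
  have hs : (coordMap π w).support ⊆ w.support := by
    intro m hm h
    apply hm
    rw [coordMap_coeff, h, map_zero]
  have hs2 : (coeffMap (algebraMap k L) v).support ⊆ v.support := by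
    intro m hm h
    apply hm
    rw [coeffMap_coeff, h, map_zero]
  rw [coordMap_coeff, HahnSeries.coeff_mul_right' w.isPWO_support hs,
    HahnSeries.coeff_mul_left' v.isPWO_support hs2, map_sum]
  refine Finset.sum_congr rfl fun ij _ => ?_
  rw [coeffMap_coeff, coordMap_coeff, ← Algebra.smul_def, map_smul, smul_eq_mul]

theorem coordMap_mem (π : L →ₗ[k] k) {w : LaurentSeries L}
    (hw : w ∈ Algebra.adjoin L {jqModC L}) : coordMap π w ∈ Algebra.adjoin k {jqModC k} := by
  rw [Algebra.adjoin_singleton_eq_range_aeval] at hw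
  obtain ⟨G, rfl⟩ := hw
  show coordMap π (Polynomial.aeval (jqModC L) G) ∈ _
  rw [← jev_eq_aeval, jev, Polynomial.coe_eval₂RingHom, Polynomial.eval₂_eq_sum_range, map_sum]
  refine sum_mem fun a _ => ?_
  have h : HahnSeries.C (G.coeff a) * jqModC L ^ a =
      coeffMap (algebraMap k L) (jqModC k ^ a) * HahnSeries.C (G.coeff a) := by
    rw [map_pow, coeffMap_jqModC, mul_comm]
  rw [h, coordMap_mul]
  have h2 : coordMap π (HahnSeries.C (G.coeff a)) = algebraMap k (LaurentSeries k) (π (G.coeff a)) := by
    rw [← C_eq_algebraMap]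
    ext n
    rw [coordMap_coeff, HahnSeries.C_apply, HahnSeries.C_apply, HahnSeries.coeff_single,
      HahnSeries.coeff_single]
    split_ifs
    · rfl
    · exact map_zero π
  rw [h2]
  exact mul_mem (pow_mem (Algebra.self_mem_adjoin_singleton k _) a) (Subalgebra.algebraMap_mem _ _)

theorem LD {ι : Type*} (v : ι → LaurentSeries k)
    (hv : LinearIndependent k⟮jqModC k⟯ v) :
    LinearIndependent L⟮jqModC L⟯ (fun i => coeffMap (algebraMap k L) (v i)) := by
  rw [← LinearIndependent.iff_fractionRing (Algebra.adjoin L {jqModC L}), linearIndependent_iff']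
  rw [← LinearIndependent.iff_fractionRing (Algebra.adjoin k {jqModC k}), linearIndependent_iff'] at hv
  intro s g hg i hi
  have key : ∀ π : L →ₗ[k] k, coordMap π (g i : LaurentSeries L) = 0 := by
    intro π
    have h := congrArg (coordMap π) hg
    rw [map_sum, map_zero] at h
    have h2 := hv s (fun i => ⟨coordMap π (g i), coordMap_mem π (g i).2⟩) (by
      rw [← h]
      refine Finset.sum_congr rfl fun a _ => ?_
      show coordMap π (g a) * v a = coordMap π ((g a : LaurentSeries L) * coeffMap (algebraMap k L) (v a))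
      rw [mul_comm (g a : LaurentSeries L), coordMap_mul, mul_comm]) i hi
    exact congrArg Subtype.val h2
  apply Subtype.ext
  show (g i : LaurentSeries L) = 0
  ext n
  let B := Module.Basis.ofVectorSpace k L
  apply B.ext_elem
  intro β
  have := congrArg (fun w => HahnSeries.coeff w n) (key (B.coord β))
  simpa [coordMap_coeff] using this

end Coord

/-! ### monomials -/

section Mon

/-- multiplicative monoid generated by the `j(q^d)`, `d ∣ N`, over `ℤ`. -/
def MonZ (N : ℕ) : Submonoid (LaurentSeries ℤ) :=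
  Submonoid.closure {x | ∃ (d : ℕ) (_ : NeZero d), d ∣ N ∧ x = qExpand ℤ d (jqModC ℤ)}

variable (k : Type*) [Field k]

/-- coefficient map from `ℤ`. -/
def cZ : LaurentSeries ℤ →+* LaurentSeries k := coeffMap (Int.castRingHom k)

theorem cZ_gen (d : ℕ) [NeZero d] : cZ k (qExpand ℤ d (jqModC ℤ)) = qExpand k d (jqModC k) := by
  rw [cZ, coeffMap_qExpand, coeffMap_jqModC]

theorem map_MonZ (N : ℕ) : (MonZ N).map (cZ k : LaurentSeries ℤ →* LaurentSeries k) =
    Submonoid.closure (divisorExpansionsC k N) := by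
  rw [MonZ, MonoidHom.map_mclosure]
  congr 1
  ext x
  constructor
  · rintro ⟨_, ⟨d, hd, hdN, rfl⟩, rfl⟩
    exact ⟨d, hd, hdN, cZ_gen k d⟩
  · rintro ⟨d, hd, hdN, rfl⟩
    exact ⟨_, ⟨d, hd, hdN, rfl⟩, cZ_gen k d⟩

theorem cZ_MonZ_mem {N : ℕ} {y : LaurentSeries ℤ} (hy : y ∈ MonZ N) :
    cZ k y ∈ modularFunctionFieldFullC k N := by
  have h : cZ k y ∈ (MonZ N).map (cZ k : LaurentSeries ℤ →* LaurentSeries k) := ⟨y, hy, rfl⟩
  rw [map_MonZ] at h
  exact (Submonoid.closure_le (S := (modularFunctionFieldFullC k N).toSubalgebra.toSubmonoid)).mpr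
    (fun x hx => subset_adjoin k _ hx) h

theorem jmodle {N : ℕ} (hN : N ≠ 0) : k⟮jqModC k⟯ ≤ modularFunctionFieldFullC k N :=
  Jd_one k ▸ jle hN

theorem degN_eq' (N : ℕ) : degN k N = relfinrank k⟮jqModC k⟯ (modularFunctionFieldFullC k N) := by
  rw [degN, Jd_one]

theorem exists_mon_basis (N : ℕ) (hN : N ≠ 0) (hdeg : degN k N ≠ 0) :
    ∃ y : Fin (degN k N) → LaurentSeries ℤ, (∀ i, y i ∈ MonZ N) ∧
      LinearIndependent k⟮jqModC k⟯ (fun i => cZ k (y i)) := by
  rw [degN_eq'] at hdeg ⊢
  obtain ⟨y, hy, hli⟩ := exists_basis_of_closure (jmodle k hN) (divisorExpansionsC k N) rfl hdeg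
  rw [← map_MonZ] at hy
  choose y' hy' hy'' using hy
  refine ⟨y', hy', ?_⟩
  have : (fun i => cZ k (y' i)) = y := funext hy''
  rw [this]
  exact hli

end Mon

section Upper

variable {k L : Type*} [Field k] [Field L] [Algebra k L]

theorem coeffMap_mem_EN {N : ℕ} {x : LaurentSeries k} (hx : x ∈ modularFunctionFieldFullC k N) :
    coeffMap (algebraMap k L) x ∈ modularFunctionFieldFullC L N := by
  induction hx using IntermediateField.adjoin_induction with
  | mem x hx =>
    obtain ⟨d, hd, hdN, rfl⟩ := hx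
    rw [coeffMap_qExpand, coeffMap_jqModC]
    exact jqModCd_mem_full L N hdN
  | algebraMap a =>
    rw [← C_eq_algebraMap, coeffMap_C, C_eq_algebraMap]
    exact (modularFunctionFieldFullC L N).algebraMap_mem _
  | add x y _ _ hx hy => rw [map_add]; exact add_mem hx hy
  | inv x _ hx => rw [map_inv₀]; exact inv_mem hx
  | mul x y _ _ hx hy => rw [map_mul]; exact mul_mem hx hy

theorem card_le_of_independent (N : ℕ) (hN : N ≠ 0) (hdeg : degN L N ≠ 0) {ι : Type*} [Fintype ι]
    (y : ι → LaurentSeries k) (hy : ∀ i, y i ∈ modularFunctionFieldFullC k N)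
    (hli : LinearIndependent k⟮jqModC k⟯ y) : Fintype.card ι ≤ degN L N := by
  rw [degN_eq'] at hdeg ⊢
  exact card_le_relfinrank (jmodle L hN) hdeg (fun i => coeffMap (algebraMap k L) (y i))
    (fun i => coeffMap_mem_EN (hy i)) (LD (L := L) y hli)

theorem cZ_comp (y : LaurentSeries ℤ) : coeffMap (algebraMap k L) (cZ k y) = cZ L y := by
  rw [cZ, cZ, coeffMap_coeffMap, RingHom.ext_int ((algebraMap k L).comp (Int.castRingHom k))
    (Int.castRingHom L)]

theorem coeffMap_mem_adjoin_j {x : LaurentSeries k} (hx : x ∈ k⟮jqModC k⟯) :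
    coeffMap (algebraMap k L) x ∈ L⟮jqModC L⟯ := by
  induction hx using IntermediateField.adjoin_induction with
  | mem x hx =>
    rw [Set.mem_singleton_iff] at hx
    rw [hx, coeffMap_jqModC]
    exact mem_adjoin_simple_self L _
  | algebraMap a =>
    rw [← C_eq_algebraMap, coeffMap_C, C_eq_algebraMap]
    exact (L⟮jqModC L⟯).algebraMap_mem _
  | add x y _ _ hx hy => rw [map_add]; exact add_mem hx hy
  | inv x _ hx => rw [map_inv₀]; exact inv_mem hx
  | mul x y _ _ hx hy => rw [map_mul]; exact mul_mem hx hy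

theorem independent_descend {ι : Type*} (y : ι → LaurentSeries ℤ)
    (hli : LinearIndependent L⟮jqModC L⟯ (fun i => cZ L (y i))) :
    LinearIndependent k⟮jqModC k⟯ (fun i => cZ k (y i)) := by
  rw [linearIndependent_iff'] at hli ⊢
  intro s g hg i hi
  have h := congrArg (coeffMap (algebraMap k L)) hg
  rw [map_sum, map_zero] at h
  have h2 := hli s (fun i => ⟨coeffMap (algebraMap k L) (g i), coeffMap_mem_adjoin_j (g i).2⟩) (by
    rw [← h]
    refine Finset.sum_congr rfl fun a _ => ?_
    show coeffMap (algebraMap k L) (g a) * cZ L (y a) =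
      coeffMap (algebraMap k L) ((g a : LaurentSeries k) * cZ k (y a))
    rw [map_mul, cZ_comp]) i hi
  have h3 : coeffMap (algebraMap k L) (g i : LaurentSeries k) = 0 := congrArg Subtype.val h2
  apply Subtype.ext
  exact (map_eq_zero_iff (coeffMap (algebraMap k L))
    (coeffMap (algebraMap k L)).injective).mp h3

end Upper

/-- **The degree theorem**, all fields in which `N` is invertible. -/
theorem degN_eq_psi (k : Type*) [Field k] (N : ℕ) (hN : (N : k) ≠ 0) :
    degN k N = dedekindPsi N := by
  have hN0 : N ≠ 0 := by rintro rfl; simp at hN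
  let L := AlgebraicClosure k
  have hNL : (N : L) ≠ 0 := by
    have : algebraMap k L (N : k) ≠ 0 := by
      rw [map_ne_zero_iff _ (algebraMap k L).injective]
      exact hN
    simpa using this
  have hdegL : degN L N = dedekindPsi N := degN_eq N hN0 (enoughRoots_of_sepClosed L hNL)
  have hdegL0 : degN L N ≠ 0 := by
    rw [hdegL]
    exact dedekindPsi_pos hN0
  obtain ⟨y, hy, hli⟩ := exists_mon_basis L N hN0 hdegL0
  rw [← hdegL, degN_eq' k]
  refine relfinrank_eq_of_card (jmodle k hN0) _ ?_ (fun i => cZ k (y i))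
    (fun i => cZ_MonZ_mem k (hy i)) (independent_descend y hli)
  intro z hz hzli
  have := card_le_of_independent (L := L) N hN0 hdegL0 z hz hzli
  rw [Fintype.card_fin] at this
  omega

end Fermat.Agent.ModFun
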