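import Mathlib
import Fermat.Agent.ModFun.BaseChange
import Fermat.Prelude.Def_ModularCurve_IgusaScheme

/-!
The Gauss valuation ring inside `ℚ((q))`.
-/

set_option autoImplicit false

noncomputable section

open HahnSeries ModularCurve IntermediateField

namespace Fermat.Agent.ModFun

variable (ℓ : ℕ) [hl : Fact ℓ.Prime]

/-- `ℤ_(ℓ)` -/
abbrev Zl : Type := ↥(GaloisRep.ratLocalizedAt ℓ)

theorem Zl_den_ne_zero (x : Zl ℓ) : (((x : ℚ).den : ℕ) : ZMod ℓ) ≠ 0 := by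
  have h : (x : ℚ).den.Coprime ℓ := x.2
  rw [Ne, ZMod.natCast_eq_zero_iff]
  intro hd
  have := Nat.Coprime.eq_one_of_dvd h.symm hd
  exact hl.out.one_lt.ne' this

/-- reduction mod `ℓ`. -/
def red : Zl ℓ →+* ZMod ℓ where
  toFun x := ((x : ℚ) : ZMod ℓ)
  map_one' := by simp
  map_zero' := by simp
  map_add' x y := by
    rw [Subring.coe_add]
    exact Rat.cast_add_of_ne_zero (Zl_den_ne_zero ℓ x) (Zl_den_ne_zero ℓ y)
  map_mul' x y := by
    rw [Subring.coe_mul]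
    exact Rat.cast_mul_of_ne_zero (Zl_den_ne_zero ℓ x) (Zl_den_ne_zero ℓ y)

theorem red_eq_zero {x : Zl ℓ} (h : red ℓ x = 0) : ∃ y : Zl ℓ, x = ℓ * y := by
  have h1 : (((x : ℚ).num : ℤ) : ZMod ℓ) = 0 := by
    have h2 : ((x : ℚ) : ZMod ℓ) = 0 := h
    rw [Rat.cast_def, div_eq_zero_iff] at h2
    exact h2.resolve_right (Zl_den_ne_zero ℓ x)
  rw [ZMod.intCast_zmod_eq_zero_iff_dvd] at h1
  obtain ⟨m, hm⟩ := h1
  have hmem : (m : ℚ) / ((x : ℚ).den : ℚ) ∈ GaloisRep.ratLocalizedAt ℓ := by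
    show ((m : ℚ) / ((x : ℚ).den : ℚ)).den.Coprime ℓ
    have h3 : ((m : ℚ) / (((x : ℚ).den : ℤ) : ℚ)).den ∣ (x : ℚ).den := by
      have := Rat.den_dvd m ((x : ℚ).den : ℤ)
      rw [Rat.divInt_eq_div] at this
      exact_mod_cast this
    exact Nat.Coprime.coprime_dvd_left (by exact_mod_cast h3) x.2
  refine ⟨⟨_, hmem⟩, Subtype.ext ?_⟩
  show (x : ℚ) = ((ℓ : Zl ℓ) : ℚ) * ((m : ℚ) / ((x : ℚ).den : ℚ))
  have h4 : ((ℓ : Zl ℓ) : ℚ) = (ℓ : ℚ) := by simp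
  rw [h4, ← mul_div_assoc]
  conv_lhs => rw [← Rat.num_div_den (x : ℚ)]
  congr 1
  rw [hm]
  push_cast
  rfl

theorem red_surjective : Function.Surjective (red ℓ) := by
  intro a
  refine ⟨((a.val : ℕ) : Zl ℓ), ?_⟩
  rw [map_natCast, ZMod.natCast_val, ZMod.cast_id]

theorem red_natCast_self : red ℓ (ℓ : Zl ℓ) = 0 := by
  rw [map_natCast, ZMod.natCast_self]

theorem not_pow_dvd {x : Zl ℓ} (hx : x ≠ 0) : ∃ n : ℕ, ¬ ((ℓ : Zl ℓ) ^ n ∣ x) := by
  by_contra hcon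
  push Not at hcon
  obtain ⟨y, hy⟩ := hcon ((padicValRat ℓ x).toNat + 1)
  have hx0 : (x : ℚ) ≠ 0 := fun h => hx (Subtype.ext h)
  have hy0 : (y : ℚ) ≠ 0 := by
    intro h
    apply hx0
    rw [hy]
    push_cast
    rw [h, mul_zero]
  have h1 : (x : ℚ) = (ℓ : ℚ) ^ ((padicValRat ℓ x).toNat + 1) * y := by
    conv_lhs => rw [hy]
    push_cast
    rfl
  have hl0 : (ℓ : ℚ) ≠ 0 := by exact_mod_cast hl.out.ne_zero
  have h2 : padicValRat ℓ x = ((padicValRat ℓ x).toNat + 1 : ℕ) + padicValRat ℓ y := by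
    conv_lhs => rw [h1]
    rw [padicValRat.mul (pow_ne_zero _ hl0) hy0, padicValRat.pow, padicValRat.self hl.out.one_lt,
      mul_one]
  have h3 : 0 ≤ padicValRat ℓ (y : ℚ) := by
    have h4 : (y : ℚ).den.Coprime ℓ := y.2
    have h5 : padicValNat ℓ (y : ℚ).den = 0 :=
      padicValNat.eq_zero_of_not_dvd fun hd => by
        have := Nat.Coprime.eq_one_of_dvd h4.symm hd
        exact hl.out.one_lt.ne' this
    rw [padicValRat_def, h5]
    simp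
  push_cast at h2
  have h6 := Int.self_le_toNat (padicValRat ℓ (x : ℚ))
  omega

/-! ### Laurent series over `ℤ_(ℓ)` -/

/-- inclusion `Z_(ℓ)((q)) → ℚ((q))` -/
def embZ : LaurentSeries (Zl ℓ) →+* LaurentSeries ℚ :=
  coeffMap (GaloisRep.ratLocalizedAt ℓ).subtype

/-- reduction `Z_(ℓ)((q)) → 𝔽_ℓ((q))` -/
def redL : LaurentSeries (Zl ℓ) →+* LaurentSeries (ZMod ℓ) := coeffMap (red ℓ)

omit hl in
theorem embZ_injective : Function.Injective (embZ ℓ) := by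
  rw [injective_iff_map_eq_zero]
  intro x hx
  ext n
  have := congrArg (fun w => HahnSeries.coeff w n) hx
  simpa [embZ] using this

theorem redL_eq_zero {X : LaurentSeries (Zl ℓ)} (h : redL ℓ X = 0) :
    ∃ Y : LaurentSeries (Zl ℓ), X = (ℓ : LaurentSeries (Zl ℓ)) * Y := by
  have h1 : ∀ n, ∃ y : Zl ℓ, X.coeff n = ℓ * y := by
    intro n
    apply red_eq_zero
    have := congrArg (fun w => HahnSeries.coeff w n) h
    simpa [redL] using this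
  choose f hf using h1
  have hl0 : (ℓ : Zl ℓ) ≠ 0 := by
    intro h
    have := congrArg Subtype.val h
    simp [hl.out.ne_zero] at this
  refine ⟨⟨f, X.isPWO_support.mono ?_⟩, ?_⟩
  · intro n hn hX
    apply hn
    have := hf n
    rw [hX] at this
    exact (mul_eq_zero.mp this.symm).resolve_left hl0
  · ext n
    have h2 : ((ℓ : LaurentSeries (Zl ℓ))) = HahnSeries.C (ℓ : Zl ℓ) := by rw [map_natCast]
    rw [h2, HahnSeries.C_apply, HahnSeries.coeff_single_mul, sub_zero, ← hf n]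

theorem exists_norm {X : LaurentSeries (Zl ℓ)} (hX : X ≠ 0) :
    ∃ (w : ℕ) (Y : LaurentSeries (Zl ℓ)), X = (ℓ : LaurentSeries (Zl ℓ)) ^ w * Y ∧ redL ℓ Y ≠ 0 := by
  have hfin : FiniteMultiplicity (ℓ : LaurentSeries (Zl ℓ)) X := by
    obtain ⟨n, hn⟩ : ∃ n, X.coeff n ≠ 0 := by
      by_contra h
      push Not at h
      exact hX (HahnSeries.ext (funext h))
    obtain ⟨m, hm⟩ := not_pow_dvd ℓ hn
    refine ⟨m, fun hd => hm ?_⟩
    obtain ⟨Y, hY⟩ := (pow_dvd_pow (ℓ : LaurentSeries (Zl ℓ)) (Nat.le_succ m)).trans hd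
    refine ⟨Y.coeff n, ?_⟩
    rw [hY]
    have h2 : ((ℓ : LaurentSeries (Zl ℓ))) ^ m = HahnSeries.C ((ℓ : Zl ℓ) ^ m) := by
      rw [map_pow, map_natCast]
    rw [h2, HahnSeries.C_apply, HahnSeries.coeff_single_mul, sub_zero]
  obtain ⟨Y, hY, hnd⟩ := hfin.exists_eq_pow_mul_and_not_dvd
  refine ⟨_, Y, hY, fun h => hnd ?_⟩
  obtain ⟨W, hW⟩ := redL_eq_zero ℓ h
  exact ⟨W, hW⟩

/-- The valuation ring. -/
def VV : Subring (LaurentSeries ℚ) where
  carrier := {x | ∃ A B : LaurentSeries (Zl ℓ), redL ℓ B ≠ 0 ∧ embZ ℓ B * x = embZ ℓ A}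
  mul_mem' := by
    rintro x y ⟨A, B, hB, h⟩ ⟨A', B', hB', h'⟩
    refine ⟨A * A', B * B', ?_, ?_⟩
    · rw [map_mul]; exact mul_ne_zero hB hB'
    · rw [map_mul, map_mul, ← h, ← h']; ring
  one_mem' := ⟨1, 1, by simp, by simp⟩
  add_mem' := by
    rintro x y ⟨A, B, hB, h⟩ ⟨A', B', hB', h'⟩
    refine ⟨B' * A + B * A', B * B', ?_, ?_⟩
    · rw [map_mul]; exact mul_ne_zero hB hB'
    · rw [map_mul, map_add, map_mul, map_mul, ← h, ← h']; ring
  zero_mem' := ⟨0, 1, by simp, by simp⟩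
  neg_mem' := by
    rintro x ⟨A, B, hB, h⟩
    exact ⟨-A, B, hB, by rw [map_neg, ← h]; ring⟩

theorem mem_VV {x : LaurentSeries ℚ} : x ∈ VV ℓ ↔
    ∃ A B : LaurentSeries (Zl ℓ), redL ℓ B ≠ 0 ∧ embZ ℓ B * x = embZ ℓ A := Iff.rfl

/-- underlying function of the reduction -/
def rhoFun (x : VV ℓ) : LaurentSeries (ZMod ℓ) :=
  redL ℓ ((mem_VV ℓ).mp x.2).choose / redL ℓ ((mem_VV ℓ).mp x.2).choose_spec.choose

theorem rhoFun_eq (x : VV ℓ) (A B : LaurentSeries (Zl ℓ)) (hB : redL ℓ B ≠ 0)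
    (h : embZ ℓ B * x = embZ ℓ A) : rhoFun ℓ x = redL ℓ A / redL ℓ B := by
  obtain ⟨hB', h'⟩ := ((mem_VV ℓ).mp x.2).choose_spec.choose_spec
  set A' := ((mem_VV ℓ).mp x.2).choose
  set B' := ((mem_VV ℓ).mp x.2).choose_spec.choose
  show redL ℓ A' / redL ℓ B' = _
  rw [div_eq_div_iff hB' hB]
  have h2 : A' * B = A * B' := by
    apply embZ_injective
    rw [map_mul, map_mul, ← h, ← h']
    ring
  rw [← map_mul, h2, map_mul]

theorem natCast_LQ_ne_zero {n : ℕ} (hn : n ≠ 0) : (n : LaurentSeries ℚ) ≠ 0 := by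
  have h : (n : LaurentSeries ℚ) = algebraMap ℚ (LaurentSeries ℚ) (n : ℚ) := by simp
  rw [h, map_ne_zero_iff _ (algebraMap ℚ (LaurentSeries ℚ)).injective]
  exact_mod_cast hn

/-- the reduction `VV → 𝔽_ℓ((q))` -/
def rho : VV ℓ →+* LaurentSeries (ZMod ℓ) where
  toFun := rhoFun ℓ
  map_one' := by
    rw [rhoFun_eq ℓ 1 1 1 (by simp) (by simp)]
    simp
  map_zero' := by
    rw [rhoFun_eq ℓ 0 0 1 (by simp) (by simp)]
    simp
  map_mul' x y := by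
    obtain ⟨A, B, hB, h⟩ := (mem_VV ℓ).mp x.2
    obtain ⟨A', B', hB', h'⟩ := (mem_VV ℓ).mp y.2
    have h3 : embZ ℓ (B * B') * ((x * y : VV ℓ) : LaurentSeries ℚ) = embZ ℓ (A * A') := by
      rw [Subring.coe_mul, map_mul, map_mul, ← h, ← h']; ring
    rw [rhoFun_eq ℓ (x * y) (A * A') (B * B') (by rw [map_mul]; exact mul_ne_zero hB hB') h3,
      rhoFun_eq ℓ x A B hB h, rhoFun_eq ℓ y A' B' hB' h', map_mul, map_mul, mul_div_mul_comm]
  map_add' x y := by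
    obtain ⟨A, B, hB, h⟩ := (mem_VV ℓ).mp x.2
    obtain ⟨A', B', hB', h'⟩ := (mem_VV ℓ).mp y.2
    have h3 : embZ ℓ (B * B') * ((x + y : VV ℓ) : LaurentSeries ℚ) = embZ ℓ (B' * A + B * A') := by
      rw [Subring.coe_add, map_mul, map_add, map_mul, map_mul, ← h, ← h']; ring
    rw [rhoFun_eq ℓ (x + y) (B' * A + B * A') (B * B')
      (by rw [map_mul]; exact mul_ne_zero hB hB') h3,
      rhoFun_eq ℓ x A B hB h, rhoFun_eq ℓ y A' B' hB' h', map_mul, map_add, map_mul, map_mul]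
    field_simp

theorem rho_eq (x : VV ℓ) (A B : LaurentSeries (Zl ℓ)) (hB : redL ℓ B ≠ 0)
    (h : embZ ℓ B * x = embZ ℓ A) : rho ℓ x = redL ℓ A / redL ℓ B := rhoFun_eq ℓ x A B hB h

theorem embZ_mem (A : LaurentSeries (Zl ℓ)) : embZ ℓ A ∈ VV ℓ := ⟨A, 1, by simp, by simp⟩

theorem rho_embZ (A : LaurentSeries (Zl ℓ)) : rho ℓ ⟨embZ ℓ A, embZ_mem ℓ A⟩ = redL ℓ A := by
  rw [rho_eq ℓ _ A 1 (by simp) (by simp)]
  simp

theorem rho_eq_zero (x : VV ℓ) (h : rho ℓ x = 0) :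
    ∃ y : LaurentSeries ℚ, y ∈ VV ℓ ∧ (x : LaurentSeries ℚ) = ℓ * y := by
  obtain ⟨A, B, hB, hx⟩ := (mem_VV ℓ).mp x.2
  rw [rho_eq ℓ _ A B hB hx, div_eq_zero_iff] at h
  obtain ⟨Y, hY⟩ := redL_eq_zero ℓ (h.resolve_right hB)
  have hl0 : (ℓ : LaurentSeries ℚ) ≠ 0 := natCast_LQ_ne_zero hl.out.ne_zero
  refine ⟨(ℓ : LaurentSeries ℚ)⁻¹ * x, (mem_VV ℓ).mpr ⟨Y, B, hB, ?_⟩, ?_⟩
  · have h1 : embZ ℓ A = (ℓ : LaurentSeries ℚ) * embZ ℓ Y := by
      rw [hY, map_mul, map_natCast]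
    rw [mul_left_comm, hx, h1, inv_mul_cancel_left₀ hl0]
  · rw [mul_inv_cancel_left₀ hl0]

theorem inv_mem_VV (x : VV ℓ) (h : rho ℓ x ≠ 0) : (x : LaurentSeries ℚ)⁻¹ ∈ VV ℓ := by
  obtain ⟨A, B, hB, hx⟩ := (mem_VV ℓ).mp x.2
  rw [rho_eq ℓ _ A B hB hx] at h
  have hA : redL ℓ A ≠ 0 := fun h0 => h (by rw [h0, zero_div])
  have hx0 : (x : LaurentSeries ℚ) ≠ 0 := by
    intro h0
    rw [h0, mul_zero] at hx
    have : A = 0 := embZ_injective ℓ (by rw [← hx, map_zero])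
    rw [this, map_zero] at hA
    exact hA rfl
  refine (mem_VV ℓ).mpr ⟨B, A, hA, ?_⟩
  rw [← hx, mul_inv_cancel_right₀ hx0]

theorem rho_natCast_self : rho ℓ (ℓ : VV ℓ) = 0 := by
  rw [map_natCast]
  have h : ((ℓ : ZMod ℓ)) = 0 := ZMod.natCast_self ℓ
  have h2 : ((ℓ : LaurentSeries (ZMod ℓ))) = HahnSeries.C (ℓ : ZMod ℓ) := by rw [map_natCast]
  rw [h2, h, map_zero]

/-- The field of fractions of `ℤ_(ℓ)((q))` in `ℚ((q))`. -/
def FF : IntermediateField ℚ (LaurentSeries ℚ) where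
  carrier := {x | ∃ A B : LaurentSeries (Zl ℓ), B ≠ 0 ∧ embZ ℓ B * x = embZ ℓ A}
  mul_mem' := by
    rintro x y ⟨A, B, hB, h⟩ ⟨A', B', hB', h'⟩
    refine ⟨A * A', B * B', mul_ne_zero hB hB', ?_⟩
    rw [map_mul, map_mul, ← h, ← h']; ring
  one_mem' := ⟨1, 1, by simp, by simp⟩
  add_mem' := by
    rintro x y ⟨A, B, hB, h⟩ ⟨A', B', hB', h'⟩
    refine ⟨B' * A + B * A', B * B', mul_ne_zero hB hB', ?_⟩
    rw [map_mul, map_add, map_mul, map_mul, ← h, ← h']; ring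
  zero_mem' := ⟨0, 1, by simp, by simp⟩
  algebraMap_mem' c := by
    refine ⟨((c.num : ℤ) : LaurentSeries (Zl ℓ)), ((c.den : ℕ) : LaurentSeries (Zl ℓ)), ?_, ?_⟩
    · intro h
      have := congrArg (embZ ℓ) h
      rw [map_natCast, map_zero] at this
      exact natCast_LQ_ne_zero c.den_ne_zero this
    · rw [map_natCast, map_intCast]
      have h1 : ((c.den : ℕ) : LaurentSeries ℚ) = algebraMap ℚ _ (c.den : ℚ) := by simp
      have h2 : ((c.num : ℤ) : LaurentSeries ℚ) = algebraMap ℚ _ (c.num : ℚ) := by simp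
      rw [h1, h2, ← map_mul]
      congr 1
      rw [mul_comm]
      exact Rat.mul_den_eq_num c
  inv_mem' := by
    rintro x ⟨A, B, hB, h⟩
    rcases eq_or_ne x 0 with rfl | hx0
    · exact ⟨0, 1, by simp, by simp⟩
    · refine ⟨B, A, ?_, ?_⟩
      · rintro rfl
        rw [map_zero] at h
        rcases mul_eq_zero.mp h with h | h
        · exact hB (embZ_injective ℓ (by rw [h, map_zero]))
        · exact hx0 h
      · rw [← h, mul_inv_cancel_right₀ hx0]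

theorem mem_or_inv_mem {x : LaurentSeries ℚ} (hx : x ∈ FF ℓ) : x ∈ VV ℓ ∨ x⁻¹ ∈ VV ℓ := by
  obtain ⟨A, B, hB, h⟩ := hx
  rcases eq_or_ne x 0 with rfl | hx0
  · exact Or.inl (VV ℓ).zero_mem
  have hA : A ≠ 0 := by
    rintro rfl
    rw [map_zero] at h
    rcases mul_eq_zero.mp h with h | h
    · exact hB (embZ_injective ℓ (by rw [h, map_zero]))
    · exact hx0 h
  have hl0 : (ℓ : LaurentSeries ℚ) ≠ 0 := natCast_LQ_ne_zero hl.out.ne_zero
  obtain ⟨a, A', hA', hA''⟩ := exists_norm ℓ hA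
  obtain ⟨b, B', hB', hB''⟩ := exists_norm ℓ hB
  rw [hA', hB', map_mul, map_mul, map_pow, map_pow, map_natCast] at h
  rcases le_total b a with hab | hab
  · left
    refine ⟨(ℓ : LaurentSeries (Zl ℓ)) ^ (a - b) * A', B', hB'', ?_⟩
    rw [map_mul, map_pow, map_natCast]
    apply mul_left_cancel₀ (pow_ne_zero b hl0)
    rw [← mul_assoc, h, ← mul_assoc, ← _root_.pow_add, Nat.add_sub_cancel' hab]
  · right
    refine ⟨(ℓ : LaurentSeries (Zl ℓ)) ^ (b - a) * B', A', hA'', ?_⟩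
    rw [map_mul, map_pow, map_natCast]
    apply mul_left_cancel₀ (pow_ne_zero a hl0)
    rw [← mul_assoc, ← h, ← mul_assoc, ← _root_.pow_add, Nat.add_sub_cancel' hab, mul_assoc,
      mul_inv_cancel₀ hx0, mul_one]

end Fermat.Agent.ModFun
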