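import Mathlib
import Fermat.Agent.ModFun.IgusaVal

/-!
Integral elements of the modular function field and reduction.
-/

set_option autoImplicit false

noncomputable section

open HahnSeries ModularCurve IntermediateField Polynomial

namespace Fermat.Agent.ModFun

/-- `1/j` -/
def jInvSer (R : Type*) [CommRing R] : LaurentSeries R :=
  HahnSeries.single (1 : ℤ) 1 *
    HahnSeries.ofPowerSeries ℤ R ((jNum.invOfUnit 1).map (Int.castRingHom R))

theorem jqModC_mul_jInvSer (R : Type*) [CommRing R] : jqModC R * jInvSer R = 1 := by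
  rw [jqModC, jInvSer, mul_mul_mul_comm, ← map_mul, ← map_mul, PowerSeries.mul_invOfUnit _ _
    (by rw [constantCoeff_jNum]; rfl), HahnSeries.single_mul_single]
  simp

theorem coeffMap_jInvSer {R S : Type*} [CommRing R] [CommRing S] (f : R →+* S) :
    coeffMap f (jInvSer R) = jInvSer S := by
  rw [jInvSer, map_mul, coeffMap_single, map_one, coeffMap_ofPowerSeries,
    ← RingHom.comp_apply (PowerSeries.map f) (PowerSeries.map (Int.castRingHom R)),
    ← PowerSeries.map_comp, RingHom.ext_int (f.comp (Int.castRingHom R)) (Int.castRingHom S)]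
  rfl

theorem jInvSer_eq (k : Type*) [Field k] : jInvSer k = (jqModC k)⁻¹ :=
  eq_inv_of_mul_eq_one_right (jqModC_mul_jInvSer k)

theorem j_transcendental (k : Type*) [Field k] : Transcendental k (jqModC k) := by
  rw [transcendental_iff_injective]
  intro P Q h
  apply jev_injective k
  rw [jev_eq_aeval, jev_eq_aeval]
  exact h

/-- `t = j` or `t = 1/j`. -/
inductive TT | fin | inf

/-- the parameter -/
def tt (R : Type*) [CommRing R] : TT → LaurentSeries R
  | .fin => jqModC R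
  | .inf => jInvSer R

theorem coeffMap_tt {R S : Type*} [CommRing R] [CommRing S] (f : R →+* S) (t : TT) :
    coeffMap f (tt R t) = tt S t := by
  cases t
  · exact coeffMap_jqModC f
  · exact coeffMap_jInvSer f

theorem tt_transcendental (k : Type*) [Field k] (t : TT) : Transcendental k (tt k t) := by
  cases t
  · exact j_transcendental k
  · show Transcendental k (jInvSer k)
    rw [jInvSer_eq]
    intro h
    exact j_transcendental k (by simpa using h.inv)

theorem tt_injective (k : Type*) [Field k] (t : TT) :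
    Function.Injective (Polynomial.aeval (tt k t) : k[X] → LaurentSeries k) :=
  transcendental_iff_injective.mp (tt_transcendental k t)

theorem adjoin_tt (k : Type*) [Field k] (t : TT) : k⟮tt k t⟯ = k⟮jqModC k⟯ := by
  cases t
  · rfl
  · show k⟮jInvSer k⟯ = _
    rw [jInvSer_eq]
    apply le_antisymm
    · rw [adjoin_simple_le_iff]
      exact inv_mem (mem_adjoin_simple_self k _)
    · rw [adjoin_simple_le_iff]
      have := inv_mem (mem_adjoin_simple_self k (jqModC k)⁻¹)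
      rwa [inv_inv] at this

variable (ℓ : ℕ) [hl : Fact ℓ.Prime] (t : TT)

/-- `P ↦ P(t)` over `ℤ_(ℓ)` -/
def evZ : (Zl ℓ)[X] →+* LaurentSeries (Zl ℓ) :=
  Polynomial.eval₂RingHom HahnSeries.C (tt (Zl ℓ) t)

theorem coeffMap_evZ {k : Type*} [Field k] (f : Zl ℓ →+* k) (P : (Zl ℓ)[X]) :
    coeffMap f (evZ ℓ t P) = Polynomial.aeval (tt k t) (P.map f) := by
  rw [evZ, Polynomial.coe_eval₂RingHom, Polynomial.hom_eval₂, coeffMap_tt, Polynomial.aeval_def,
    Polynomial.eval₂_map]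
  congr 1
  apply RingHom.ext
  intro a
  rw [RingHom.comp_apply, RingHom.comp_apply, coeffMap_C, C_eq_algebraMap]

theorem embZ_evZ (P : (Zl ℓ)[X]) : embZ ℓ (evZ ℓ t P) =
    Polynomial.aeval (tt ℚ t) (P.map (GaloisRep.ratLocalizedAt ℓ).subtype) :=
  coeffMap_evZ ℓ t _ P

theorem redL_evZ (P : (Zl ℓ)[X]) : redL ℓ (evZ ℓ t P) =
    Polynomial.aeval (tt (ZMod ℓ) t) (P.map (red ℓ)) :=
  coeffMap_evZ ℓ t _ P

theorem poly_eq_mul {P : (Zl ℓ)[X]} (h : redL ℓ (evZ ℓ t P) = 0) : ∃ Q : (Zl ℓ)[X], P = (ℓ : (Zl ℓ)[X]) * Q := by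
  rw [redL_evZ] at h
  have h1 : P.map (red ℓ) = 0 := by
    apply tt_injective (ZMod ℓ) t
    rw [h, map_zero]
  have h2 : Polynomial.C (ℓ : Zl ℓ) ∣ P := by
    rw [Polynomial.C_dvd_iff_dvd_coeff]
    intro i
    have := congrArg (fun Q => Polynomial.coeff Q i) h1
    simp only [Polynomial.coeff_map, Polynomial.coeff_zero] at this
    obtain ⟨y, hy⟩ := red_eq_zero ℓ this
    exact ⟨y, hy⟩
  obtain ⟨Q, hQ⟩ := h2
  refine ⟨Q, ?_⟩
  rw [hQ]
  simp

theorem exists_pow_mul_mem (c : ℚ) : ∃ n : ℕ, (ℓ : ℚ) ^ n * c ∈ GaloisRep.ratLocalizedAt ℓ := by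
  obtain ⟨a, m, hm, hden⟩ := Nat.exists_eq_pow_mul_and_not_dvd c.den_ne_zero ℓ hl.out.ne_one
  refine ⟨a, ?_⟩
  have hm0 : m ≠ 0 := by
    rintro rfl
    exact hm (dvd_zero _)
  have h1 : (ℓ : ℚ) ^ a * c = (c.num : ℚ) / ((m : ℤ) : ℚ) := by
    have h2 : c = c.num / c.den := (Rat.num_div_den c).symm
    have h3 : ((c.den : ℕ) : ℚ) = (ℓ : ℚ) ^ a * m := by rw [hden]; push_cast; rfl
    have hl0 : (ℓ : ℚ) ≠ 0 := by exact_mod_cast hl.out.ne_zero
    have hm0' : (m : ℚ) ≠ 0 := by exact_mod_cast hm0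
    conv_lhs => rw [h2, h3]
    push_cast
    field_simp
  show ((ℓ : ℚ) ^ a * c).den.Coprime ℓ
  rw [h1]
  have h4 := Rat.den_dvd c.num (m : ℤ)
  rw [Rat.divInt_eq_div] at h4
  have h5 : ((c.num : ℚ) / ((m : ℤ) : ℚ)).den ∣ m := by exact_mod_cast h4
  exact Nat.Coprime.coprime_dvd_left h5 (((Nat.Prime.coprime_iff_not_dvd hl.out).mpr hm).symm)

theorem exists_scale (C : ℚ[X]) : ∃ (n : ℕ) (P : (Zl ℓ)[X]),
    P.map (GaloisRep.ratLocalizedAt ℓ).subtype = (ℓ : ℚ[X]) ^ n * C := by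
  choose n hn using fun i => exists_pow_mul_mem ℓ (C.coeff i)
  set M := ∑ i ∈ C.support, n i with hM
  have h1 : ∀ i, (ℓ : ℚ) ^ M * C.coeff i ∈ GaloisRep.ratLocalizedAt ℓ := by
    intro i
    by_cases hi : i ∈ C.support
    · have hle : n i ≤ M := Finset.single_le_sum (f := n) (fun _ _ => Nat.zero_le _) hi
      rw [← Nat.sub_add_cancel hle, _root_.pow_add, mul_assoc]
      refine mul_mem (pow_mem ?_ _) (hn i)
      exact natCast_mem _ ℓ
    · rw [Polynomial.notMem_support_iff.mp hi, mul_zero]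
      exact zero_mem _
  have h2 : (ℓ : ℚ[X]) ^ M * C ∈ Polynomial.lifts (GaloisRep.ratLocalizedAt ℓ).subtype := by
    rw [Polynomial.lifts_iff_coeff_lifts]
    intro i
    have : ((ℓ : ℚ[X]) ^ M * C).coeff i = (ℓ : ℚ) ^ M * C.coeff i := by
      rw [← Polynomial.C_eq_natCast, ← Polynomial.C_pow, Polynomial.coeff_C_mul]
    rw [this]
    exact ⟨⟨_, h1 i⟩, rfl⟩
  rw [Polynomial.mem_lifts] at h2
  obtain ⟨P, hP⟩ := h2
  exact ⟨M, P, hP⟩

theorem algebraMap_natCast_mul (n : ℕ) : (Polynomial.aeval (tt ℚ t)) ((n : ℚ[X])) = (n : LaurentSeries ℚ) := by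
  rw [map_natCast]

/-- Gauss's lemma: `ℚ[t] ∩ VV = ℤ_(ℓ)[t]` -/
theorem gauss_poly (C : ℚ[X]) (hC : Polynomial.aeval (tt ℚ t) C ∈ VV ℓ) :
    ∃ P : (Zl ℓ)[X], P.map (GaloisRep.ratLocalizedAt ℓ).subtype = C := by
  classical
  have hex := exists_scale ℓ C
  have hmin := Nat.find_spec hex
  set n := Nat.find hex with hn
  rcases Nat.eq_zero_or_pos n with h0 | hpos
  · obtain ⟨P, hP⟩ := hmin
    rw [h0, pow_zero, one_mul] at hP
    exact ⟨P, hP⟩
  · exfalso
    obtain ⟨P, hP⟩ := hmin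
    obtain ⟨m, hm⟩ := Nat.exists_eq_succ_of_ne_zero hpos.ne'
    have h1 : embZ ℓ (evZ ℓ t P) = (ℓ : LaurentSeries ℚ) ^ n * Polynomial.aeval (tt ℚ t) C := by
      rw [embZ_evZ, hP, map_mul, map_pow, map_natCast]
    have h2 : redL ℓ (evZ ℓ t P) = 0 := by
      rw [← rho_embZ]
      have : (⟨embZ ℓ (evZ ℓ t P), embZ_mem ℓ _⟩ : VV ℓ) =
          (ℓ : VV ℓ) * ((ℓ : VV ℓ) ^ m * ⟨_, hC⟩) := by
        apply Subtype.ext
        show embZ ℓ (evZ ℓ t P) = _
        rw [h1, hm]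
        push_cast
        rw [pow_succ]
        ring
      rw [this, map_mul, rho_natCast_self, zero_mul]
    obtain ⟨Q, hQ⟩ := poly_eq_mul ℓ t h2
    have h3 : Q.map (GaloisRep.ratLocalizedAt ℓ).subtype = (ℓ : ℚ[X]) ^ m * C := by
      have hl0 : (ℓ : ℚ[X]) ≠ 0 := by
        exact_mod_cast hl.out.ne_zero
      apply mul_left_cancel₀ hl0
      rw [← mul_assoc, ← pow_succ', ← Nat.succ_eq_add_one, ← hm, ← hP, hQ, Polynomial.map_mul]
      simp
    have := Nat.find_min hex (m := m) (by omega) ⟨Q, h3⟩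
    exact this

end Fermat.Agent.ModFun
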