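import Mathlib
import Fermat.Agent.ModFun.IgusaInt

/-!
Integral elements of the modular function field and reduction, II.
-/

set_option autoImplicit false

noncomputable section

open HahnSeries ModularCurve IntermediateField Polynomial

namespace Fermat.Agent.ModFun

variable (ℓ : ℕ) [hl : Fact ℓ.Prime] (t : TT)

theorem descend_aux (c : LaurentSeries ℚ) (hc : c ∈ VV ℓ) (Y : LaurentSeries (Zl ℓ))
    (hY : redL ℓ Y ≠ 0) (w : ℕ) : ∀ Q P : (Zl ℓ)[X],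
      evZ ℓ t Q = (ℓ : LaurentSeries (Zl ℓ)) ^ w * Y →
      embZ ℓ (evZ ℓ t Q) * c = embZ ℓ (evZ ℓ t P) →
      ∃ Q' P' : (Zl ℓ)[X], redL ℓ (evZ ℓ t Q') ≠ 0 ∧
        embZ ℓ (evZ ℓ t Q') * c = embZ ℓ (evZ ℓ t P') := by
  have hlZ : (ℓ : LaurentSeries (Zl ℓ)) ≠ 0 := by
    intro h
    have := congrArg (embZ ℓ) h
    rw [map_natCast, map_zero] at this
    exact natCast_LQ_ne_zero hl.out.ne_zero this
  induction w with
  | zero =>
    intro Q P hQ hP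
    refine ⟨Q, P, ?_, hP⟩
    rw [hQ, pow_zero, one_mul]
    exact hY
  | succ w ih =>
    intro Q P hQ hP
    have hred : redL ℓ (evZ ℓ t Q) = 0 := by
      rw [hQ, pow_succ, mul_assoc, mul_left_comm, map_mul, map_natCast]
      have : (ℓ : LaurentSeries (ZMod ℓ)) = 0 := by
        have h2 : ((ℓ : LaurentSeries (ZMod ℓ))) = HahnSeries.C (ℓ : ZMod ℓ) := by rw [map_natCast]
        rw [h2, ZMod.natCast_self, map_zero]
      rw [this, zero_mul]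
    have hredP : redL ℓ (evZ ℓ t P) = 0 := by
      have h1 : (⟨embZ ℓ (evZ ℓ t Q), embZ_mem ℓ _⟩ : VV ℓ) * ⟨c, hc⟩ =
          ⟨embZ ℓ (evZ ℓ t P), embZ_mem ℓ _⟩ := Subtype.ext hP
      have h2 := congrArg (rho ℓ) h1
      rw [map_mul, rho_embZ, rho_embZ, hred, zero_mul] at h2
      exact h2.symm
    obtain ⟨Q', hQ'⟩ := poly_eq_mul ℓ t hred
    obtain ⟨P', hP'⟩ := poly_eq_mul ℓ t hredP
    apply ih Q' P'
    · apply mul_left_cancel₀ hlZ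
      rw [← mul_assoc, ← pow_succ', ← hQ, hQ', map_mul, map_natCast]
    · apply mul_left_cancel₀ (natCast_LQ_ne_zero (n := ℓ) hl.out.ne_zero)
      rw [hQ', hP', map_mul, map_mul, map_mul, map_mul, map_natCast, map_natCast, mul_assoc] at hP
      exact hP

theorem rho_mem_adjoin (x : VV ℓ) (hx : (x : LaurentSeries ℚ) ∈ ℚ⟮tt ℚ t⟯) :
    rho ℓ x ∈ (ZMod ℓ)⟮tt (ZMod ℓ) t⟯ := by
  rcases eq_or_ne (x : LaurentSeries ℚ) 0 with h0 | h0
  · have : x = 0 := Subtype.ext h0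
    rw [this, map_zero]
    exact zero_mem _
  rw [mem_adjoin_simple_iff] at hx
  obtain ⟨P, Q, hPQ⟩ := hx
  have hQ0 : Polynomial.aeval (tt ℚ t) Q ≠ 0 := by
    intro h
    rw [h, div_zero] at hPQ
    exact h0 hPQ
  obtain ⟨a, P', hP'⟩ := exists_scale ℓ P
  obtain ⟨b, Q', hQ'⟩ := exists_scale ℓ Q
  have hl0 : (ℓ : LaurentSeries ℚ) ≠ 0 := natCast_LQ_ne_zero hl.out.ne_zero
  have e1 : embZ ℓ (evZ ℓ t P') = (ℓ : LaurentSeries ℚ) ^ a * Polynomial.aeval (tt ℚ t) P := by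
    rw [embZ_evZ, hP', map_mul, map_pow, map_natCast]
  have e2 : embZ ℓ (evZ ℓ t Q') = (ℓ : LaurentSeries ℚ) ^ b * Polynomial.aeval (tt ℚ t) Q := by
    rw [embZ_evZ, hQ', map_mul, map_pow, map_natCast]
  have e3 : embZ ℓ (evZ ℓ t ((ℓ : (Zl ℓ)[X]) ^ a * Q')) * x =
      embZ ℓ (evZ ℓ t ((ℓ : (Zl ℓ)[X]) ^ b * P')) := by
    rw [map_mul, map_mul, map_mul, map_mul, map_pow, map_pow, map_pow, map_pow, map_natCast,
      map_natCast, e1, e2, hPQ]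
    field_simp
  have hne : evZ ℓ t ((ℓ : (Zl ℓ)[X]) ^ a * Q') ≠ 0 := by
    intro h
    have := congrArg (embZ ℓ) h
    rw [map_mul, map_mul, map_pow, map_pow, map_natCast, map_natCast, e2, map_zero] at this
    exact (mul_ne_zero (pow_ne_zero _ hl0) (mul_ne_zero (pow_ne_zero _ hl0) hQ0)) this
  obtain ⟨w, Y, hwY, hY⟩ := exists_norm ℓ hne
  obtain ⟨Q'', P'', hQ'', h3⟩ := descend_aux ℓ t x x.2 Y hY w _ _ hwY e3
  rw [rho_eq ℓ x _ _ hQ'' h3, redL_evZ, redL_evZ, mem_adjoin_simple_iff]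
  exact ⟨_, _, rfl⟩

theorem rho_mem_adjoin_j (x : VV ℓ) (hx : (x : LaurentSeries ℚ) ∈ ℚ⟮jqModC ℚ⟯) :
    rho ℓ x ∈ (ZMod ℓ)⟮jqModC (ZMod ℓ)⟯ := rho_mem_adjoin ℓ .fin x hx

/-- coefficients in `ℤ` give elements of `VV`. -/
theorem cZ_mem_VV (y : LaurentSeries ℤ) : cZ ℚ y ∈ VV ℓ := by
  have : cZ ℚ y = embZ ℓ (coeffMap (Int.castRingHom (Zl ℓ)) y) := by
    rw [embZ, cZ, coeffMap_coeffMap, RingHom.ext_int ((GaloisRep.ratLocalizedAt ℓ).subtype.comp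
      (Int.castRingHom (Zl ℓ))) (Int.castRingHom ℚ)]
  rw [this]
  exact embZ_mem ℓ _

theorem rho_cZ (y : LaurentSeries ℤ) : rho ℓ ⟨cZ ℚ y, cZ_mem_VV ℓ y⟩ = cZ (ZMod ℓ) y := by
  have : cZ ℚ y = embZ ℓ (coeffMap (Int.castRingHom (Zl ℓ)) y) := by
    rw [embZ, cZ, coeffMap_coeffMap, RingHom.ext_int ((GaloisRep.ratLocalizedAt ℓ).subtype.comp
      (Int.castRingHom (Zl ℓ))) (Int.castRingHom ℚ)]
  have h2 : (⟨cZ ℚ y, cZ_mem_VV ℓ y⟩ : VV ℓ) =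
      ⟨embZ ℓ (coeffMap (Int.castRingHom (Zl ℓ)) y), embZ_mem ℓ _⟩ := Subtype.ext this
  rw [h2, rho_embZ, redL, coeffMap_coeffMap, cZ,
    RingHom.ext_int ((red ℓ).comp (Int.castRingHom (Zl ℓ))) (Int.castRingHom (ZMod ℓ))]

theorem EN_le_FF (N : ℕ) : modularFunctionFieldFullC ℚ N ≤ FF ℓ := by
  rw [modularFunctionFieldFullC, adjoin_le_iff]
  rintro x ⟨d, hd, hdN, rfl⟩
  have h : qExpand ℚ d (jqModC ℚ) = embZ ℓ (qExpand (Zl ℓ) d (jqModC (Zl ℓ))) := by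
    rw [embZ, coeffMap_qExpand, coeffMap_jqModC]
  exact ⟨qExpand (Zl ℓ) d (jqModC (Zl ℓ)), 1, by simp, by rw [map_one, one_mul, h]⟩

/-- valuation subring of a subfield of `FF`. -/
def VS (E : IntermediateField ℚ (LaurentSeries ℚ)) (hE : E ≤ FF ℓ) : ValuationSubring E where
  carrier := {x | (x : LaurentSeries ℚ) ∈ VV ℓ}
  mul_mem' ha hb := (VV ℓ).mul_mem ha hb
  one_mem' := (VV ℓ).one_mem
  add_mem' ha hb := (VV ℓ).add_mem ha hb
  zero_mem' := (VV ℓ).zero_mem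
  neg_mem' ha := (VV ℓ).neg_mem ha
  mem_or_inv_mem' x := mem_or_inv_mem ℓ (hE x.2)

theorem mem_VS {E : IntermediateField ℚ (LaurentSeries ℚ)} {hE : E ≤ FF ℓ} {x : E} :
    x ∈ VS ℓ E hE ↔ (x : LaurentSeries ℚ) ∈ VV ℓ := Iff.rfl

theorem jle_FF : ℚ⟮jqModC ℚ⟯ ≤ FF ℓ :=
  (jmodle ℚ one_ne_zero).trans (EN_le_FF ℓ 1)

/-- Gauss's lemma for the family `y`. -/
theorem gauss_family {ι : Type*} [Fintype ι] (y : ι → LaurentSeries ℤ)
    (hy : LinearIndependent (ZMod ℓ)⟮jqModC (ZMod ℓ)⟯ (fun i => cZ (ZMod ℓ) (y i)))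
    (c : ι → ℚ⟮jqModC ℚ⟯)
    (hx : ∑ i, (c i : LaurentSeries ℚ) * cZ ℚ (y i) ∈ VV ℓ) (i : ι) :
    (c i : LaurentSeries ℚ) ∈ VV ℓ := by
  classical
  by_contra hcon
  obtain ⟨i0, -, hi0⟩ := Finset.exists_max_image Finset.univ
    (fun i => (VS ℓ _ (jle_FF ℓ)).valuation (c i)) ⟨i, Finset.mem_univ i⟩
  have hi0' : c i0 ∉ VS ℓ _ (jle_FF ℓ) := by
    rw [← ValuationSubring.valuation_le_one_iff]
    intro h
    have h2 := (hi0 i (Finset.mem_univ i)).trans h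
    rw [ValuationSubring.valuation_le_one_iff] at h2
    exact hcon h2
  have hne : (c i0 : LaurentSeries ℚ) ≠ 0 := by
    intro h
    apply hi0'
    rw [mem_VS, h]
    exact (VV ℓ).zero_mem
  have hne' : c i0 ≠ 0 := fun h => hne (by rw [h]; rfl)
  have hinv : (c i0 : LaurentSeries ℚ)⁻¹ ∈ VV ℓ :=
    (mem_or_inv_mem ℓ (jle_FF ℓ (c i0).2)).resolve_left hi0'
  have hinv0 : rho ℓ ⟨_, hinv⟩ = 0 := by
    by_contra h
    have := inv_mem_VV ℓ ⟨_, hinv⟩ h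
    rw [inv_inv] at this
    exact hi0' this
  have hd : ∀ a, (c a : LaurentSeries ℚ) * (c i0 : LaurentSeries ℚ)⁻¹ ∈ VV ℓ := by
    intro a
    have h1 : (VS ℓ _ (jle_FF ℓ)).valuation (c a * (c i0)⁻¹) ≤ 1 := by
      rw [map_mul, map_inv₀]
      have hpos : (VS ℓ _ (jle_FF ℓ)).valuation (c i0) ≠ 0 := by
        rw [Valuation.ne_zero_iff]
        exact hne'
      calc _ ≤ (VS ℓ _ (jle_FF ℓ)).valuation (c i0) * ((VS ℓ _ (jle_FF ℓ)).valuation (c i0))⁻¹ :=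
            mul_le_mul_left (hi0 a (Finset.mem_univ a)) _
        _ = 1 := mul_inv_cancel₀ hpos
    rw [ValuationSubring.valuation_le_one_iff] at h1
    exact h1
  -- apply `rho`
  have h1 : ∑ a, (⟨_, hd a⟩ : VV ℓ) * ⟨cZ ℚ (y a), cZ_mem_VV ℓ (y a)⟩ =
      (⟨_, hinv⟩ : VV ℓ) * ⟨_, hx⟩ := by
    apply Subtype.ext
    rw [AddSubmonoidClass.coe_finsetSum, Subring.coe_mul]
    simp only [Subring.coe_mul]
    rw [Finset.mul_sum]
    refine Finset.sum_congr rfl fun a _ => ?_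
    ring
  have h2 := congrArg (rho ℓ) h1
  rw [map_sum, map_mul, hinv0, zero_mul] at h2
  simp only [map_mul, rho_cZ] at h2
  rw [linearIndependent_iff'] at hy
  have h3 := hy Finset.univ (fun a => ⟨rho ℓ ⟨_, hd a⟩, rho_mem_adjoin_j ℓ _
    (mul_mem (c a).2 (inv_mem (c i0).2))⟩) h2 i0 (Finset.mem_univ _)
  have h4 : rho ℓ ⟨_, hd i0⟩ = 0 := congrArg Subtype.val h3
  have h5 : (⟨_, hd i0⟩ : VV ℓ) = 1 := Subtype.ext (mul_inv_cancel₀ hne)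
  rw [h5, map_one] at h4
  exact one_ne_zero h4

end Fermat.Agent.ModFun
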