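import Mathlib
import Fermat.Agent.ModFun.IgusaInt2

/-!
Integral elements of the modular function field and reduction, III: the main proposition.
-/

set_option autoImplicit false

noncomputable section

open HahnSeries ModularCurve IntermediateField Polynomial
open scoped IntermediateField.algebraAdjoinAdjoin

namespace Fermat.Agent.ModFun

variable (ℓ : ℕ) [hl : Fact ℓ.Prime] (N : ℕ)

theorem N_ne_zero_of_not_dvd (hN : ¬ ℓ ∣ N) : (N : ZMod ℓ) ≠ 0 := by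
  rw [Ne, ZMod.natCast_eq_zero_iff]
  exact hN

theorem independent_Q {ι : Type*} [Fintype ι] (y : ι → LaurentSeries ℤ)
    (hy : LinearIndependent (ZMod ℓ)⟮jqModC (ZMod ℓ)⟯ (fun i => cZ (ZMod ℓ) (y i))) :
    LinearIndependent ℚ⟮jqModC ℚ⟯ (fun i => cZ ℚ (y i)) := by
  rw [Fintype.linearIndependent_iff]
  intro g hg i
  by_contra hne
  have hne' : (g i : LaurentSeries ℚ) ≠ 0 := fun h => hne (Subtype.ext h)
  have hl0 : (ℓ : LaurentSeries ℚ) ≠ 0 := natCast_LQ_ne_zero hl.out.ne_zero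
  have h := gauss_family ℓ y hy (fun a => g a * (g i)⁻¹ * (ℓ : ℚ⟮jqModC ℚ⟯)⁻¹) (by
    have : ∑ a, ((g a * (g i)⁻¹ * (ℓ : ℚ⟮jqModC ℚ⟯)⁻¹ : ℚ⟮jqModC ℚ⟯) : LaurentSeries ℚ) * cZ ℚ (y a)
        = ((g i : LaurentSeries ℚ)⁻¹ * (ℓ : LaurentSeries ℚ)⁻¹) *
          ∑ a, g a • cZ ℚ (y a) := by
      rw [Finset.mul_sum]
      refine Finset.sum_congr rfl fun a _ => ?_
      show (g a : LaurentSeries ℚ) * (g i : LaurentSeries ℚ)⁻¹ * (ℓ : LaurentSeries ℚ)⁻¹ *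
        cZ ℚ (y a) = ((g i : LaurentSeries ℚ)⁻¹ * (ℓ : LaurentSeries ℚ)⁻¹) *
          ((g a : LaurentSeries ℚ) * cZ ℚ (y a))
      ring
    rw [this, hg, mul_zero]
    exact (VV ℓ).zero_mem) i
  have h1 : (ℓ : LaurentSeries ℚ)⁻¹ ∈ VV ℓ := by
    have h2 : ((g i * (g i)⁻¹ * (ℓ : ℚ⟮jqModC ℚ⟯)⁻¹ : ℚ⟮jqModC ℚ⟯) : LaurentSeries ℚ) =
        (ℓ : LaurentSeries ℚ)⁻¹ := by
      rw [mul_inv_cancel₀ hne, one_mul]
      rfl
    rw [← h2]
    exact h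
  have h3 : (1 : VV ℓ) = (ℓ : VV ℓ) * ⟨_, h1⟩ := Subtype.ext (by
    show (1 : LaurentSeries ℚ) = ((ℓ : VV ℓ) : LaurentSeries ℚ) * (ℓ : LaurentSeries ℚ)⁻¹
    have : ((ℓ : VV ℓ) : LaurentSeries ℚ) = (ℓ : LaurentSeries ℚ) := by simp
    rw [this, mul_inv_cancel₀ hl0])
  have h4 := congrArg (rho ℓ) h3
  rw [map_one, map_mul, rho_natCast_self, zero_mul] at h4
  exact one_ne_zero h4

variable {N}

theorem exists_good_basis (hN : ¬ ℓ ∣ N) :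
    ∃ y : Fin (dedekindPsi N) → LaurentSeries ℤ, (∀ i, y i ∈ MonZ N) ∧
      LinearIndependent (ZMod ℓ)⟮jqModC (ZMod ℓ)⟯ (fun i => cZ (ZMod ℓ) (y i)) ∧
      ∀ x ∈ modularFunctionFieldFullC ℚ N,
        x ∈ Submodule.span ℚ⟮jqModC ℚ⟯ (Set.range fun i => cZ ℚ (y i)) := by
  have hN0 : N ≠ 0 := by rintro rfl; exact hN (dvd_zero _)
  have hdeg := degN_eq_psi (ZMod ℓ) N (N_ne_zero_of_not_dvd ℓ N hN)
  have hdeg0 : degN (ZMod ℓ) N ≠ 0 := by rw [hdeg]; exact dedekindPsi_pos hN0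
  have hdegQ := degN_eq_psi ℚ N (by exact_mod_cast hN0)
  have hdegQ0 : degN ℚ N ≠ 0 := by rw [hdegQ]; exact dedekindPsi_pos hN0
  have hb := exists_mon_basis (ZMod ℓ) N hN0 hdeg0
  rw [hdeg] at hb
  obtain ⟨y, hy, hli⟩ := hb
  refine ⟨y, hy, hli, fun x hx => ?_⟩
  refine mem_span_of_card (A := ℚ⟮jqModC ℚ⟯) (B := modularFunctionFieldFullC ℚ N) _ ?_
    (fun i => cZ ℚ (y i)) (fun i => cZ_MonZ_mem ℚ (hy i)) (independent_Q ℓ y hli) hx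
  intro z hz hzli
  rw [degN_eq'] at hdegQ hdegQ0
  have := card_le_relfinrank (jmodle ℚ hN0) hdegQ0 z hz hzli
  rw [Fintype.card_fin, hdegQ] at this
  omega

/-- (d): elements of `F ∩ VV` are integral over `ℚ(j) ∩ VV`. -/
theorem integral_over_VS (hN : ¬ ℓ ∣ N) (E : IntermediateField ℚ (LaurentSeries ℚ))
    (hEj : E = ℚ⟮jqModC ℚ⟯) (hE : E ≤ FF ℓ) {x : LaurentSeries ℚ}
    (hx : x ∈ modularFunctionFieldFullC ℚ N) (hxV : x ∈ VV ℓ) :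
    IsIntegral (VS ℓ E hE) x := by
  subst hEj
  have hN0 : N ≠ 0 := by rintro rfl; exact hN (dvd_zero _)
  obtain ⟨y, hy, hli, hspan⟩ := exists_good_basis ℓ hN
  set M : Submodule (VS ℓ ℚ⟮jqModC ℚ⟯ hE) (LaurentSeries ℚ) :=
    Submodule.span _ (Set.range fun i => cZ ℚ (y i)) with hM
  have hmem : ∀ w, w ∈ modularFunctionFieldFullC ℚ N → w ∈ VV ℓ → w ∈ M := by
    intro w hw hwV
    obtain ⟨c, hc⟩ := (Submodule.mem_span_range_iff_exists_fun _).mp (hspan w hw)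
    have hc' : ∑ i, (c i : LaurentSeries ℚ) * cZ ℚ (y i) = w := hc
    rw [← hc']
    refine sum_mem fun i _ => ?_
    have hci : (c i : LaurentSeries ℚ) ∈ VV ℓ := gauss_family ℓ y hli c (by rw [hc']; exact hwV) i
    have : (c i : LaurentSeries ℚ) * cZ ℚ (y i) =
        (⟨c i, hci⟩ : VS ℓ ℚ⟮jqModC ℚ⟯ hE) • cZ ℚ (y i) := rfl
    rw [this]
    exact Submodule.smul_mem _ _ (Submodule.subset_span ⟨i, rfl⟩)
  have hle : ∀ w ∈ M, w ∈ modularFunctionFieldFullC ℚ N ∧ w ∈ VV ℓ := by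
    intro w hw
    induction hw using Submodule.span_induction with
    | mem w hw =>
      obtain ⟨i, rfl⟩ := hw
      exact ⟨cZ_MonZ_mem ℚ (hy i), cZ_mem_VV ℓ _⟩
    | zero => exact ⟨zero_mem _, (VV ℓ).zero_mem⟩
    | add u v _ _ hu hv => exact ⟨add_mem hu.1 hv.1, (VV ℓ).add_mem hu.2 hv.2⟩
    | smul r u _ hu =>
      have : r • u = ((r : ℚ⟮jqModC ℚ⟯) : LaurentSeries ℚ) * u := rfl
      rw [this]
      exact ⟨mul_mem (jmodle ℚ hN0 (r : ℚ⟮jqModC ℚ⟯).2) hu.1, (VV ℓ).mul_mem r.2 hu.2⟩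
  refine isIntegral_of_smul_mem_submodule M ?_ (Submodule.fg_span (Set.finite_range _)) x ?_
  · intro hbot
    have h1 : (1 : LaurentSeries ℚ) ∈ M := hmem 1 (one_mem _) (VV ℓ).one_mem
    rw [hbot] at h1
    exact one_ne_zero ((Submodule.mem_bot _).mp h1)
  · intro n hn
    obtain ⟨h1, h2⟩ := hle n hn
    exact hmem _ (mul_mem hx h1) ((VV ℓ).mul_mem hxV h2)

variable (t : TT)

/-- `P ↦ P(t) ∈ ℚ((q))`. -/
def theta : (Zl ℓ)[X] →+* LaurentSeries ℚ := (embZ ℓ).comp (evZ ℓ t)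

theorem theta_mem_VV (P : (Zl ℓ)[X]) : theta ℓ t P ∈ VV ℓ := embZ_mem ℓ _

theorem theta_eq (P : (Zl ℓ)[X]) : theta ℓ t P =
    Polynomial.aeval (tt ℚ t) (P.map (GaloisRep.ratLocalizedAt ℓ).subtype) := embZ_evZ ℓ t P

theorem theta_mem_Et (P : (Zl ℓ)[X]) : theta ℓ t P ∈ ℚ⟮tt ℚ t⟯ := by
  rw [theta_eq]
  exact Algebra.adjoin_le (S := (ℚ⟮tt ℚ t⟯).toSubalgebra)
    (by simp)
    (Polynomial.aeval_mem_adjoin_singleton ℚ _)

theorem Et_le_FF : ℚ⟮tt ℚ t⟯ ≤ FF ℓ := by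
  rw [adjoin_tt]
  exact jle_FF ℓ

/-- (e): integral elements lie in `VV`. -/
theorem mem_VV_of_integral {x : LaurentSeries ℚ} (hx : x ∈ modularFunctionFieldFullC ℚ N)
    (hN0 : N ≠ 0) (hint : (theta ℓ t).IsIntegralElem x) : x ∈ VV ℓ := by
  set F := modularFunctionFieldFullC ℚ N with hF
  have hFF : F ≤ FF ℓ := EN_le_FF ℓ N
  have hEF : ℚ⟮tt ℚ t⟯ ≤ F := by rw [adjoin_tt]; exact jmodle ℚ hN0
  let θF : (Zl ℓ)[X] →+* F := (theta ℓ t).codRestrict F fun P => hEF (theta_mem_Et ℓ t P)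
  let θV : (Zl ℓ)[X] →+* VS ℓ F hFF := θF.codRestrict (VS ℓ F hFF) fun P => theta_mem_VV ℓ t P
  obtain ⟨p, hp, hp0⟩ := hint
  have h1 : IsIntegral (VS ℓ F hFF) (⟨x, hx⟩ : F) := by
    refine ⟨p.map θV, hp.map _, ?_⟩
    apply (algebraMap F (LaurentSeries ℚ)).injective
    rw [map_zero, Polynomial.eval₂_map, Polynomial.hom_eval₂]
    exact hp0
  obtain ⟨v, hv⟩ := IsIntegrallyClosed.isIntegral_iff.mp h1
  have h2 : ((v : F) : LaurentSeries ℚ) = x := congrArg Subtype.val hv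
  rw [← h2]
  exact v.2

theorem intClosed_adjoin : IsIntegrallyClosed (Algebra.adjoin ℚ {tt ℚ t}) :=
  IsIntegrallyClosed.of_equiv
    (Polynomial.algEquivOfTranscendental ℚ (tt ℚ t) (tt_transcendental ℚ t)).toRingEquiv

/-- (f): main proposition -/
theorem integral_of_VV (hN : ¬ ℓ ∣ N) {x : LaurentSeries ℚ}
    (hx : x ∈ modularFunctionFieldFullC ℚ N) (hxV : x ∈ VV ℓ)
    (hint : IsIntegral (Algebra.adjoin ℚ {tt ℚ t}) x) : (theta ℓ t).IsIntegralElem x := by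
  have h1 := integral_over_VS ℓ hN ℚ⟮tt ℚ t⟯ (adjoin_tt ℚ t) (Et_le_FF ℓ t) hx hxV
  have h2 := minpoly.isIntegrallyClosed_eq_field_fractions' ℚ⟮tt ℚ t⟯ h1
  have := intClosed_adjoin t
  have h3 := minpoly.isIntegrallyClosed_eq_field_fractions' ℚ⟮tt ℚ t⟯ hint
  set m := minpoly ℚ⟮tt ℚ t⟯ x with hm
  have hmon : m.Monic := by
    rw [h2]
    exact (minpoly.monic h1).map _
  have hlift : m.map (algebraMap ℚ⟮tt ℚ t⟯ (LaurentSeries ℚ)) ∈ Polynomial.lifts (theta ℓ t) := by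
    rw [Polynomial.lifts_iff_coeff_lifts]
    intro n
    rw [Polynomial.coeff_map]
    have hV : (m.coeff n : LaurentSeries ℚ) ∈ VV ℓ := by
      rw [h2, Polynomial.coeff_map]
      exact ((minpoly (VS ℓ ℚ⟮tt ℚ t⟯ (Et_le_FF ℓ t)) x).coeff n).2
    have hA : (m.coeff n : LaurentSeries ℚ) ∈ Algebra.adjoin ℚ {tt ℚ t} := by
      rw [h3, Polynomial.coeff_map]
      exact ((minpoly (Algebra.adjoin ℚ {tt ℚ t}) x).coeff n).2
    rw [Algebra.adjoin_singleton_eq_range_aeval] at hA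
    obtain ⟨C, hC⟩ := hA
    have hC' : Polynomial.aeval (tt ℚ t) C = (m.coeff n : LaurentSeries ℚ) := hC
    obtain ⟨P, hP⟩ := gauss_poly ℓ t C (by rw [hC']; exact hV)
    refine ⟨P, ?_⟩
    rw [theta_eq, hP, hC']
    rfl
  obtain ⟨p, hp1, -, hp2⟩ := Polynomial.lifts_and_natDegree_eq_and_monic hlift (hmon.map _)
  refine ⟨p, hp2, ?_⟩
  rw [Polynomial.eval₂_eq_eval_map, hp1, Polynomial.eval_map]
  exact minpoly.aeval _ _

theorem integral_Q_of_theta {x : LaurentSeries ℚ} (hint : (theta ℓ t).IsIntegralElem x) :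
    IsIntegral (Algebra.adjoin ℚ {tt ℚ t}) x := by
  obtain ⟨p, hp, hp0⟩ := hint
  let θA : (Zl ℓ)[X] →+* Algebra.adjoin ℚ {tt ℚ t} := (theta ℓ t).codRestrict _ fun P => by
    rw [theta_eq]
    exact Polynomial.aeval_mem_adjoin_singleton ℚ _
  refine ⟨p.map θA, hp.map _, ?_⟩
  rw [Polynomial.eval₂_map]
  exact hp0

theorem div_integral (hN : ¬ ℓ ∣ N) {x : LaurentSeries ℚ}
    (hx : x ∈ modularFunctionFieldFullC ℚ N) (hxV : x ∈ VV ℓ)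
    (hint : (theta ℓ t).IsIntegralElem x) (h0 : rho ℓ ⟨x, hxV⟩ = 0) :
    ∃ y : LaurentSeries ℚ, y ∈ modularFunctionFieldFullC ℚ N ∧ (theta ℓ t).IsIntegralElem y ∧
      x = ℓ * y := by
  obtain ⟨y, hy, hxy⟩ := rho_eq_zero ℓ ⟨x, hxV⟩ h0
  have hxy' : x = ℓ * y := hxy
  have hl0 : (ℓ : LaurentSeries ℚ) ≠ 0 := natCast_LQ_ne_zero hl.out.ne_zero
  have hyx : y = algebraMap ℚ (LaurentSeries ℚ) ((ℓ : ℚ)⁻¹) * x := by
    rw [hxy', map_inv₀, map_natCast, inv_mul_cancel_left₀ hl0]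
  have hyF : y ∈ modularFunctionFieldFullC ℚ N := by
    rw [hyx]
    exact mul_mem ((modularFunctionFieldFullC ℚ N).algebraMap_mem _) hx
  refine ⟨y, hyF, integral_of_VV ℓ t hN hyF hy ?_, hxy'⟩
  rw [hyx]
  refine IsIntegral.mul ?_ (integral_Q_of_theta ℓ t hint)
  exact isIntegral_algebraMap (x := algebraMap ℚ (Algebra.adjoin ℚ {tt ℚ t}) ((ℓ : ℚ)⁻¹))

end Fermat.Agent.ModFun
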