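import Mathlib
import Fermat.Prelude.Def_ModularCurve_LaurentCoeff

/-!
`R ⊗ K → K((q))` is injective if `R / ϖ → 𝔽((q))` is.
-/

set_option autoImplicit false

noncomputable section

open HahnSeries ModularCurve
open scoped TensorProduct

namespace Fermat.Agent.ModFun

variable {Z R K 𝔽 : Type*} [CommRing Z] [CommRing R] [Algebra Z R] [Field K] [Algebra Z K] [Field 𝔽]

theorem coeffMap_C' {A B : Type*} [CommRing A] [CommRing B] (f : A →+* B) (a : A) :
    coeffMap f (HahnSeries.C a) = HahnSeries.C (f a) := by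
  rw [HahnSeries.C_apply, coeffMap_single, HahnSeries.C_apply]

/-- `r ⊗ c ↦ c ψ(r)` -/
def PsiG (ψ : R →+* LaurentSeries K)
    (hψ : ∀ a : Z, ψ (algebraMap Z R a) = HahnSeries.C (algebraMap Z K a)) :
    R ⊗[Z] K →+* LaurentSeries K :=
  letI : Algebra Z (LaurentSeries K) :=
    ((HahnSeries.C : K →+* LaurentSeries K).comp (algebraMap Z K)).toAlgebra
  let f : R →ₐ[Z] LaurentSeries K := { ψ with commutes' := fun a => hψ a }
  let g : K →ₐ[Z] LaurentSeries K :=
    { (HahnSeries.C : K →+* LaurentSeries K) with commutes' := fun _ => rfl }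
  (Algebra.TensorProduct.productMap f g).toRingHom

theorem PsiG_tmul (ψ : R →+* LaurentSeries K)
    (hψ : ∀ a : Z, ψ (algebraMap Z R a) = HahnSeries.C (algebraMap Z K a)) (r : R) (c : K) :
    PsiG ψ hψ (r ⊗ₜ c) = ψ r * HahnSeries.C c := rfl

theorem exists_reprG {ι : Type*} (b : ι → K) (redZ : Z →+* 𝔽) (hs : Function.Surjective redZ)
    (io : 𝔽 →+* K) (hio : ∀ a : Z, algebraMap Z K a = io (redZ a))
    (hb : ∀ c : K, ∃ g : ι →₀ 𝔽, c = g.sum fun β a => io a * b β)
    (z : R ⊗[Z] K) : ∃ f : ι →₀ R, z = f.sum fun β r => r ⊗ₜ b β := by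
  classical
  let sec : 𝔽 → Z := fun a => if a = 0 then 0 else (hs a).choose
  have sec_zero : sec 0 = 0 := if_pos rfl
  have red_sec : ∀ a, redZ (sec a) = a := by
    intro a
    by_cases ha : a = 0
    · rw [ha, sec_zero, map_zero]
    · show redZ (if a = 0 then 0 else (hs a).choose) = a
      rw [if_neg ha]
      exact (hs a).choose_spec
  induction z using TensorProduct.induction_on with
  | zero => exact ⟨0, by simp⟩
  | tmul r c =>
    obtain ⟨g, hg⟩ := hb c
    refine ⟨g.mapRange (fun a => sec a • r) (by rw [sec_zero, zero_smul]), ?_⟩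
    rw [Finsupp.sum_mapRange_index (by intro β; exact TensorProduct.zero_tmul _ _)]
    conv_lhs => rw [hg]
    rw [Finsupp.sum, Finsupp.sum, TensorProduct.tmul_sum]
    refine Finset.sum_congr rfl fun β _ => ?_
    rw [TensorProduct.smul_tmul, Algebra.smul_def, hio, red_sec]
  | add x y hx hy =>
    obtain ⟨f, hf⟩ := hx
    obtain ⟨g, hg⟩ := hy
    refine ⟨f + g, ?_⟩
    rw [Finsupp.sum_add_index', hf, hg]
    · intro β; exact TensorProduct.zero_tmul _ _
    · intro β r s; exact TensorProduct.add_tmul _ _ _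

theorem PsiG_injective (redZ : Z →+* 𝔽) (hs : Function.Surjective redZ)
    (io : 𝔽 →+* K) (hio : ∀ a : Z, algebraMap Z K a = io (redZ a))
    (ϖ : Z) (hϖ : redZ ϖ = 0) (ρ : R →+* LaurentSeries 𝔽)
    (hψ : ∀ a : Z, ((coeffMap io).comp ρ) (algebraMap Z R a) = HahnSeries.C (algebraMap Z K a))
    (hdiv : ∀ r : R, ρ r = 0 → ∃ r' : R, r = ϖ • r') :
    Function.Injective (PsiG ((coeffMap io).comp ρ) hψ) := by
  rw [injective_iff_map_eq_zero]
  intro z hz
  let _ : Algebra 𝔽 K := io.toAlgebra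
  let B := Module.Basis.ofVectorSpace 𝔽 K
  obtain ⟨f, hf⟩ := exists_reprG (fun β => B β) redZ hs io hio (fun c => ⟨B.repr c, by
    conv_lhs => rw [← B.linearCombination_repr c]
    rw [Finsupp.linearCombination_apply]
    rfl⟩) z
  have h1 : ∑ β ∈ f.support, (coeffMap io (ρ (f β)) * HahnSeries.C (B β)) = 0 := by
    rw [← hz, hf, Finsupp.sum, map_sum]
    rfl
  have h2 : ∀ β ∈ f.support, ρ (f β) = 0 := by
    intro β hβ
    ext n
    have h3 := congrArg (fun w => HahnSeries.coeff w n) h1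
    simp only [HahnSeries.coeff_sum, HahnSeries.coeff_zero] at h3
    have h4 : ∑ γ ∈ f.support, ((ρ (f γ)).coeff n) • B γ = 0 := by
      rw [← h3]
      refine Finset.sum_congr rfl fun γ _ => ?_
      rw [mul_comm (coeffMap io (ρ (f γ))), HahnSeries.C_apply, HahnSeries.coeff_single_mul,
        sub_zero, mul_comm]
      rfl
    exact linearIndependent_iff'.mp B.linearIndependent _ _ h4 β hβ
  rw [hf, Finsupp.sum]
  refine Finset.sum_eq_zero fun β hβ => ?_
  obtain ⟨r', hr'⟩ := hdiv (f β) (h2 β hβ)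
  have h0 : ϖ • B β = (0 : K) := by
    rw [Algebra.smul_def, hio, hϖ, map_zero, zero_mul]
  rw [hr', TensorProduct.smul_tmul, h0, TensorProduct.tmul_zero]

end Fermat.Agent.ModFun
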