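import Mathlib
import Fermat.Agent.ModFun.IgusaInt3
import Fermat.Agent.ModFun.TensorGen

/-!
`R ⊗ K → K((q))` is injective.
-/

set_option autoImplicit false

noncomputable section

open HahnSeries ModularCurve ModularCurve.IgusaScheme IntermediateField Polynomial
open scoped IntermediateField.algebraAdjoinAdjoin TensorProduct

namespace Fermat.Agent.ModFun

variable (ℓ : ℕ) [hl : Fact ℓ.Prime] (N : ℕ) [NeZero N]

/-- the generator of the chart. -/
def tF : TT → modularFunctionFieldFull N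
  | .fin => jFull N
  | .inf => (jFull N)⁻¹

theorem coe_tF (t : TT) : (tF N t : LaurentSeries ℚ) = tt ℚ t := by
  cases t
  · rfl
  · show ((jFull N)⁻¹ : LaurentSeries ℚ) = jInvSer ℚ
    rw [jInvSer_eq]
    rfl

omit hl [NeZero N] in
theorem algebraMap_comp_Zl :
    (algebraMap (modularFunctionFieldFull N) (LaurentSeries ℚ)).comp
      (algebraMap (Zl ℓ) (modularFunctionFieldFull N)) =
    (algebraMap ℚ (LaurentSeries ℚ)).comp (GaloisRep.ratLocalizedAt ℓ).subtype := by
  have h : (algebraMap (modularFunctionFieldFull N) (LaurentSeries ℚ)).comp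
      (algebraMap ℚ (modularFunctionFieldFull N)) = algebraMap ℚ (LaurentSeries ℚ) :=
    Subsingleton.elim _ _
  rw [← h]
  rfl

theorem theta_integral_of_mem (t : TT) {x : modularFunctionFieldFull N}
    (hx : x ∈ chartAlg N ℓ {tF N t}) : (theta ℓ t).IsIntegralElem (x : LaurentSeries ℚ) := by
  rw [mem_chartAlg_iff] at hx
  obtain ⟨p, hp, hp0⟩ := hx
  -- coefficients lift to `Zl[X]`
  have hl : p.map ((algebraMap (modularFunctionFieldFull N) (LaurentSeries ℚ)).comp
      (algebraMap (Algebra.adjoin (Zl ℓ) {tF N t}) (modularFunctionFieldFull N))) ∈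
      Polynomial.lifts (theta ℓ t) := by
    rw [Polynomial.lifts_iff_coeff_lifts]
    intro n
    rw [Polynomial.coeff_map]
    have h1 : ((p.coeff n : modularFunctionFieldFull N)) ∈
        (Polynomial.aeval (R := Zl ℓ) (tF N t)).range := by
      rw [← Algebra.adjoin_singleton_eq_range_aeval]
      exact (p.coeff n).2
    obtain ⟨P, hP⟩ := h1
    refine ⟨P, ?_⟩
    have hP' : Polynomial.aeval (tF N t) P = (p.coeff n : modularFunctionFieldFull N) := hP
    show theta ℓ t P = ((p.coeff n : modularFunctionFieldFull N) : LaurentSeries ℚ)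
    rw [← hP', theta_eq, ← coe_tF N, Polynomial.aeval_def, Polynomial.eval₂_map]
    rw [Polynomial.aeval_def, show (((Polynomial.eval₂ (algebraMap (Zl ℓ) (modularFunctionFieldFull N))
      (tF N t) P : modularFunctionFieldFull N)) : LaurentSeries ℚ) =
      algebraMap (modularFunctionFieldFull N) (LaurentSeries ℚ) (Polynomial.eval₂
        (algebraMap (Zl ℓ) (modularFunctionFieldFull N)) (tF N t) P) from rfl, Polynomial.hom_eval₂,
        algebraMap_comp_Zl]
    rfl
  obtain ⟨q, hq1, -, hq2⟩ := Polynomial.lifts_and_natDegree_eq_and_monic hl (hp.map _)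
  refine ⟨q, hq2, ?_⟩
  rw [Polynomial.eval₂_eq_eval_map, hq1, Polynomial.eval_map]
  have := congrArg (algebraMap (modularFunctionFieldFull N) (LaurentSeries ℚ)) hp0
  rw [map_zero, Polynomial.hom_eval₂] at this
  exact this

theorem mem_of_theta_integral (t : TT) {x : modularFunctionFieldFull N}
    (hx : (theta ℓ t).IsIntegralElem (x : LaurentSeries ℚ)) : x ∈ chartAlg N ℓ {tF N t} := by
  rw [mem_chartAlg_iff]
  obtain ⟨p, hp, hp0⟩ := hx
  let g : (Zl ℓ)[X] →+* Algebra.adjoin (Zl ℓ) {tF N t} :=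
    ((Polynomial.aeval (tF N t)) : (Zl ℓ)[X] →ₐ[Zl ℓ] modularFunctionFieldFull N).toRingHom.codRestrict
      (Algebra.adjoin (Zl ℓ) {tF N t}) (fun P => Polynomial.aeval_mem_adjoin_singleton _ _)
  have hg : ((algebraMap (modularFunctionFieldFull N) (LaurentSeries ℚ)).comp
      (algebraMap (Algebra.adjoin (Zl ℓ) {tF N t}) (modularFunctionFieldFull N))).comp g = theta ℓ t := by
    apply RingHom.ext
    intro P
    show ((Polynomial.aeval (tF N t) P : modularFunctionFieldFull N) : LaurentSeries ℚ) = _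
    rw [theta_eq, ← coe_tF N, Polynomial.aeval_def, Polynomial.aeval_def, Polynomial.eval₂_map,
      show (((Polynomial.eval₂ (algebraMap (Zl ℓ) (modularFunctionFieldFull N))
      (tF N t) P : modularFunctionFieldFull N)) : LaurentSeries ℚ) =
      algebraMap (modularFunctionFieldFull N) (LaurentSeries ℚ) (Polynomial.eval₂
        (algebraMap (Zl ℓ) (modularFunctionFieldFull N)) (tF N t) P) from rfl, Polynomial.hom_eval₂,
        algebraMap_comp_Zl]
    rfl
  refine ⟨p.map g, hp.map _, ?_⟩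
  apply (algebraMap (modularFunctionFieldFull N) (LaurentSeries ℚ)).injective
  rw [map_zero, Polynomial.hom_eval₂, Polynomial.eval₂_map, hg]
  exact hp0

theorem chart_mem_VV (t : TT) {x : modularFunctionFieldFull N}
    (hx : x ∈ chartAlg N ℓ {tF N t}) : (x : LaurentSeries ℚ) ∈ VV ℓ :=
  mem_VV_of_integral ℓ t x.2 (NeZero.ne N) (theta_integral_of_mem ℓ N t hx)

section Tensor

variable (K : Type) [Field K] [CharP K ℓ] [Algebra (Zl ℓ) K]

/-- `𝔽_ℓ → K` -/
def iota : ZMod ℓ →+* K := ZMod.castHom (dvd_refl ℓ) K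

theorem algebraMap_eq_iota (a : Zl ℓ) : algebraMap (Zl ℓ) K a = iota ℓ K (red ℓ a) := by
  have hden : (((a : ℚ).den : ℕ) : K) ≠ 0 := by
    intro h
    have h2 := (CharP.cast_eq_zero_iff K ℓ _).mp h
    have h3 : (a : ℚ).den.Coprime ℓ := a.2
    have := Nat.Coprime.eq_one_of_dvd h3.symm h2
    exact hl.out.one_lt.ne' this
  have key : ∀ f : Zl ℓ →+* K, f a * (((a : ℚ).den : ℕ) : K) = (((a : ℚ).num : ℤ) : K) := by
    intro f
    have h : a * (((a : ℚ).den : ℕ) : Zl ℓ) = (((a : ℚ).num : ℤ) : Zl ℓ) := by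
      apply Subtype.ext
      push_cast
      exact Rat.mul_den_eq_num _
    have h2 := congrArg f h
    rwa [map_mul, map_natCast, map_intCast] at h2
  apply mul_right_cancel₀ hden
  rw [key (algebraMap (Zl ℓ) K)]
  exact (key ((iota ℓ K).comp (red ℓ))).symm

variable {ℓ N}
variable (Rc : Subalgebra (Zl ℓ) (modularFunctionFieldFull N))
  (hV : ∀ x ∈ Rc, (x : LaurentSeries ℚ) ∈ VV ℓ)

omit [NeZero N] in
variable {Rc} in
/-- inclusion in `VV` -/
def toVV (hV : ∀ x ∈ Rc, (x : LaurentSeries ℚ) ∈ VV ℓ) : Rc →+* VV ℓ :=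
  ((algebraMap (modularFunctionFieldFull N) (LaurentSeries ℚ)).comp Rc.val.toRingHom).codRestrict
    (VV ℓ) fun x => hV x x.2

variable {Rc} in
/-- reduction -/
def psi : Rc →+* LaurentSeries K := (coeffMap (iota ℓ K)).comp ((rho ℓ).comp (toVV hV))

omit [NeZero N] in
theorem psi_algebraMap (a : Zl ℓ) : psi K hV (algebraMap (Zl ℓ) Rc a) =
    HahnSeries.C (algebraMap (Zl ℓ) K a) := by
  have h1 : toVV hV (algebraMap (Zl ℓ) Rc a) = ⟨embZ ℓ (HahnSeries.C a), embZ_mem ℓ _⟩ := by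
    apply Subtype.ext
    show algebraMap (modularFunctionFieldFull N) (LaurentSeries ℚ)
      (algebraMap (Zl ℓ) (modularFunctionFieldFull N) a) = embZ ℓ (HahnSeries.C a)
    rw [← RingHom.comp_apply, algebraMap_comp_Zl, embZ, coeffMap_C, C_eq_algebraMap]
    rfl
  rw [psi, RingHom.comp_apply, RingHom.comp_apply, h1, rho_embZ, redL, coeffMap_C, coeffMap_C,
    algebraMap_eq_iota]

end Tensor

section Chart

variable {N}

theorem chart_div (hN : ¬ ℓ ∣ N) (t : TT) (r : chartAlg N ℓ {tF N t})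
    (h0 : rho ℓ (toVV (fun _ hx => chart_mem_VV ℓ N t hx) r) = 0) :
    ∃ r' : chartAlg N ℓ {tF N t}, r = (ℓ : Zl ℓ) • r' := by
  obtain ⟨y, hy1, hy2, hy3⟩ := div_integral ℓ t hN r.1.2 (chart_mem_VV ℓ N t r.2)
    (theta_integral_of_mem ℓ N t r.2) h0
  refine ⟨⟨⟨y, hy1⟩, mem_of_theta_integral ℓ N t hy2⟩, ?_⟩
  apply Subtype.ext
  apply Subtype.ext
  rw [hy3]
  rw [Algebra.smul_def]
  show _ = ((algebraMap (Zl ℓ) (modularFunctionFieldFull N) (ℓ : Zl ℓ) : modularFunctionFieldFull N) :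
    LaurentSeries ℚ) * y
  rw [map_natCast]
  simp

theorem PsiG_chart_injective (hN : ¬ ℓ ∣ N) (t : TT) (K : Type) [Field K] [CharP K ℓ]
    [Algebra (Zl ℓ) K] :
    Function.Injective (PsiG (psi K (fun _ hx => chart_mem_VV ℓ N t hx : ∀ x ∈ chartAlg N ℓ {tF N t},
      (x : LaurentSeries ℚ) ∈ VV ℓ)) (psi_algebraMap K _ _)) :=
  PsiG_injective (red ℓ) (red_surjective ℓ) (iota ℓ K) (algebraMap_eq_iota ℓ K) (ℓ : Zl ℓ)
    (red_natCast_self ℓ) _ (psi_algebraMap K _ _) (chart_div ℓ hN t)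

theorem isDomain_chart (hN : ¬ ℓ ∣ N) (t : TT) (K : Type) [Field K] [CharP K ℓ] [Algebra (Zl ℓ) K] :
    IsDomain (chartAlg N ℓ {tF N t} ⊗[Zl ℓ] K) :=
  (PsiG_chart_injective ℓ hN t K).isDomain _

end Chart

end Fermat.Agent.ModFun
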