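import Mathlib

/-!
A scheme covered by two integral open subschemes with nonempty intersection is integral.
-/

set_option autoImplicit false

noncomputable section

open CategoryTheory CategoryTheory.Limits AlgebraicGeometry TopologicalSpace

namespace Fermat.Agent.ModFun

universe u

theorem isIntegral_of_two {X U V : Scheme.{u}} (f : U ⟶ X) (g : V ⟶ X) [IsOpenImmersion f]
    [IsOpenImmersion g] [IsIntegral U] [IsIntegral V]
    (hcov : ∀ x : X, x ∈ Set.range f.base ∨ x ∈ Set.range g.base)
    (hne : (Set.range f.base ∩ Set.range g.base).Nonempty) : IsIntegral X := by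
  have hred : IsReduced X := by
    have : ∀ x : X, _root_.IsReduced (X.presheaf.stalk x) := by
      intro x
      rcases hcov x with ⟨y, rfl⟩ | ⟨y, rfl⟩
      · exact isReduced_of_injective (f.stalkMap y).hom
          (ConcreteCategory.bijective_of_isIso (f.stalkMap y)).1
      · exact isReduced_of_injective (g.stalkMap y).hom
          (ConcreteCategory.bijective_of_isIso (g.stalkMap y)).1
    exact isReduced_of_isReduced_stalk X
  have hfo : IsOpen (Set.range f.base) := f.isOpenEmbedding.isOpen_range
  have hgo : IsOpen (Set.range g.base) := g.isOpenEmbedding.isOpen_range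
  have hf : IsIrreducible (Set.range f.base) := by
    rw [← Set.image_univ]
    exact (IrreducibleSpace.isIrreducible_univ U).image _ f.continuous.continuousOn
  have hg : IsIrreducible (Set.range g.base) := by
    rw [← Set.image_univ]
    exact (IrreducibleSpace.isIrreducible_univ V).image _ g.continuous.continuousOn
  have h1 : IsPreirreducible (Set.range f.base ∩ Set.range g.base) :=
    hf.2.open_subset (hfo.inter hgo) Set.inter_subset_left
  have h2 : IsIrreducible (closure (Set.range f.base ∩ Set.range g.base)) :=
    isIrreducible_iff_closure.mpr ⟨hne, h1⟩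
  have h3 : closure (Set.range f.base ∩ Set.range g.base) = Set.univ := by
    apply Set.eq_univ_of_forall
    intro x
    rcases hcov x with hx | hx
    · exact subset_closure_inter_of_isPreirreducible_of_isOpen hf.2 hgo hne hx
    · have := subset_closure_inter_of_isPreirreducible_of_isOpen hg.2 hfo
        (by rwa [Set.inter_comm]) hx
      rwa [Set.inter_comm] at this
  rw [h3] at h2
  have : IrreducibleSpace X := by
    have h4 : Nonempty X := ⟨hne.some⟩
    exact { isPreirreducible_univ := h2.2, toNonempty := h4 }
  exact isIntegral_of_irreducibleSpace_of_isReduced X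

/-- pullback of an open immersion, along with its range. -/
theorem pullback_chart {W X Y Z : Scheme.{u}} (f : X ⟶ Z) (g : Y ⟶ Z) (i : W ⟶ X)
    [IsOpenImmersion i] [IsIntegral (pullback (i ≫ f) g)] :
    ∃ h : pullback i (pullback.fst f g) ⟶ pullback f g, IsOpenImmersion h ∧
      IsIntegral (pullback i (pullback.fst f g)) ∧
      Set.range h.base = (pullback.fst f g).base ⁻¹' (Set.range i.base) := by
  refine ⟨pullback.snd i (pullback.fst f g), inferInstance, ?_, ?_⟩
  · exact IsIntegral.of_isIso (pullbackRightPullbackFstIso f g i).inv
  · exact IsOpenImmersion.range_pullbackSnd i (pullback.fst f g)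

end Fermat.Agent.ModFun
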